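/-
DELTA / NODE (helper2): the integer-valued order function of a discrete valuation subring.

`dlOrd V f : ℤ` for `V : ValuationSubring F` with `[IsDiscreteValuationRing V]` (any `V`, also of
mixed characteristic — the Prelude `AlgebraicCurve.Place.ord` needs a field of constants).
-/
import Mathlib

set_option autoImplicit false

namespace Fermat.Agent.Delta

open IsDedekindDomain WithZero

variable {F : Type*} [Field F] (V : ValuationSubring F) [IsDiscreteValuationRing V]

/-- the maximal ideal of a discrete valuation subring as a height one prime -/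
noncomputable def dlHos : HeightOneSpectrum V := IsDiscreteValuationRing.maximalIdeal _

/-- the adic valuation -/
noncomputable def dlAdic : Valuation F ℤᵐ⁰ := (dlHos V).valuation F

/-- the order function of a discrete valuation subring -/
noncomputable def dlOrd (f : F) : ℤ := -(WithZero.log (dlAdic V f))

theorem dlAdic_ne_zero {f : F} (hf : f ≠ 0) : dlAdic V f ≠ 0 :=
  (Valuation.ne_zero_iff _).mpr hf

theorem dlAdic_coe (a : V) : dlAdic V (a : F) = (dlHos V).intValuation a := by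
  simpa [dlAdic] using (dlHos V).valuation_of_algebraMap (K := F) a

theorem dlAdic_coe_eq_one_iff (a : V) : dlAdic V (a : F) = 1 ↔ IsUnit a := by
  rw [dlAdic_coe, HeightOneSpectrum.intValuation_eq_one_iff]
  show a ∉ IsLocalRing.maximalIdeal V ↔ _
  rw [IsLocalRing.mem_maximalIdeal, mem_nonunits_iff, not_not]

theorem dlAdic_coe_irreducible {π : V} (hπ : Irreducible π) :
    dlAdic V (π : F) = exp (-1 : ℤ) := by
  rw [dlAdic_coe]
  exact HeightOneSpectrum.intValuation_singleton _ hπ.ne_zero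
    (by show IsLocalRing.maximalIdeal V = _; rw [hπ.maximalIdeal_eq])

theorem dlAdic_le_one_of_mem {f : F} (hf : f ∈ V) : dlAdic V f ≤ 1 := by
  have := (dlHos V).valuation_le_one (K := F) (⟨f, hf⟩ : V)
  simpa [dlAdic] using this

@[simp] theorem dlOrd_zero : dlOrd V (0 : F) = 0 := by simp [dlOrd]

@[simp] theorem dlOrd_one : dlOrd V (1 : F) = 0 := by simp [dlOrd]

theorem dlOrd_mul {f g : F} (hf : f ≠ 0) (hg : g ≠ 0) :
    dlOrd V (f * g) = dlOrd V f + dlOrd V g := by
  simp only [dlOrd, map_mul]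
  rw [WithZero.log_mul (dlAdic_ne_zero V hf) (dlAdic_ne_zero V hg)]
  ring

theorem dlOrd_inv (f : F) : dlOrd V f⁻¹ = -dlOrd V f := by
  rcases eq_or_ne f 0 with rfl | hf
  · simp
  · simp only [dlOrd, map_inv₀, WithZero.log_inv, neg_neg]

theorem dlOrd_div {f g : F} (hf : f ≠ 0) (hg : g ≠ 0) :
    dlOrd V (f / g) = dlOrd V f - dlOrd V g := by
  rw [div_eq_mul_inv, dlOrd_mul V hf (inv_ne_zero hg), dlOrd_inv]; ring

theorem dlOrd_zpow (f : F) (n : ℤ) : dlOrd V (f ^ n) = n * dlOrd V f := by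
  simp only [dlOrd, map_zpow₀, WithZero.log_zpow, smul_eq_mul]
  ring

theorem dlOrd_pow (f : F) (n : ℕ) : dlOrd V (f ^ n) = n * dlOrd V f := by
  have := dlOrd_zpow V f n
  simpa using this

theorem dlOrd_neg (f : F) : dlOrd V (-f) = dlOrd V f := by
  simp [dlOrd, Valuation.map_neg]

theorem dlOrd_prod {ι : Type*} (s : Finset ι) (f : ι → F) (hf : ∀ i ∈ s, f i ≠ 0) :
    dlOrd V (∏ i ∈ s, f i) = ∑ i ∈ s, dlOrd V (f i) := by
  classical
  induction s using Finset.induction_on with
  | empty => simp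
  | insert a s ha ih =>
    rw [Finset.prod_insert ha, Finset.sum_insert ha,
      dlOrd_mul V (hf a (Finset.mem_insert_self a s))
        (Finset.prod_ne_zero_iff.mpr fun i hi => hf i (Finset.mem_insert_of_mem hi)),
      ih fun i hi => hf i (Finset.mem_insert_of_mem hi)]

theorem dlAdic_eq_exp_neg_ord {f : F} (hf : f ≠ 0) : dlAdic V f = exp (-dlOrd V f) := by
  rw [dlOrd, neg_neg, WithZero.exp_log (dlAdic_ne_zero V hf)]

theorem dlOrd_coe_unit (u : Vˣ) : dlOrd V ((u : V) : F) = 0 := by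
  simp [dlOrd, (dlAdic_coe_eq_one_iff V _).mpr u.isUnit]

theorem dlOrd_coe_irreducible {π : V} (hπ : Irreducible π) : dlOrd V (π : F) = 1 := by
  simp [dlOrd, dlAdic_coe_irreducible V hπ]

/-- membership in the valuation ring in terms of the adic valuation -/
theorem dl_mem_iff_adic_le_one {f : F} : f ∈ V ↔ dlAdic V f ≤ 1 := by
  constructor
  · exact dlAdic_le_one_of_mem V
  · intro h
    by_contra hf
    have hf0 : f ≠ 0 := fun h0 => hf (h0 ▸ V.zero_mem)
    have hinv : f⁻¹ ∈ V := (V.mem_or_inv_mem f).resolve_left hf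
    have hnu : ¬ IsUnit (⟨f⁻¹, hinv⟩ : V) := by
      intro hu
      obtain ⟨u, hu⟩ := hu
      apply hf
      have h1 : ((u⁻¹ : Vˣ) : V) * ⟨f⁻¹, hinv⟩ = 1 := by
        rw [← hu]; exact u.inv_mul
      have h2 : (((u⁻¹ : Vˣ) : V) : F) * f⁻¹ = 1 := by
        have := congrArg Subtype.val h1
        simpa using this
      have h3 : (((u⁻¹ : Vˣ) : V) : F) = f := by
        field_simp at h2
        exact h2
      rw [← h3]
      exact Subtype.mem _
    have h1 : dlAdic V f⁻¹ ≤ 1 := dlAdic_le_one_of_mem V hinv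
    have h2 : dlAdic V f⁻¹ ≠ 1 := fun h2 => hnu ((dlAdic_coe_eq_one_iff V ⟨f⁻¹, hinv⟩).mp h2)
    have h3 : dlAdic V f⁻¹ < 1 := lt_of_le_of_ne h1 h2
    rw [map_inv₀] at h3
    have h4 : dlAdic V f ≠ 0 := dlAdic_ne_zero V hf0
    have h5 : 1 < dlAdic V f := by
      by_contra h5
      push Not at h5
      have := one_le_inv₀ (zero_lt_iff.mpr h4) |>.mpr h5
      exact absurd h3 (not_lt.mpr this)
    exact absurd h (not_le.mpr h5)

theorem dlAdic_le_exp_iff {f : F} {n : ℤ} : dlAdic V f ≤ exp n ↔ f = 0 ∨ -n ≤ dlOrd V f := by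
  rcases eq_or_ne f 0 with rfl | hf
  · simp
  · rw [dlAdic_eq_exp_neg_ord V hf, exp_le_exp]
    constructor
    · intro h; right; omega
    · rintro (h | h)
      · exact absurd h hf
      · omega

/-- membership in the valuation ring in terms of the order -/
theorem dl_mem_iff {f : F} : f ∈ V ↔ f = 0 ∨ 0 ≤ dlOrd V f := by
  rw [dl_mem_iff_adic_le_one, ← exp_zero, dlAdic_le_exp_iff, neg_zero]

theorem dl_mem_of_ord_nonneg {f : F} (h : 0 ≤ dlOrd V f) : f ∈ V := (dl_mem_iff V).mpr (Or.inr h)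

theorem dlOrd_nonneg_of_mem {f : F} (h : f ∈ V) : 0 ≤ dlOrd V f := by
  rcases (dl_mem_iff V).mp h with h0 | h0
  · rw [h0, dlOrd_zero]
  · exact h0

/-- comparison of valuations in terms of orders -/
theorem dl_valuation_le_iff {f g : F} (hf : f ≠ 0) (hg : g ≠ 0) :
    V.valuation f ≤ V.valuation g ↔ dlOrd V g ≤ dlOrd V f := by
  have h1 : V.valuation f ≤ V.valuation g ↔ f / g ∈ V := by
    rw [← V.valuation_le_one_iff, map_div₀, div_le_one₀ (zero_lt_iff.mpr ((Valuation.ne_zero_iff _).mpr hg))]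
  rw [h1, dl_mem_iff, dlOrd_div V hf hg]
  constructor
  · rintro (h | h)
    · exact absurd h (div_ne_zero hf hg)
    · omega
  · intro h; right; omega

theorem dl_valuation_lt_iff {f g : F} (hf : f ≠ 0) (hg : g ≠ 0) :
    V.valuation f < V.valuation g ↔ dlOrd V g < dlOrd V f := by
  rw [← not_le, dl_valuation_le_iff V hg hf, not_le]

theorem dl_valuation_eq_iff {f g : F} (hf : f ≠ 0) (hg : g ≠ 0) :
    V.valuation f = V.valuation g ↔ dlOrd V f = dlOrd V g := by
  rw [le_antisymm_iff, dl_valuation_le_iff V hf hg, dl_valuation_le_iff V hg hf]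
  constructor
  · rintro ⟨h1, h2⟩; omega
  · intro h; constructor <;> omega

theorem dl_valuation_eq_one_iff {f : F} (hf : f ≠ 0) : V.valuation f = 1 ↔ dlOrd V f = 0 := by
  have := dl_valuation_eq_iff V hf (one_ne_zero)
  rwa [map_one, dlOrd_one] at this

theorem dl_valuation_lt_one_iff {f : F} (hf : f ≠ 0) : V.valuation f < 1 ↔ 0 < dlOrd V f := by
  have := dl_valuation_lt_iff V hf (one_ne_zero)
  rwa [map_one, dlOrd_one] at this

/-- the ultrametric inequality -/
theorem dlOrd_add_ge {f g : F} (hfg : f + g ≠ 0) {n : ℤ} (hf : f = 0 ∨ n ≤ dlOrd V f)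
    (hg : g = 0 ∨ n ≤ dlOrd V g) : n ≤ dlOrd V (f + g) := by
  have h1 : dlAdic V f ≤ exp (-n) := (dlAdic_le_exp_iff V).mpr (by rwa [neg_neg])
  have h2 : dlAdic V g ≤ exp (-n) := (dlAdic_le_exp_iff V).mpr (by rwa [neg_neg])
  have h3 : dlAdic V (f + g) ≤ exp (-n) := (Valuation.map_add _ _ _).trans (max_le h1 h2)
  rcases (dlAdic_le_exp_iff V).mp h3 with h | h
  · exact absurd h hfg
  · rwa [neg_neg] at h

theorem dlOrd_add_of_lt {f g : F} (hf : f ≠ 0) (h : g = 0 ∨ dlOrd V f < dlOrd V g) :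
    dlOrd V (f + g) = dlOrd V f := by
  rcases eq_or_ne g 0 with rfl | hg
  · rw [add_zero]
  have h := h.resolve_left hg
  have hv : dlAdic V g < dlAdic V f := by
    rw [dlAdic_eq_exp_neg_ord V hf, dlAdic_eq_exp_neg_ord V hg, exp_lt_exp]
    omega
  have h1 : dlAdic V (f + g) = dlAdic V f := by
    rw [add_comm]
    exact Valuation.map_add_eq_of_lt_right _ hv
  have hfg : f + g ≠ 0 := by
    intro h0
    rw [h0, map_zero] at h1
    exact dlAdic_ne_zero V hf h1.symm
  rw [dlAdic_eq_exp_neg_ord V hfg, dlAdic_eq_exp_neg_ord V hf] at h1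
  have := exp_injective h1
  omega

/-- a uniformiser exists -/
theorem dl_exists_ord_eq_one : ∃ a : F, a ∈ V ∧ dlOrd V a = 1 := by
  obtain ⟨π, hπ⟩ := IsDiscreteValuationRing.exists_irreducible V
  exact ⟨π, π.2, dlOrd_coe_irreducible V hπ⟩

/-- every nonzero element is a unit times a power of an element of order one -/
theorem dl_exists_unit_mul_zpow {a : F} (ha : dlOrd V a = 1) {f : F} (hf : f ≠ 0) :
    ∃ u : F, V.valuation u = 1 ∧ f = u * a ^ dlOrd V f := by
  have ha0 : a ≠ 0 := by rintro rfl; simp at ha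
  refine ⟨f / a ^ dlOrd V f, ?_, by field_simp⟩
  have hne : f / a ^ dlOrd V f ≠ 0 := div_ne_zero hf (zpow_ne_zero _ ha0)
  rw [dl_valuation_eq_one_iff V hne, dlOrd_div V hf (zpow_ne_zero _ ha0), dlOrd_zpow, ha]
  ring

end Fermat.Agent.Delta
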