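/-
DELTA / NODE (helper2, interface for helper8's NODE-ABS): the abstract node.

`F` is the function field of a normal arithmetic surface over the discrete valuation ring `O ⊆ L`
(uniformiser `ϖ`, residue field `k`).  A node is given by a KRULL presentation `P : T4Pres F`
(Lib/T4/Local/Defs) whose ring `A = P.B` is LOCAL: `P.vals` = the two vertical discrete valuation
rings `W`, `W'` (uniformiser `ϖ`) and the horizontal ones (`ϖ` a unit: the closed points of the
generic fibre specialising to the node).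

* `DlCross` — the INSTANCE-FACING form (what NODE-X proves from Σ-GLUE at level `H₁`): two smooth
  branches crossing transversally (`A ⧸ 𝔭_W`, `A ⧸ 𝔭_W'` principal ideal rings,
  `𝔭_W + 𝔭_W' = 𝔪_A`), residue field `k`, (FIN), and the vertical unit (VERT).
* `DlNode` — the NORMAL FORM `t · t' = ϖ ^ w`, `𝔪_A = (t, t', ϖ)` (helper8's (N3),(N4) produce it
  from a `DlCross`; the étale transfer NODE-ET carries it to the nodes of the cover `Y`).

Both instances (X at a node `s`; Y at a node `(s, ρ)`) are produced by existing machinery: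
`P₁.loc 𝔫` / `P₁.through 𝔫` of a chart presentation built with `T4vpData`, resp. NODE-ET.
-/
import Fermat.Agent.Lib.Delta.Node.Ord
import Fermat.Agent.Lib.T4.Local.Loc

set_option autoImplicit false

namespace Fermat.Agent.Delta

open Fermat.Agent.T4

/-- `a` is a uniformiser of the valuation subring `V` -/
def DlUnif {F : Type*} [Field F] (V : ValuationSubring F) (a : F) : Prop :=
  V.valuation a < 1 ∧ ∀ x : F, V.valuation x < 1 → V.valuation x ≤ V.valuation a

/-- the common part of `DlCross` and `DlNode`: a local Krull ring over `O` with exactly two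
vertical valuation rings -/
structure DlLocal (L F : Type*) [Field L] [Field F] [Algebra L F] where
  /-- the base discrete valuation ring -/
  O : ValuationSubring L
  dvrO : IsDiscreteValuationRing O
  /-- the uniformiser of the base -/
  ϖ : L
  hϖ : DlUnif O ϖ
  /-- the Krull presentation of the local ring `A = P.B` -/
  P : T4Pres F
  isLocal : IsLocalRing P.B
  noeth : IsNoetherianRing P.B
  /-- the two vertical valuation rings -/
  W : ValuationSubring F
  W' : ValuationSubring F
  hW : W ∈ P.vals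
  hW' : W' ∈ P.vals
  W_ne : W ≠ W'
  ϖW : DlUnif W (algebraMap L F ϖ)
  ϖW' : DlUnif W' (algebraMap L F ϖ)
  /-- `O ⊆ A` -/
  O_le : ∀ a ∈ O, algebraMap L F a ∈ P.B
  /-- the other valuation rings are horizontal -/
  hor_ϖ : ∀ V ∈ P.vals, V ≠ W → V ≠ W' → V.valuation (algebraMap L F ϖ) = 1
  /-- the residue field of `A` is the residue field of `O` -/
  resk : ∀ f : P.B, ∃ a : L, ∃ ha : a ∈ O, ¬ IsUnit (f - ⟨algebraMap L F a, O_le a ha⟩)
  /-- (FIN): the closed points through the node are finite over `O` -/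
  fin : ∀ V ∈ P.vals, V ≠ W → V ≠ W' → ∃ S : Finset F, (∀ s ∈ S, s ∈ P.B) ∧
    ∀ f ∈ P.B, ∃ c : F → L, (∀ s, c s ∈ O) ∧
      V.valuation (f - ∑ s ∈ S, algebraMap L F (c s) * s) < 1

namespace DlLocal

variable {L F : Type*} [Field L] [Field F] [Algebra L F] (𝒩 : DlLocal L F)

/-- the local ring -/
abbrev A : Subring F := 𝒩.P.B

/-- the horizontal valuation rings through the node -/
def hor : Set (ValuationSubring F) := {V ∈ 𝒩.P.vals | V ≠ 𝒩.W ∧ V ≠ 𝒩.W'}

/-- `ϖ` as an element of `F` -/
abbrev pi : F := algebraMap L F 𝒩.ϖ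

/-- the centre of a valuation ring of the presentation on `A` -/
def ctr (V : ValuationSubring F) (hV : V ∈ 𝒩.P.vals) : Ideal 𝒩.P.B where
  carrier := {f | V.valuation (f : F) < 1}
  add_mem' := by
    intro f g hf hg
    exact lt_of_le_of_lt (V.valuation.map_add _ _) (max_lt hf hg)
  zero_mem' := by
    show V.valuation ((0 : 𝒩.P.B) : F) < 1
    rw [Subring.coe_zero, map_zero]; exact zero_lt_one
  smul_mem' := by
    intro c f hf
    show V.valuation ((c * f : 𝒩.P.B) : F) < 1
    rw [Subring.coe_mul, map_mul]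
    have hc : V.valuation (c : F) ≤ 1 := (V.valuation_le_one_iff _).mpr (𝒩.P.B_le hV c.2)
    calc V.valuation (c : F) * V.valuation (f : F) ≤ 1 * V.valuation (f : F) :=
          mul_le_mul_left hc _
      _ = V.valuation (f : F) := one_mul _
      _ < 1 := hf

theorem mem_ctr {V : ValuationSubring F} {hV : V ∈ 𝒩.P.vals} {f : 𝒩.P.B} :
    f ∈ 𝒩.ctr V hV ↔ V.valuation (f : F) < 1 := Iff.rfl

theorem pi_mem : 𝒩.pi ∈ 𝒩.P.B := 𝒩.O_le 𝒩.ϖ ((𝒩.O.valuation_le_one_iff _).mp 𝒩.hϖ.1.le)

/-- `ϖ` as an element of `A` -/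
def piA : 𝒩.P.B := ⟨𝒩.pi, 𝒩.pi_mem⟩

instance : IsLocalRing 𝒩.P.B := 𝒩.isLocal

instance : IsNoetherianRing 𝒩.P.B := 𝒩.noeth

instance : IsDiscreteValuationRing 𝒩.O := 𝒩.dvrO

end DlLocal

/-- **the instance-facing form of a node**: two smooth branches crossing transversally, and a
vertical unit -/
structure DlCross (L F : Type*) [Field L] [Field F] [Algebra L F] extends DlLocal L F where
  /-- the branch `W` is smooth at the node -/
  smoothW : IsPrincipalIdealRing (P.B ⧸ toDlLocal.ctr W hW)
  /-- the branch `W'` is smooth at the node -/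
  smoothW' : IsPrincipalIdealRing (P.B ⧸ toDlLocal.ctr W' hW')
  /-- transversality (= seminormal gluing `res A = O_a ×_k O_b`): `𝔭_W + 𝔭_W' = 𝔪_A` -/
  trans : ∀ f : P.B, ¬ IsUnit f → ∃ g h : P.B, W.valuation (g : F) < 1 ∧
    W'.valuation (h : F) < 1 ∧ f = g + h
  /-- (VERT) the vertical unit -/
  D : F
  D_ne : D ≠ 0
  D_hor : ∀ V ∈ P.vals, V ≠ W → V ≠ W' → V.valuation D = 1
  D_W : W.valuation D = 1
  D_W' : W'.valuation D < 1

/-- **the normal form of a node**: `t · t' = ϖ ^ w`, `𝔪_A = (t, t', ϖ)` -/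
structure DlNode (L F : Type*) [Field L] [Field F] [Algebra L F] extends DlLocal L F where
  /-- the coordinate on the branch `W` -/
  t : F
  /-- the coordinate on the branch `W'` -/
  t' : F
  ht : t ∈ P.B
  ht' : t' ∈ P.B
  /-- the thickness -/
  w : ℕ
  hw : 0 < w
  tt' : t * t' = algebraMap L F ϖ ^ w
  Wt : W.valuation t = 1
  W't' : W'.valuation t' = 1
  /-- `𝔪_A = (t, t', ϖ)` -/
  max : ∀ f : P.B, ¬ IsUnit f → ∃ a b c : P.B,
    (f : F) = (a : F) * t + (b : F) * t' + (c : F) * algebraMap L F ϖ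

end Fermat.Agent.Delta
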