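/-
DELTA / NODE-ABS (helper8), part 1: **basic facts about a local Krull ring with two vertical
valuation rings** (`DlLocal`, helper2's `Node/Defs.lean`).

`𝒩 : DlLocal L F`, `A = 𝒩.P.B`, `W, W'` the vertical valuation rings, `𝒩.hor` the horizontal ones.
Everything is expressed with the integer orders `dlOrd V`.

* `DlLocal.oW`, `DlLocal.oW'`, `DlLocal.oH V hV` : the orders;
* `dln_oW_pi`, `dln_oW'_pi`, `dln_oH_pi`       : `ϖ` is a uniformiser of `W`, `W'`, a unit of the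
  horizontal valuation rings;
* `dln_mem_A_iff`, `dln_mem_A_of`              : the KRULL property in terms of orders;
* `dln_isUnit_iff`, `dln_isUnit_of`            : the units of `A`;
* `dln_const`                                   : constants have the same order at `W`, `W'` and
  order `0` at the horizontal valuation rings;
* `dln_div_pi`                                  : `𝔭_W ∩ 𝔭_W' = ϖ A`;
* `dln_exists_unif`, `dln_exists_frac`          : consequences of (ESSENTIAL).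
-/
import Fermat.Agent.Lib.Delta.Node.Defs

set_option autoImplicit false
set_option linter.style.haveILetI false
set_option linter.unusedSectionVars false
set_option linter.unusedVariables false

namespace Fermat.Agent.Delta

open Fermat.Agent.T4

variable {L F : Type*} [Field L] [Field F] [Algebra L F]

/-! ### generalities on `dlOrd` -/

section Ord

variable (V : ValuationSubring F) [IsDiscreteValuationRing V]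

/-- a uniformiser in the sense of `DlUnif` has order one -/
theorem dln_ord_of_unif {a : F} (ha : DlUnif V a) : dlOrd V a = 1 := by
  have ha0 : a ≠ 0 := by
    rintro rfl
    obtain ⟨b, hbV, hb⟩ := dl_exists_ord_eq_one V
    have hb0 : b ≠ 0 := by rintro rfl; simp at hb
    have h1 : V.valuation b < 1 := (dl_valuation_lt_one_iff V hb0).mpr (by omega)
    have h2 := ha.2 b h1
    rw [map_zero] at h2
    exact hb0 ((Valuation.zero_iff _).mp (le_antisymm h2 zero_le))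
  have h1 : 0 < dlOrd V a := (dl_valuation_lt_one_iff V ha0).mp ha.1
  obtain ⟨b, hbV, hb⟩ := dl_exists_ord_eq_one V
  have hb0 : b ≠ 0 := by rintro rfl; simp at hb
  have h2 : V.valuation b < 1 := (dl_valuation_lt_one_iff V hb0).mpr (by omega)
  have h3 := (dl_valuation_le_iff V hb0 ha0).mp (ha.2 b h2)
  omega

theorem dln_ne_zero_of_ord_ne {f : F} (h : dlOrd V f ≠ 0) : f ≠ 0 := by
  rintro rfl
  exact h (dlOrd_zero V)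

/-- the ultrametric inequality, `min` form -/
theorem dln_ord_add_min {f g : F} (hf : f ≠ 0) (hg : g ≠ 0) (hfg : f + g ≠ 0) :
    min (dlOrd V f) (dlOrd V g) ≤ dlOrd V (f + g) :=
  dlOrd_add_ge V hfg (Or.inr (min_le_left _ _)) (Or.inr (min_le_right _ _))

theorem dln_ord_sub_ge {f g : F} (hfg : f - g ≠ 0) {n : ℤ} (hf : f = 0 ∨ n ≤ dlOrd V f)
    (hg : g = 0 ∨ n ≤ dlOrd V g) : n ≤ dlOrd V (f - g) := by
  rw [sub_eq_add_neg] at hfg ⊢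
  refine dlOrd_add_ge V hfg hf ?_
  rcases hg with hg | hg
  · left; rw [hg, neg_zero]
  · right; rwa [dlOrd_neg]

/-- `f ≡ g` modulo the maximal ideal and `ord g = 0` imply `ord f = 0` -/
theorem dln_ord_eq_zero_of_sub {f g : F} (hg0 : g ≠ 0) (hg : dlOrd V g = 0)
    (h : f = g ∨ 0 < dlOrd V (f - g)) : f ≠ 0 ∧ dlOrd V f = 0 := by
  rcases h with rfl | h
  · exact ⟨hg0, hg⟩
  have hfg : f - g ≠ 0 := dln_ne_zero_of_ord_ne V (by omega)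
  have h1 : dlOrd V (g + (f - g)) = dlOrd V g := dlOrd_add_of_lt V hg0 (Or.inr (by omega))
  rw [add_sub_cancel] at h1
  refine ⟨?_, by omega⟩
  rintro rfl
  rw [zero_sub, dlOrd_neg] at h
  omega

end Ord

namespace DlLocal

variable (𝒩 : DlLocal L F)

instance instDvrW : IsDiscreteValuationRing 𝒩.W := 𝒩.P.dvr _ 𝒩.hW

instance instDvrW' : IsDiscreteValuationRing 𝒩.W' := 𝒩.P.dvr _ 𝒩.hW'

/-- the order at `W` -/
noncomputable def oW (f : F) : ℤ := dlOrd 𝒩.W f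

/-- the order at `W'` -/
noncomputable def oW' (f : F) : ℤ := dlOrd 𝒩.W' f

theorem hor_mem_vals {V : ValuationSubring F} (hV : V ∈ 𝒩.hor) : V ∈ 𝒩.P.vals := hV.1

/-- the order at a horizontal valuation ring -/
noncomputable def oH (V : ValuationSubring F) (hV : V ∈ 𝒩.hor) (f : F) : ℤ :=
  haveI := 𝒩.P.dvr V hV.1
  dlOrd V f

theorem vals_cases {V : ValuationSubring F} (hV : V ∈ 𝒩.P.vals) :
    V = 𝒩.W ∨ V = 𝒩.W' ∨ V ∈ 𝒩.hor := by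
  by_cases h1 : V = 𝒩.W
  · exact Or.inl h1
  by_cases h2 : V = 𝒩.W'
  · exact Or.inr (Or.inl h2)
  · exact Or.inr (Or.inr ⟨hV, h1, h2⟩)

end DlLocal

section Local

variable (𝒩 : DlLocal L F)

theorem dln_pi_ne_zero : 𝒩.pi ≠ 0 := by
  have h := dln_ord_of_unif 𝒩.W 𝒩.ϖW
  exact dln_ne_zero_of_ord_ne 𝒩.W (by rw [h]; norm_num)

theorem dln_oW_pi : 𝒩.oW 𝒩.pi = 1 := dln_ord_of_unif 𝒩.W 𝒩.ϖW

theorem dln_oW'_pi : 𝒩.oW' 𝒩.pi = 1 := dln_ord_of_unif 𝒩.W' 𝒩.ϖW'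

theorem dln_oH_pi {V : ValuationSubring F} (hV : V ∈ 𝒩.hor) : 𝒩.oH V hV 𝒩.pi = 0 := by
  haveI := 𝒩.P.dvr V hV.1
  exact (dl_valuation_eq_one_iff V (dln_pi_ne_zero 𝒩)).mp (𝒩.hor_ϖ V hV.1 hV.2.1 hV.2.2)

/-- **KRULL**, in terms of orders -/
theorem dln_mem_A_iff {f : F} : f ∈ 𝒩.A ↔ f = 0 ∨ (0 ≤ 𝒩.oW f ∧ 0 ≤ 𝒩.oW' f ∧
    ∀ (V : ValuationSubring F) (hV : V ∈ 𝒩.hor), 0 ≤ 𝒩.oH V hV f) := by
  constructor
  · intro hf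
    rcases eq_or_ne f 0 with h0 | h0
    · exact Or.inl h0
    right
    have h := (𝒩.P.mem_iff f).mp hf
    refine ⟨dlOrd_nonneg_of_mem 𝒩.W (h _ 𝒩.hW), dlOrd_nonneg_of_mem 𝒩.W' (h _ 𝒩.hW'), ?_⟩
    intro V hV
    haveI := 𝒩.P.dvr V hV.1
    exact dlOrd_nonneg_of_mem V (h V hV.1)
  · rintro (rfl | ⟨h1, h2, h3⟩)
    · exact 𝒩.A.zero_mem
    rw [DlLocal.A, 𝒩.P.mem_iff]
    intro V hV
    rcases 𝒩.vals_cases hV with rfl | rfl | hV'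
    · exact dl_mem_of_ord_nonneg 𝒩.W h1
    · exact dl_mem_of_ord_nonneg 𝒩.W' h2
    · haveI := 𝒩.P.dvr V hV'.1
      exact dl_mem_of_ord_nonneg V (h3 V hV')

theorem dln_mem_A_of {f : F} (h1 : 0 ≤ 𝒩.oW f) (h2 : 0 ≤ 𝒩.oW' f)
    (h3 : ∀ (V : ValuationSubring F) (hV : V ∈ 𝒩.hor), 0 ≤ 𝒩.oH V hV f) : f ∈ 𝒩.A :=
  (dln_mem_A_iff 𝒩).mpr (Or.inr ⟨h1, h2, h3⟩)

theorem dln_oW_nonneg {f : F} (hf : f ∈ 𝒩.A) : 0 ≤ 𝒩.oW f :=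
  dlOrd_nonneg_of_mem 𝒩.W (𝒩.P.B_le 𝒩.hW hf)

theorem dln_oW'_nonneg {f : F} (hf : f ∈ 𝒩.A) : 0 ≤ 𝒩.oW' f :=
  dlOrd_nonneg_of_mem 𝒩.W' (𝒩.P.B_le 𝒩.hW' hf)

theorem dln_oH_nonneg {f : F} (hf : f ∈ 𝒩.A) {V : ValuationSubring F} (hV : V ∈ 𝒩.hor) :
    0 ≤ 𝒩.oH V hV f := by
  haveI := 𝒩.P.dvr V hV.1
  exact dlOrd_nonneg_of_mem V (𝒩.P.B_le hV.1 hf)

/-- the units of `A`, in terms of orders -/
theorem dln_isUnit_iff (f : 𝒩.P.B) : IsUnit f ↔ (f : F) ≠ 0 ∧ 𝒩.oW f = 0 ∧ 𝒩.oW' f = 0 ∧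
    ∀ (V : ValuationSubring F) (hV : V ∈ 𝒩.hor), 𝒩.oH V hV f = 0 := by
  constructor
  · intro hu
    obtain ⟨g, hg⟩ := isUnit_iff_exists_inv.mp hu
    have h1 : (f : F) * (g : F) = 1 := by
      have := congrArg Subtype.val hg
      simpa using this
    have hf0 : (f : F) ≠ 0 := left_ne_zero_of_mul_eq_one h1
    have hg0 : (g : F) ≠ 0 := right_ne_zero_of_mul_eq_one h1
    have key : ∀ (V : ValuationSubring F) [IsDiscreteValuationRing V], V ∈ 𝒩.P.vals →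
        dlOrd V (f : F) = 0 := by
      intro V _ hV
      have a1 := dlOrd_nonneg_of_mem V (𝒩.P.B_le hV f.2)
      have a2 := dlOrd_nonneg_of_mem V (𝒩.P.B_le hV g.2)
      have a3 := dlOrd_mul V hf0 hg0
      rw [h1, dlOrd_one] at a3
      omega
    refine ⟨hf0, key 𝒩.W 𝒩.hW, key 𝒩.W' 𝒩.hW', fun V hV => ?_⟩
    haveI := 𝒩.P.dvr V hV.1
    exact key V hV.1
  · rintro ⟨hf0, h1, h2, h3⟩
    have hinv : (f : F)⁻¹ ∈ 𝒩.A := by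
      refine dln_mem_A_of 𝒩 ?_ ?_ ?_
      · show 0 ≤ dlOrd 𝒩.W (f : F)⁻¹
        rw [dlOrd_inv]; have : dlOrd 𝒩.W (f : F) = 0 := h1; omega
      · show 0 ≤ dlOrd 𝒩.W' (f : F)⁻¹
        rw [dlOrd_inv]; have : dlOrd 𝒩.W' (f : F) = 0 := h2; omega
      · intro V hV
        haveI := 𝒩.P.dvr V hV.1
        show 0 ≤ dlOrd V (f : F)⁻¹
        rw [dlOrd_inv]; have : dlOrd V (f : F) = 0 := h3 V hV; omega
    refine isUnit_iff_exists_inv.mpr ⟨⟨_, hinv⟩, ?_⟩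
    apply Subtype.ext
    show (f : F) * (f : F)⁻¹ = 1
    exact mul_inv_cancel₀ hf0

/-- the units of `A` as elements of `F` -/
def DlLocal.IsU (f : F) : Prop := f ∈ 𝒩.A ∧ f⁻¹ ∈ 𝒩.A ∧ f ≠ 0

theorem dln_isU_iff_isUnit (f : 𝒩.P.B) : 𝒩.IsU (f : F) ↔ IsUnit f := by
  constructor
  · rintro ⟨-, hinv, hf0⟩
    refine isUnit_iff_exists_inv.mpr ⟨⟨_, hinv⟩, ?_⟩
    apply Subtype.ext
    show (f : F) * (f : F)⁻¹ = 1
    exact mul_inv_cancel₀ hf0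
  · intro hu
    obtain ⟨g, hg⟩ := isUnit_iff_exists_inv.mp hu
    have h1 : (f : F) * (g : F) = 1 := by
      have := congrArg Subtype.val hg
      simpa using this
    have hf0 : (f : F) ≠ 0 := left_ne_zero_of_mul_eq_one h1
    refine ⟨f.2, ?_, hf0⟩
    have : (f : F)⁻¹ = (g : F) := by
      field_simp
      exact h1.symm
    rw [this]
    exact g.2

theorem dln_isU_one : 𝒩.IsU 1 := ⟨𝒩.A.one_mem, by rw [inv_one]; exact 𝒩.A.one_mem, one_ne_zero⟩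

theorem DlLocal.IsU.mul {f g : F} (hf : 𝒩.IsU f) (hg : 𝒩.IsU g) : 𝒩.IsU (f * g) :=
  ⟨𝒩.A.mul_mem hf.1 hg.1, by rw [mul_inv]; exact 𝒩.A.mul_mem hf.2.1 hg.2.1,
    mul_ne_zero hf.2.2 hg.2.2⟩

theorem DlLocal.IsU.inv {f : F} (hf : 𝒩.IsU f) : 𝒩.IsU f⁻¹ :=
  ⟨hf.2.1, by rw [inv_inv]; exact hf.1, inv_ne_zero hf.2.2⟩

theorem DlLocal.IsU.pow {f : F} (hf : 𝒩.IsU f) (n : ℕ) : 𝒩.IsU (f ^ n) :=
  ⟨𝒩.A.pow_mem hf.1 n, by rw [← inv_pow]; exact 𝒩.A.pow_mem hf.2.1 n, pow_ne_zero n hf.2.2⟩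

theorem DlLocal.IsU.zpow {f : F} (hf : 𝒩.IsU f) (n : ℤ) : 𝒩.IsU (f ^ n) := by
  rcases n with n | n
  · simpa using hf.pow 𝒩 n
  · rw [zpow_negSucc]
    exact (hf.pow 𝒩 (n + 1)).inv 𝒩

theorem DlLocal.IsU.div {f g : F} (hf : 𝒩.IsU f) (hg : 𝒩.IsU g) : 𝒩.IsU (f / g) := by
  rw [div_eq_mul_inv]
  exact hf.mul 𝒩 (hg.inv 𝒩)

/-- the orders of a unit vanish -/
theorem DlLocal.IsU.oW {f : F} (hf : 𝒩.IsU f) : 𝒩.oW f = 0 :=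
  (((dln_isUnit_iff 𝒩 ⟨f, hf.1⟩).mp ((dln_isU_iff_isUnit 𝒩 ⟨f, hf.1⟩).mp hf)).2).1

theorem DlLocal.IsU.oW' {f : F} (hf : 𝒩.IsU f) : 𝒩.oW' f = 0 :=
  (((dln_isUnit_iff 𝒩 ⟨f, hf.1⟩).mp ((dln_isU_iff_isUnit 𝒩 ⟨f, hf.1⟩).mp hf)).2).2.1

theorem DlLocal.IsU.oH {f : F} (hf : 𝒩.IsU f) {V : ValuationSubring F} (hV : V ∈ 𝒩.hor) :
    𝒩.oH V hV f = 0 :=
  (((dln_isUnit_iff 𝒩 ⟨f, hf.1⟩).mp ((dln_isU_iff_isUnit 𝒩 ⟨f, hf.1⟩).mp hf)).2).2.2 V hV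

/-- units in terms of orders -/
theorem dln_isU_of {f : F} (hf0 : f ≠ 0) (h1 : 𝒩.oW f = 0) (h2 : 𝒩.oW' f = 0)
    (h3 : ∀ (V : ValuationSubring F) (hV : V ∈ 𝒩.hor), 𝒩.oH V hV f = 0) : 𝒩.IsU f := by
  have hfA : f ∈ 𝒩.A := dln_mem_A_of 𝒩 (by omega) (by omega) (fun V hV => by rw [h3 V hV])
  exact (dln_isU_iff_isUnit 𝒩 ⟨f, hfA⟩).mpr ((dln_isUnit_iff 𝒩 ⟨f, hfA⟩).mpr ⟨hf0, h1, h2, h3⟩)

/-! ### the arithmetic of the orders -/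

theorem dln_oW_mul {f g : F} (hf : f ≠ 0) (hg : g ≠ 0) : 𝒩.oW (f * g) = 𝒩.oW f + 𝒩.oW g :=
  dlOrd_mul 𝒩.W hf hg

theorem dln_oW'_mul {f g : F} (hf : f ≠ 0) (hg : g ≠ 0) : 𝒩.oW' (f * g) = 𝒩.oW' f + 𝒩.oW' g :=
  dlOrd_mul 𝒩.W' hf hg

theorem dln_oH_mul {V : ValuationSubring F} (hV : V ∈ 𝒩.hor) {f g : F} (hf : f ≠ 0) (hg : g ≠ 0) :
    𝒩.oH V hV (f * g) = 𝒩.oH V hV f + 𝒩.oH V hV g := by
  haveI := 𝒩.P.dvr V hV.1
  exact dlOrd_mul V hf hg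

theorem dln_oW_inv (f : F) : 𝒩.oW f⁻¹ = -𝒩.oW f := dlOrd_inv 𝒩.W f

theorem dln_oW'_inv (f : F) : 𝒩.oW' f⁻¹ = -𝒩.oW' f := dlOrd_inv 𝒩.W' f

theorem dln_oH_inv {V : ValuationSubring F} (hV : V ∈ 𝒩.hor) (f : F) :
    𝒩.oH V hV f⁻¹ = -𝒩.oH V hV f := by
  haveI := 𝒩.P.dvr V hV.1
  exact dlOrd_inv V f

theorem dln_oW_div {f g : F} (hf : f ≠ 0) (hg : g ≠ 0) : 𝒩.oW (f / g) = 𝒩.oW f - 𝒩.oW g :=
  dlOrd_div 𝒩.W hf hg

theorem dln_oW'_div {f g : F} (hf : f ≠ 0) (hg : g ≠ 0) : 𝒩.oW' (f / g) = 𝒩.oW' f - 𝒩.oW' g :=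
  dlOrd_div 𝒩.W' hf hg

theorem dln_oH_div {V : ValuationSubring F} (hV : V ∈ 𝒩.hor) {f g : F} (hf : f ≠ 0)
    (hg : g ≠ 0) : 𝒩.oH V hV (f / g) = 𝒩.oH V hV f - 𝒩.oH V hV g := by
  haveI := 𝒩.P.dvr V hV.1
  exact dlOrd_div V hf hg

theorem dln_oW_zpow (f : F) (n : ℤ) : 𝒩.oW (f ^ n) = n * 𝒩.oW f := dlOrd_zpow 𝒩.W f n

theorem dln_oW'_zpow (f : F) (n : ℤ) : 𝒩.oW' (f ^ n) = n * 𝒩.oW' f := dlOrd_zpow 𝒩.W' f n

theorem dln_oH_zpow {V : ValuationSubring F} (hV : V ∈ 𝒩.hor) (f : F) (n : ℤ) :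
    𝒩.oH V hV (f ^ n) = n * 𝒩.oH V hV f := by
  haveI := 𝒩.P.dvr V hV.1
  exact dlOrd_zpow V f n

theorem dln_oW_pow (f : F) (n : ℕ) : 𝒩.oW (f ^ n) = n * 𝒩.oW f := dlOrd_pow 𝒩.W f n

theorem dln_oW'_pow (f : F) (n : ℕ) : 𝒩.oW' (f ^ n) = n * 𝒩.oW' f := dlOrd_pow 𝒩.W' f n

theorem dln_oH_pow {V : ValuationSubring F} (hV : V ∈ 𝒩.hor) (f : F) (n : ℕ) :
    𝒩.oH V hV (f ^ n) = n * 𝒩.oH V hV f := by
  haveI := 𝒩.P.dvr V hV.1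
  exact dlOrd_pow V f n

/-! ### constants -/

/-- units of `O` are units of `A` -/
theorem dln_isU_of_unit_O {u : L} (hu : 𝒩.O.valuation u = 1) : 𝒩.IsU (algebraMap L F u) := by
  have hu0 : u ≠ 0 := by
    rintro rfl
    rw [map_zero] at hu
    exact zero_ne_one hu
  have h1 : u ∈ 𝒩.O := (𝒩.O.valuation_le_one_iff u).mp hu.le
  have h2 : u⁻¹ ∈ 𝒩.O := by
    rw [← 𝒩.O.valuation_le_one_iff, map_inv₀, hu, inv_one]
  refine ⟨𝒩.O_le u h1, ?_, (map_ne_zero _).mpr hu0⟩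
  rw [← map_inv₀]
  exact 𝒩.O_le _ h2

/-- **constants**: the same order at `W` and `W'`, order `0` at the horizontal valuation rings -/
theorem dln_const {c : L} (hc : c ≠ 0) :
    𝒩.oW (algebraMap L F c) = dlOrd 𝒩.O c ∧ 𝒩.oW' (algebraMap L F c) = dlOrd 𝒩.O c ∧
      ∀ (V : ValuationSubring F) (hV : V ∈ 𝒩.hor), 𝒩.oH V hV (algebraMap L F c) = 0 := by
  have hπ : dlOrd 𝒩.O 𝒩.ϖ = 1 := dln_ord_of_unif 𝒩.O 𝒩.hϖ
  obtain ⟨u, hu, hcu⟩ := dl_exists_unit_mul_zpow 𝒩.O hπ hc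
  have hU := dln_isU_of_unit_O 𝒩 hu
  have e : algebraMap L F c = algebraMap L F u * 𝒩.pi ^ dlOrd 𝒩.O c := by
    conv_lhs => rw [hcu]
    rw [map_mul, map_zpow₀]
  have hp0 : 𝒩.pi ^ dlOrd 𝒩.O c ≠ 0 := zpow_ne_zero _ (dln_pi_ne_zero 𝒩)
  refine ⟨?_, ?_, fun V hV => ?_⟩
  · rw [e, dln_oW_mul 𝒩 hU.2.2 hp0, hU.oW, dln_oW_zpow, dln_oW_pi]; ring
  · rw [e, dln_oW'_mul 𝒩 hU.2.2 hp0, hU.oW', dln_oW'_zpow, dln_oW'_pi]; ring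
  · rw [e, dln_oH_mul 𝒩 hV hU.2.2 hp0, hU.oH 𝒩 hV, dln_oH_zpow, dln_oH_pi]; ring

/-- elements of `O` -/
theorem dln_mem_O_iff {c : L} : c ∈ 𝒩.O ↔ c = 0 ∨ 0 ≤ dlOrd 𝒩.O c := dl_mem_iff 𝒩.O

/-- **`𝔭_W ∩ 𝔭_W' = ϖ A`** -/
theorem dln_div_pi {f : F} (hf : f ∈ 𝒩.A) (h : f = 0 ∨ (1 ≤ 𝒩.oW f ∧ 1 ≤ 𝒩.oW' f)) :
    f / 𝒩.pi ∈ 𝒩.A := by
  rcases h with rfl | ⟨h1, h2⟩
  · rw [zero_div]; exact 𝒩.A.zero_mem
  have hf0 : f ≠ 0 := by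
    rintro rfl
    have : 𝒩.oW (0 : F) = 0 := dlOrd_zero 𝒩.W
    omega
  have hp := dln_pi_ne_zero 𝒩
  refine dln_mem_A_of 𝒩 ?_ ?_ ?_
  · rw [dln_oW_div 𝒩 hf0 hp, dln_oW_pi]; omega
  · rw [dln_oW'_div 𝒩 hf0 hp, dln_oW'_pi]; omega
  · intro V hV
    rw [dln_oH_div 𝒩 hV hf0 hp, dln_oH_pi]
    have := dln_oH_nonneg 𝒩 hf hV
    omega

/-! ### consequences of (ESSENTIAL) -/

/-- a uniformiser of `V` in `A` -/
theorem dln_exists_unif (V : ValuationSubring F) [IsDiscreteValuationRing V]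
    (hV : V ∈ 𝒩.P.vals) : ∃ h : F, h ∈ 𝒩.A ∧ dlOrd V h = 1 := by
  obtain ⟨a, haV, ha⟩ := dl_exists_ord_eq_one V
  have ha0 : a ≠ 0 := dln_ne_zero_of_ord_ne V (by omega)
  obtain ⟨c, hcB, hc1, hca⟩ := 𝒩.P.essential V hV a haV
  have hc0 : c ≠ 0 := by
    rintro rfl
    rw [map_zero] at hc1
    exact zero_ne_one hc1
  refine ⟨c * a, hca, ?_⟩
  rw [dlOrd_mul V hc0 ha0, (dl_valuation_eq_one_iff V hc0).mp hc1, ha]; ring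

/-- a unit of `V` is a quotient of two elements of `A` which are units of `V` -/
theorem dln_exists_frac (V : ValuationSubring F) [IsDiscreteValuationRing V]
    (hV : V ∈ 𝒩.P.vals) {z : F} (hz0 : z ≠ 0) (hz : dlOrd V z = 0) :
    ∃ a b : F, a ∈ 𝒩.A ∧ b ∈ 𝒩.A ∧ a ≠ 0 ∧ b ≠ 0 ∧ dlOrd V a = 0 ∧ dlOrd V b = 0 ∧
      z = a / b := by
  have hzV : z ∈ V := dl_mem_of_ord_nonneg V (by omega)
  obtain ⟨c, hcB, hc1, hcz⟩ := 𝒩.P.essential V hV z hzV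
  have hc0 : c ≠ 0 := by
    rintro rfl
    rw [map_zero] at hc1
    exact zero_ne_one hc1
  have hc : dlOrd V c = 0 := (dl_valuation_eq_one_iff V hc0).mp hc1
  refine ⟨c * z, c, hcz, hcB, mul_ne_zero hc0 hz0, hc0, ?_, hc, by field_simp⟩
  rw [dlOrd_mul V hc0 hz0, hc, hz]; ring

/-! ### the maximal ideal -/

/-- elements of positive order at `W` are not units -/
theorem dln_not_isU_of_oW_pos {f : F} (h : f = 0 ∨ 0 < 𝒩.oW f) : ¬ 𝒩.IsU f := by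
  intro hu
  rcases h with h | h
  · exact hu.2.2 h
  · have := hu.oW 𝒩
    omega

theorem dln_not_isU_of_oW'_pos {f : F} (h : f = 0 ∨ 0 < 𝒩.oW' f) : ¬ 𝒩.IsU f := by
  intro hu
  rcases h with h | h
  · exact hu.2.2 h
  · have := hu.oW' 𝒩
    omega

/-- the non-units of `A` are closed under addition (`A` is local) -/
theorem dln_nonunit_add {f g : F} (hf : f ∈ 𝒩.A) (hg : g ∈ 𝒩.A) (hfu : ¬ 𝒩.IsU f)
    (hgu : ¬ 𝒩.IsU g) : ¬ 𝒩.IsU (f + g) := by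
  intro hu
  have h1 : ¬ IsUnit (⟨f, hf⟩ : 𝒩.P.B) := fun h => hfu ((dln_isU_iff_isUnit 𝒩 ⟨f, hf⟩).mpr h)
  have h2 : ¬ IsUnit (⟨g, hg⟩ : 𝒩.P.B) := fun h => hgu ((dln_isU_iff_isUnit 𝒩 ⟨g, hg⟩).mpr h)
  have h3 : IsUnit ((⟨f, hf⟩ : 𝒩.P.B) + ⟨g, hg⟩) :=
    (dln_isU_iff_isUnit 𝒩 (⟨f, hf⟩ + ⟨g, hg⟩)).mp hu
  rcases IsLocalRing.isUnit_or_isUnit_of_isUnit_add h3 with h | h
  · exact h1 h
  · exact h2 h

/-- a unit plus a non-unit is a unit -/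
theorem dln_isU_add_nonunit {f g : F} (hf : 𝒩.IsU f) (hg : g ∈ 𝒩.A) (hgu : ¬ 𝒩.IsU g) :
    𝒩.IsU (f + g) := by
  by_contra hfg
  have h1 : ¬ 𝒩.IsU (-g) := by
    intro h
    apply hgu
    have := h.mul 𝒩 (show 𝒩.IsU (-1) from
      ⟨𝒩.A.neg_mem 𝒩.A.one_mem, by rw [inv_neg, inv_one]; exact 𝒩.A.neg_mem 𝒩.A.one_mem,
        by norm_num⟩)
    simpa using this
  have h2 := dln_nonunit_add 𝒩 (𝒩.A.add_mem hf.1 hg) (𝒩.A.neg_mem hg) hfg h1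
  apply h2
  rwa [add_neg_cancel_right]

/-- the residue field of `A` is the residue field of `O` -/
theorem dln_resk {f : F} (hf : f ∈ 𝒩.A) :
    ∃ a : L, a ∈ 𝒩.O ∧ ¬ 𝒩.IsU (f - algebraMap L F a) := by
  obtain ⟨a, ha, h⟩ := 𝒩.resk ⟨f, hf⟩
  refine ⟨a, ha, fun hu => h ?_⟩
  exact (dln_isU_iff_isUnit 𝒩 _).mp hu

end Local

end Fermat.Agent.Delta
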