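/-
DELTA / NODE-ABS (helper8), part 2: **the unit lemma** and **parameters at the node**.

`𝒩 : DlLocal L F`.
* `dln_unit` (N2): a function `z` without horizontal part through the node, of order `0` at `W`,
  which is congruent modulo `𝔪_W` to a unit of `A`, is a unit of `A` (in particular it has order `0`
  at `W'`).  The proof uses only that `A` is local and that `𝔭_W ⊆ 𝔪_A`.
* `DlnPar 𝒩` : parameters `t, t'` at the node: `𝔪_A = (t, t', ϖ)`, `t` a unit of `W` vanishing on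
  the branch `W'`, `t'` a unit of `W'` vanishing on the branch `W`, and the two branches are
  discrete valuation rings with uniformisers `t`, `t'` (elementary form `dvrW`, `dvrW'`).
* `DlnPar.exists_slopeW` : every `z ≠ 0` of order `0` at `W` is `≡ t ^ m · u` modulo `𝔪_W`,
  `m : ℤ`, `u` a unit of `A`; `DlnPar.slopeW_unique` : `m` is unique.
* `DlnPar.change` : changing `t, t'` modulo `ϖ A`.
-/
import Fermat.Agent.Lib.Delta.Node.Basic

set_option autoImplicit false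
set_option linter.style.haveILetI false
set_option linter.unusedSectionVars false
set_option linter.unusedVariables false

namespace Fermat.Agent.Delta

open Fermat.Agent.T4

variable {L F : Type*} [Field L] [Field F] [Algebra L F]

section Unit

variable (𝒩 : DlLocal L F)

/-- `f ≡ g` modulo the maximal ideal of `W` -/
def DlLocal.CongW (f g : F) : Prop := f = g ∨ 0 < 𝒩.oW (f - g)

/-- `f ≡ g` modulo the maximal ideal of `W'` -/
def DlLocal.CongW' (f g : F) : Prop := f = g ∨ 0 < 𝒩.oW' (f - g)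

theorem DlLocal.CongW.refl (f : F) : 𝒩.CongW f f := Or.inl rfl

theorem DlLocal.CongW.symm {f g : F} (h : 𝒩.CongW f g) : 𝒩.CongW g f := by
  rcases h with h | h
  · exact Or.inl h.symm
  · right
    have : g - f = -(f - g) := by ring
    rw [this]
    show 0 < dlOrd 𝒩.W (-(f - g))
    rw [dlOrd_neg]
    exact h

theorem DlLocal.CongW.trans {f g h : F} (h1 : 𝒩.CongW f g) (h2 : 𝒩.CongW g h) :
    𝒩.CongW f h := by
  rcases h1 with rfl | h1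
  · exact h2
  rcases h2 with rfl | h2
  · exact Or.inr h1
  by_cases hfh : f = h
  · exact Or.inl hfh
  right
  have e : f - h = (f - g) + (g - h) := by ring
  have hne : (f - g) + (g - h) ≠ 0 := by rw [← e]; exact sub_ne_zero.mpr hfh
  rw [e]
  exact dlOrd_add_ge 𝒩.W hne (n := 1) (Or.inr h1) (Or.inr h2)

/-- multiplication by an element of `W` -/
theorem DlLocal.CongW.mul_left {f g : F} (h : 𝒩.CongW f g) {a : F} (ha : a = 0 ∨ 0 ≤ 𝒩.oW a) :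
    𝒩.CongW (a * f) (a * g) := by
  rcases h with rfl | h
  · exact Or.inl rfl
  rcases ha with rfl | ha
  · left; simp
  by_cases ha0 : a = 0
  · left; simp [ha0]
  right
  have hfg : f - g ≠ 0 := dln_ne_zero_of_ord_ne 𝒩.W (by
    have : 0 < dlOrd 𝒩.W (f - g) := h
    omega)
  rw [← mul_sub, dln_oW_mul 𝒩 ha0 hfg]
  omega

theorem DlLocal.CongW.mul {f g f' g' : F} (h : 𝒩.CongW f g) (h' : 𝒩.CongW f' g')
    (hf' : f' = 0 ∨ 0 ≤ 𝒩.oW f') (hg : g = 0 ∨ 0 ≤ 𝒩.oW g) : 𝒩.CongW (f * f') (g * g') := by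
  have h1 : 𝒩.CongW (f * f') (g * f') := by
    rw [mul_comm f, mul_comm g]
    exact h.mul_left 𝒩 hf'
  exact h1.trans 𝒩 (h'.mul_left 𝒩 hg)

theorem DlLocal.CongW.pow {f g : F} (h : 𝒩.CongW f g) (hf : f = 0 ∨ 0 ≤ 𝒩.oW f)
    (hg : g = 0 ∨ 0 ≤ 𝒩.oW g) (n : ℕ) : 𝒩.CongW (f ^ n) (g ^ n) := by
  induction n with
  | zero => simp only [pow_zero]; exact DlLocal.CongW.refl 𝒩 1
  | succ n ih =>
    rw [pow_succ, pow_succ]
    refine ih.mul 𝒩 h hf ?_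
    rcases hg with rfl | hg
    · rcases n with _ | n
      · right; simp only [pow_zero]; show 0 ≤ dlOrd 𝒩.W 1; rw [dlOrd_one]
      · left; simp
    · right; rw [dln_oW_pow]; positivity

/-- an element congruent to an element of order `0` is nonzero of order `0` -/
theorem DlLocal.CongW.oW_eq_zero {f g : F} (h : 𝒩.CongW f g) (hg0 : g ≠ 0)
    (hg : 𝒩.oW g = 0) : f ≠ 0 ∧ 𝒩.oW f = 0 :=
  dln_ord_eq_zero_of_sub 𝒩.W hg0 hg h

/-- elements of `A` which are `≡ 0` modulo `𝔪_W` are non-units -/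
theorem dln_not_isU_of_congW_zero {f : F} (h : 𝒩.CongW f 0) : ¬ 𝒩.IsU f := by
  apply dln_not_isU_of_oW_pos
  rcases h with h | h
  · exact Or.inl h
  · right; rwa [sub_zero] at h

/-- **the unit lemma** (N2) -/
theorem dln_unit {z b : F} (hz0 : z ≠ 0)
    (hH : ∀ (V : ValuationSubring F) (hV : V ∈ 𝒩.hor), 𝒩.oH V hV z = 0)
    (hW : 𝒩.oW z = 0) (hb : 𝒩.IsU b) (hzb : 𝒩.CongW z b) : 𝒩.IsU z := by
  rcases le_or_gt 0 (𝒩.oW' z) with h' | h'
  · -- `z ∈ A`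
    have hzA : z ∈ 𝒩.A := dln_mem_A_of 𝒩 (by omega) h' (fun V hV => by rw [hH V hV])
    have h1 : z - b ∈ 𝒩.A := 𝒩.A.sub_mem hzA hb.1
    have h2 : ¬ 𝒩.IsU (z - b) := by
      apply dln_not_isU_of_oW_pos
      rcases hzb with h | h
      · left; rw [h, sub_self]
      · exact Or.inr h
    have := dln_isU_add_nonunit 𝒩 hb h1 h2
    rwa [add_sub_cancel] at this
  · -- `z⁻¹ ∈ A` is a non-unit at `W'`: impossible
    exfalso
    have hzi0 : z⁻¹ ≠ 0 := inv_ne_zero hz0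
    have hziA : z⁻¹ ∈ 𝒩.A := by
      refine dln_mem_A_of 𝒩 ?_ ?_ ?_
      · rw [dln_oW_inv]; omega
      · rw [dln_oW'_inv]; omega
      · intro V hV; rw [dln_oH_inv, hH V hV]; norm_num
    have hbi := hb.inv 𝒩
    have h1 : z⁻¹ - b⁻¹ ∈ 𝒩.A := 𝒩.A.sub_mem hziA hbi.1
    have h2 : ¬ 𝒩.IsU (z⁻¹ - b⁻¹) := by
      apply dln_not_isU_of_oW_pos
      rcases hzb with h | h
      · left; rw [h, sub_self]
      · right
        have hzb0 : z - b ≠ 0 := dln_ne_zero_of_ord_ne 𝒩.W (by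
          have : 0 < dlOrd 𝒩.W (z - b) := h
          omega)
        have e : z⁻¹ - b⁻¹ = -(z - b) / (z * b) := by
          have := hb.2.2
          field_simp
          ring
        rw [e, dln_oW_div 𝒩 (neg_ne_zero.mpr hzb0) (mul_ne_zero hz0 hb.2.2),
          dln_oW_mul 𝒩 hz0 hb.2.2, hW, hb.oW]
        show 0 < dlOrd 𝒩.W (-(z - b)) - (0 + 0)
        rw [dlOrd_neg]
        have : 0 < dlOrd 𝒩.W (z - b) := h
        omega
    have h3 := dln_isU_add_nonunit 𝒩 hbi h1 h2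
    rw [add_sub_cancel] at h3
    have h4 := h3.oW' 𝒩
    rw [dln_oW'_inv] at h4
    omega

end Unit

/-- **parameters at the node** -/
structure DlnPar (𝒩 : DlLocal L F) where
  /-- the coordinate on the branch `W` -/
  t : F
  /-- the coordinate on the branch `W'` -/
  t' : F
  ht : t ∈ 𝒩.A
  ht' : t' ∈ 𝒩.A
  oW_t : 𝒩.oW t = 0
  oW'_t : 0 < 𝒩.oW' t
  oW'_t' : 𝒩.oW' t' = 0
  oW_t' : 0 < 𝒩.oW t'
  /-- `𝔪_A = (t, t', ϖ)` -/
  max : ∀ f ∈ 𝒩.A, ¬ 𝒩.IsU f → ∃ a b c : F, a ∈ 𝒩.A ∧ b ∈ 𝒩.A ∧ c ∈ 𝒩.A ∧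
    f = a * t + b * t' + c * 𝒩.pi
  /-- the branch `W` is a discrete valuation ring with uniformiser `t` -/
  dvrW : ∀ f ∈ 𝒩.A, f ≠ 0 → 𝒩.oW f = 0 → ∃ (n : ℕ) (u : F), 𝒩.IsU u ∧ 𝒩.CongW f (t ^ n * u)
  /-- the branch `W'` is a discrete valuation ring with uniformiser `t'` -/
  dvrW' : ∀ f ∈ 𝒩.A, f ≠ 0 → 𝒩.oW' f = 0 → ∃ (n : ℕ) (u : F), 𝒩.IsU u ∧ 𝒩.CongW' f (t' ^ n * u)

namespace DlnPar

variable {𝒩 : DlLocal L F} (P : DlnPar 𝒩)

theorem t_ne_zero : P.t ≠ 0 := dln_ne_zero_of_ord_ne 𝒩.W' (by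
  have : 0 < dlOrd 𝒩.W' P.t := P.oW'_t
  omega)

theorem t'_ne_zero : P.t' ≠ 0 := dln_ne_zero_of_ord_ne 𝒩.W (by
  have : 0 < dlOrd 𝒩.W P.t' := P.oW_t'
  omega)

theorem t_not_isU : ¬ 𝒩.IsU P.t := dln_not_isU_of_oW'_pos 𝒩 (Or.inr P.oW'_t)

theorem t'_not_isU : ¬ 𝒩.IsU P.t' := dln_not_isU_of_oW_pos 𝒩 (Or.inr P.oW_t')

/-- the slope decomposition at `W` of an arbitrary function of order `0` at `W` -/
theorem exists_slopeW {z : F} (hz0 : z ≠ 0) (hz : 𝒩.oW z = 0) :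
    ∃ (m : ℤ) (u : F), 𝒩.IsU u ∧ 𝒩.CongW z (P.t ^ m * u) := by
  obtain ⟨a, b, haA, hbA, ha0, hb0, ha, hb, rfl⟩ := dln_exists_frac 𝒩 𝒩.W 𝒩.hW hz0 hz
  replace ha : 𝒩.oW a = 0 := ha
  replace hb : 𝒩.oW b = 0 := hb
  obtain ⟨n, u, hu, hau⟩ := P.dvrW a haA ha0 ha
  obtain ⟨n', u', hu', hbu⟩ := P.dvrW b hbA hb0 hb
  refine ⟨(n : ℤ) - n', u / u', hu.div 𝒩 hu', ?_⟩
  have ht0 := P.t_ne_zero
  -- `a / b - t^(n-n') u / u' = (a - t^n u) / b - (t^n u) (b - t^n' u') / (b t^n' u')`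
  have hbu0 : P.t ^ n' * u' ≠ 0 := mul_ne_zero (pow_ne_zero _ ht0) hu'.2.2
  have hbu1 : 𝒩.oW (P.t ^ n' * u') = 0 := by
    rw [dln_oW_mul 𝒩 (pow_ne_zero _ ht0) hu'.2.2, dln_oW_pow, P.oW_t, hu'.oW]; ring
  have hau1 : 𝒩.oW (P.t ^ n * u) = 0 := by
    rw [dln_oW_mul 𝒩 (pow_ne_zero _ ht0) hu.2.2, dln_oW_pow, P.oW_t, hu.oW]; ring
  have e1 : P.t ^ ((n : ℤ) - n') * (u / u') = (P.t ^ n * u) / (P.t ^ n' * u') := by
    rw [zpow_sub₀ ht0, zpow_natCast, zpow_natCast]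
    have := hu'.2.2
    field_simp
  rw [e1]
  -- `a / b ≡ a / (t^n' u')` and `a / (t^n' u') ≡ t^n u / (t^n' u')`
  have hinvbu : (P.t ^ n' * u')⁻¹ = 0 ∨ 0 ≤ 𝒩.oW (P.t ^ n' * u')⁻¹ := by
    right; rw [dln_oW_inv, hbu1, neg_zero]
  have s1 : 𝒩.CongW (a / b) (a / (P.t ^ n' * u')) := by
    -- `a/b - a/c = a (c - b) / (b c)`
    rcases hbu with hbu | hbu
    · rw [← hbu]; exact DlLocal.CongW.refl 𝒩 _
    right
    have hd0 : b - P.t ^ n' * u' ≠ 0 := dln_ne_zero_of_ord_ne 𝒩.W (by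
      have : 0 < dlOrd 𝒩.W (b - P.t ^ n' * u') := hbu
      omega)
    have key : ∀ c : F, c ≠ 0 → a / b - a / c = a * (-(b - c)) / (b * c) := by
      intro c hc
      field_simp
      ring
    have e : a / b - a / (P.t ^ n' * u') =
        a * (-(b - P.t ^ n' * u')) / (b * (P.t ^ n' * u')) := key _ hbu0
    rw [e, dln_oW_div 𝒩 (mul_ne_zero ha0 (neg_ne_zero.mpr hd0)) (mul_ne_zero hb0 hbu0),
      dln_oW_mul 𝒩 ha0 (neg_ne_zero.mpr hd0), dln_oW_mul 𝒩 hb0 hbu0, ha, hb, hbu1]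
    show 0 < 0 + dlOrd 𝒩.W (-(b - P.t ^ n' * u')) - (0 + 0)
    rw [dlOrd_neg]
    have : 0 < dlOrd 𝒩.W (b - P.t ^ n' * u') := hbu
    omega
  have s2 : 𝒩.CongW (a / (P.t ^ n' * u')) (P.t ^ n * u / (P.t ^ n' * u')) := by
    rw [div_eq_mul_inv, div_eq_mul_inv, mul_comm a, mul_comm (P.t ^ n * u)]
    exact hau.mul_left 𝒩 hinvbu
  exact s1.trans 𝒩 s2

/-- `t` is not a unit modulo `𝔪_W`: `t ^ m · u ≡ u'` forces `m = 0` -/
theorem slopeW_zero {m : ℤ} {u u' : F} (hu : 𝒩.IsU u) (hu' : 𝒩.IsU u')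
    (h : 𝒩.CongW (P.t ^ m * u) u') : m = 0 := by
  have ht0 := P.t_ne_zero
  -- reduce to `m ≥ 0`
  wlog hm : 0 ≤ m generalizing m u u'
  · push Not at hm
    have h1 : 𝒩.CongW (P.t ^ (-m) * u') u := by
      -- multiply by `t^(-m)`
      have h2 := h.symm 𝒩
      have h3 := h2.mul_left 𝒩 (a := P.t ^ (-m)) (Or.inr (by rw [dln_oW_zpow, P.oW_t]; simp))
      have e : P.t ^ (-m) * (P.t ^ m * u) = u := by
        rw [← mul_assoc, ← zpow_add₀ ht0]; simp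
      rwa [e] at h3
    have := this hu' hu h1 (by omega)
    omega
  by_contra hne
  have hm1 : 1 ≤ m := by omega
  obtain ⟨k, rfl⟩ : ∃ k : ℕ, m = k + 1 := ⟨(m - 1).toNat, by omega⟩
  -- `t^(k+1) u` is a non-unit of `A`, `u'` is a unit
  have hA : P.t ^ ((k : ℤ) + 1) * u ∈ 𝒩.A := by
    rw [show ((k : ℤ) + 1) = ((k + 1 : ℕ) : ℤ) by push_cast; ring, zpow_natCast]
    exact 𝒩.A.mul_mem (𝒩.A.pow_mem P.ht _) hu.1
  have hnu : ¬ 𝒩.IsU (P.t ^ ((k : ℤ) + 1) * u) := by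
    apply dln_not_isU_of_oW'_pos
    right
    rw [dln_oW'_mul 𝒩 (zpow_ne_zero _ ht0) hu.2.2, dln_oW'_zpow, hu.oW']
    have := P.oW'_t
    nlinarith
  have h1 : u' - P.t ^ ((k : ℤ) + 1) * u ∈ 𝒩.A := 𝒩.A.sub_mem hu'.1 hA
  have h2 : ¬ 𝒩.IsU (u' - P.t ^ ((k : ℤ) + 1) * u) := by
    apply dln_not_isU_of_oW_pos
    rcases h.symm 𝒩 with h | h
    · left; rw [h, sub_self]
    · exact Or.inr h
  have h3 := dln_nonunit_add 𝒩 hA h1 hnu h2
  rw [add_sub_cancel] at h3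
  exact h3 hu'

/-- **uniqueness of the slope** -/
theorem slopeW_unique {z : F} {m m' : ℤ} {u u' : F} (hu : 𝒩.IsU u) (hu' : 𝒩.IsU u')
    (h : 𝒩.CongW z (P.t ^ m * u)) (h' : 𝒩.CongW z (P.t ^ m' * u')) : m = m' := by
  have ht0 := P.t_ne_zero
  have h1 : 𝒩.CongW (P.t ^ m * u) (P.t ^ m' * u') := (h.symm 𝒩).trans 𝒩 h'
  have h2 := h1.mul_left 𝒩 (a := P.t ^ (-m')) (Or.inr (by rw [dln_oW_zpow, P.oW_t]; simp))
  have e1 : P.t ^ (-m') * (P.t ^ m * u) = P.t ^ (m - m') * u := by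
    rw [← mul_assoc, ← zpow_add₀ ht0]; congr 2; ring
  have e2 : P.t ^ (-m') * (P.t ^ m' * u') = u' := by
    rw [← mul_assoc, ← zpow_add₀ ht0]; simp
  rw [e1, e2] at h2
  have := P.slopeW_zero hu hu' h2
  omega

end DlnPar

end Fermat.Agent.Delta
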