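/-
DELTA / NODE-ABS (helper8), part 3: **exchanging the two branches** `W ↔ W'`.

* `DlLocal.swap`, `DlnPar.swap` and the dictionary; the `W'`-versions of the slope lemmas.
-/
import Fermat.Agent.Lib.Delta.Node.Unit

set_option autoImplicit false
set_option linter.style.haveILetI false
set_option linter.unusedSectionVars false
set_option linter.unusedVariables false

namespace Fermat.Agent.Delta

open Fermat.Agent.T4

variable {L F : Type*} [Field L] [Field F] [Algebra L F]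

/-- the same local ring with the two vertical valuation rings exchanged -/
def DlLocal.swap (𝒩 : DlLocal L F) : DlLocal L F where
  O := 𝒩.O
  dvrO := 𝒩.dvrO
  ϖ := 𝒩.ϖ
  hϖ := 𝒩.hϖ
  P := 𝒩.P
  isLocal := 𝒩.isLocal
  noeth := 𝒩.noeth
  W := 𝒩.W'
  W' := 𝒩.W
  hW := 𝒩.hW'
  hW' := 𝒩.hW
  W_ne := 𝒩.W_ne.symm
  ϖW := 𝒩.ϖW'
  ϖW' := 𝒩.ϖW
  O_le := 𝒩.O_le
  hor_ϖ := fun V hV h1 h2 => 𝒩.hor_ϖ V hV h2 h1
  resk := 𝒩.resk
  fin := fun V hV h1 h2 => 𝒩.fin V hV h2 h1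

section

variable (𝒩 : DlLocal L F)

@[simp] theorem DlLocal.swap_A : 𝒩.swap.A = 𝒩.A := rfl

@[simp] theorem DlLocal.swap_pi : 𝒩.swap.pi = 𝒩.pi := rfl

@[simp] theorem DlLocal.swap_oW (f : F) : 𝒩.swap.oW f = 𝒩.oW' f := rfl

@[simp] theorem DlLocal.swap_oW' (f : F) : 𝒩.swap.oW' f = 𝒩.oW f := rfl

theorem DlLocal.swap_isU {f : F} : 𝒩.swap.IsU f ↔ 𝒩.IsU f := Iff.rfl

theorem DlLocal.swap_congW {f g : F} : 𝒩.swap.CongW f g ↔ 𝒩.CongW' f g := Iff.rfl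

theorem DlLocal.swap_congW' {f g : F} : 𝒩.swap.CongW' f g ↔ 𝒩.CongW f g := Iff.rfl

theorem DlLocal.mem_swap_hor {V : ValuationSubring F} : V ∈ 𝒩.swap.hor ↔ V ∈ 𝒩.hor := by
  constructor
  · rintro ⟨h1, h2, h3⟩; exact ⟨h1, h3, h2⟩
  · rintro ⟨h1, h2, h3⟩; exact ⟨h1, h3, h2⟩

theorem DlLocal.swap_oH {V : ValuationSubring F} (hV : V ∈ 𝒩.swap.hor) (f : F) :
    𝒩.swap.oH V hV f = 𝒩.oH V ((𝒩.mem_swap_hor).mp hV) f := rfl

theorem DlLocal.swap_swap : 𝒩.swap.swap = 𝒩 := rfl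

end

/-- the parameters with the two branches exchanged -/
def DlnPar.swap {𝒩 : DlLocal L F} (P : DlnPar 𝒩) : DlnPar 𝒩.swap where
  t := P.t'
  t' := P.t
  ht := P.ht'
  ht' := P.ht
  oW_t := P.oW'_t'
  oW'_t := P.oW_t'
  oW'_t' := P.oW_t
  oW_t' := P.oW'_t
  max := by
    intro f hf hfu
    obtain ⟨a, b, c, ha, hb, hc, e⟩ := P.max f hf hfu
    exact ⟨b, a, c, hb, ha, hc, by rw [e]; simp only [DlLocal.swap_pi]; ring⟩
  dvrW := P.dvrW'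
  dvrW' := P.dvrW

namespace DlnPar

variable {𝒩 : DlLocal L F} (P : DlnPar 𝒩)

/-- the slope decomposition at `W'` -/
theorem exists_slopeW' {z : F} (hz0 : z ≠ 0) (hz : 𝒩.oW' z = 0) :
    ∃ (m : ℤ) (u : F), 𝒩.IsU u ∧ 𝒩.CongW' z (P.t' ^ m * u) :=
  P.swap.exists_slopeW hz0 hz

theorem slopeW'_unique {z : F} {m m' : ℤ} {u u' : F} (hu : 𝒩.IsU u) (hu' : 𝒩.IsU u')
    (h : 𝒩.CongW' z (P.t' ^ m * u)) (h' : 𝒩.CongW' z (P.t' ^ m' * u')) : m = m' :=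
  P.swap.slopeW_unique hu hu' h h'

end DlnPar

/-- the unit lemma at `W'` -/
theorem dln_unit' (𝒩 : DlLocal L F) {z b : F} (hz0 : z ≠ 0)
    (hH : ∀ (V : ValuationSubring F) (hV : V ∈ 𝒩.hor), 𝒩.oH V hV z = 0)
    (hW : 𝒩.oW' z = 0) (hb : 𝒩.IsU b) (hzb : 𝒩.CongW' z b) : 𝒩.IsU z :=
  dln_unit 𝒩.swap hz0 (fun V hV => hH V ((𝒩.mem_swap_hor).mp hV)) hW hb hzb

end Fermat.Agent.Delta
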