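/-
DELTA / NODE-ABS (helper8), part 4: **parameters at the node from the two entry points**.

* `dln_ctr_isPrime`           : the centres are prime ideals;
* `dln_quot_dvr_form`         : if `A ⧸ 𝔭_V` is a discrete valuation ring with uniformiser `t̄`, every
  `f ∈ A ∖ 𝔭_V` is `≡ t ^ n · u` modulo `𝔭_V` with `u ∈ A^×`;
* `dln_quot_dvr_of_gen`       : `A ⧸ 𝔭_V` is a discrete valuation ring as soon as its maximal ideal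
  is generated by the image of a non-unit `t ∉ 𝔭_V` (`A` noetherian local);
* `DlNode.par`                : the parameters of a node in normal form (`DlnPar`).
-/
import Fermat.Agent.Lib.Delta.Node.Swap
import Mathlib.RingTheory.DiscreteValuationRing.TFAE
import Mathlib.RingTheory.LocalRing.Quotient

set_option autoImplicit false
set_option linter.style.haveILetI false
set_option linter.unusedSectionVars false
set_option linter.unusedVariables false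

namespace Fermat.Agent.Delta

open Fermat.Agent.T4

variable {L F : Type*} [Field L] [Field F] [Algebra L F]

section Quot

variable (𝒩 : DlLocal L F)

/-- the centres are prime ideals -/
theorem dln_ctr_isPrime (V : ValuationSubring F) (hV : V ∈ 𝒩.P.vals) :
    (𝒩.ctr V hV).IsPrime := by
  rw [Ideal.isPrime_iff]
  constructor
  · rw [Ideal.ne_top_iff_one]
    intro h
    have h1 : V.valuation ((1 : 𝒩.P.B) : F) < 1 := h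
    rw [Subring.coe_one, map_one] at h1
    exact lt_irrefl _ h1
  · intro x y hxy
    have h1 : V.valuation ((x * y : 𝒩.P.B) : F) < 1 := hxy
    rw [Subring.coe_mul, map_mul] at h1
    have hx : V.valuation (x : F) ≤ 1 := (V.valuation_le_one_iff _).mpr (𝒩.P.B_le hV x.2)
    have hy : V.valuation (y : F) ≤ 1 := (V.valuation_le_one_iff _).mpr (𝒩.P.B_le hV y.2)
    by_contra hcon
    push Not at hcon
    have hx1 : V.valuation (x : F) = 1 :=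
      le_antisymm hx (not_lt.mp (fun h => hcon.1 h))
    have hy1 : V.valuation (y : F) = 1 :=
      le_antisymm hy (not_lt.mp (fun h => hcon.2 h))
    rw [hx1, hy1, one_mul] at h1
    exact lt_irrefl _ h1

instance dln_ctr_isPrime_inst (V : ValuationSubring F) (hV : V ∈ 𝒩.P.vals) :
    (𝒩.ctr V hV).IsPrime := dln_ctr_isPrime 𝒩 V hV

theorem dln_ctr_ne_top (V : ValuationSubring F) (hV : V ∈ 𝒩.P.vals) : 𝒩.ctr V hV ≠ ⊤ :=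
  (dln_ctr_isPrime 𝒩 V hV).ne_top

instance dln_quot_isLocalRing (V : ValuationSubring F) (hV : V ∈ 𝒩.P.vals) :
    IsLocalRing (𝒩.P.B ⧸ 𝒩.ctr V hV) :=
  IsLocalRing.of_surjective' (Ideal.Quotient.mk _) Ideal.Quotient.mk_surjective

instance dln_quot_isLocalHom (V : ValuationSubring F) (hV : V ∈ 𝒩.P.vals) :
    IsLocalHom (Ideal.Quotient.mk (𝒩.ctr V hV)) :=
  IsLocalHom.of_surjective _ Ideal.Quotient.mk_surjective

/-- if `A ⧸ 𝔭_V` is a discrete valuation ring with uniformiser `t̄`, every `f ∈ A ∖ 𝔭_V` is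
`≡ t ^ n · u` modulo `𝔭_V` with `u` a unit of `A` -/
theorem dln_quot_dvr_form (V : ValuationSubring F) (hV : V ∈ 𝒩.P.vals) (t : 𝒩.P.B)
    (hpir : IsPrincipalIdealRing (𝒩.P.B ⧸ 𝒩.ctr V hV))
    (ht : IsLocalRing.maximalIdeal (𝒩.P.B ⧸ 𝒩.ctr V hV) =
      Ideal.span {Ideal.Quotient.mk (𝒩.ctr V hV) t})
    (ht0 : t ∉ 𝒩.ctr V hV) :
    ∀ f : 𝒩.P.B, f ∉ 𝒩.ctr V hV → ∃ (n : ℕ) (u : 𝒩.P.B), IsUnit u ∧
      f - t ^ n * u ∈ 𝒩.ctr V hV := by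
  intro f hf
  have hne : IsLocalRing.maximalIdeal (𝒩.P.B ⧸ 𝒩.ctr V hV) ≠ ⊥ := by
    rw [ht]
    intro h
    rw [Ideal.span_singleton_eq_bot, Ideal.Quotient.eq_zero_iff_mem] at h
    exact ht0 h
  haveI : IsDiscreteValuationRing (𝒩.P.B ⧸ 𝒩.ctr V hV) := { not_a_field' := hne }
  have hirr : Irreducible (Ideal.Quotient.mk (𝒩.ctr V hV) t) :=
    (IsDiscreteValuationRing.irreducible_iff_uniformizer _).mpr ht
  have hf0 : Ideal.Quotient.mk (𝒩.ctr V hV) f ≠ 0 := by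
    rw [Ne, Ideal.Quotient.eq_zero_iff_mem]
    exact hf
  obtain ⟨n, u, hu⟩ := IsDiscreteValuationRing.eq_unit_mul_pow_irreducible hf0 hirr
  obtain ⟨u', hu'⟩ := Ideal.Quotient.mk_surjective (u : 𝒩.P.B ⧸ 𝒩.ctr V hV)
  have hunit : IsUnit u' := by
    apply isUnit_of_map_unit (Ideal.Quotient.mk (𝒩.ctr V hV))
    rw [hu']
    exact u.isUnit
  refine ⟨n, u', hunit, ?_⟩
  rw [← Ideal.Quotient.eq_zero_iff_mem, map_sub, map_mul, map_pow, hu', hu]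
  ring

/-- `A ⧸ 𝔭_V` is a discrete valuation ring as soon as its maximal ideal is generated by the image
of a non-unit `t ∉ 𝔭_V` -/
theorem dln_quot_dvr_of_gen (V : ValuationSubring F) (hV : V ∈ 𝒩.P.vals) (t : 𝒩.P.B)
    (htu : ¬ IsUnit t) (ht0 : t ∉ 𝒩.ctr V hV)
    (hgen : ∀ f : 𝒩.P.B, ¬ IsUnit f → ∃ a : 𝒩.P.B, f - a * t ∈ 𝒩.ctr V hV) :
    IsPrincipalIdealRing (𝒩.P.B ⧸ 𝒩.ctr V hV) ∧
      IsLocalRing.maximalIdeal (𝒩.P.B ⧸ 𝒩.ctr V hV) =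
        Ideal.span {Ideal.Quotient.mk (𝒩.ctr V hV) t} := by
  have hmax : IsLocalRing.maximalIdeal (𝒩.P.B ⧸ 𝒩.ctr V hV) =
      Ideal.span {Ideal.Quotient.mk (𝒩.ctr V hV) t} := by
    apply le_antisymm
    · intro x hx
      obtain ⟨f, rfl⟩ := Ideal.Quotient.mk_surjective x
      have hfu : ¬ IsUnit f := by
        intro h
        exact (IsLocalRing.mem_maximalIdeal _).mp hx (h.map _)
      obtain ⟨a, ha⟩ := hgen f hfu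
      rw [Ideal.mem_span_singleton]
      refine ⟨Ideal.Quotient.mk _ a, ?_⟩
      rw [← Ideal.Quotient.eq_zero_iff_mem, map_sub, map_mul, sub_eq_zero] at ha
      rw [ha, mul_comm]
    · rw [Ideal.span_singleton_le_iff_mem, IsLocalRing.mem_maximalIdeal, mem_nonunits_iff]
      intro h
      exact htu (isUnit_of_map_unit (Ideal.Quotient.mk (𝒩.ctr V hV)) t h)
  refine ⟨?_, hmax⟩
  have hnf : ¬ IsField (𝒩.P.B ⧸ 𝒩.ctr V hV) := by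
    rw [IsLocalRing.isField_iff_maximalIdeal_eq, hmax, Ideal.span_singleton_eq_bot,
      Ideal.Quotient.eq_zero_iff_mem]
    exact ht0
  have h4 : (IsLocalRing.maximalIdeal (𝒩.P.B ⧸ 𝒩.ctr V hV)).IsPrincipal := ⟨⟨_, hmax⟩⟩
  have hd : IsDiscreteValuationRing (𝒩.P.B ⧸ 𝒩.ctr V hV) :=
    ((IsDiscreteValuationRing.TFAE _ hnf).out 4 0).mp h4
  exact hd.toIsPrincipalIdealRing

/-- membership in the centre of `W`, in terms of orders -/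
theorem dln_mem_ctrW {f : 𝒩.P.B} : f ∈ 𝒩.ctr 𝒩.W 𝒩.hW ↔ (f : F) = 0 ∨ 0 < 𝒩.oW f := by
  rw [DlLocal.mem_ctr]
  constructor
  · intro h
    by_cases h0 : (f : F) = 0
    · exact Or.inl h0
    · exact Or.inr ((dl_valuation_lt_one_iff 𝒩.W h0).mp h)
  · rintro (h | h)
    · rw [h, map_zero]; exact zero_lt_one
    · have h0 : (f : F) ≠ 0 := dln_ne_zero_of_ord_ne 𝒩.W (by
        have : 0 < dlOrd 𝒩.W (f : F) := h
        omega)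
      exact (dl_valuation_lt_one_iff 𝒩.W h0).mpr h

theorem dln_mem_ctrW' {f : 𝒩.P.B} : f ∈ 𝒩.ctr 𝒩.W' 𝒩.hW' ↔ (f : F) = 0 ∨ 0 < 𝒩.oW' f :=
  dln_mem_ctrW 𝒩.swap

/-- the elementary form of "`A ⧸ 𝔭_W` is a discrete valuation ring with uniformiser `t̄`" -/
theorem dln_dvrW_of_quot (t : F) (htA : t ∈ 𝒩.A)
    (hpir : IsPrincipalIdealRing (𝒩.P.B ⧸ 𝒩.ctr 𝒩.W 𝒩.hW))
    (ht : IsLocalRing.maximalIdeal (𝒩.P.B ⧸ 𝒩.ctr 𝒩.W 𝒩.hW) =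
      Ideal.span {Ideal.Quotient.mk (𝒩.ctr 𝒩.W 𝒩.hW) ⟨t, htA⟩})
    (ht0 : t ≠ 0) (htW : 𝒩.oW t = 0) :
    ∀ f ∈ 𝒩.A, f ≠ 0 → 𝒩.oW f = 0 → ∃ (n : ℕ) (u : F), 𝒩.IsU u ∧ 𝒩.CongW f (t ^ n * u) := by
  intro f hfA hf0 hfW
  have h1 : (⟨t, htA⟩ : 𝒩.P.B) ∉ 𝒩.ctr 𝒩.W 𝒩.hW := by
    rw [dln_mem_ctrW]
    rintro (h | h)
    · exact ht0 h
    · have : 𝒩.oW t = 0 := htW
      change 0 < 𝒩.oW t at h
      omega
  have h2 : (⟨f, hfA⟩ : 𝒩.P.B) ∉ 𝒩.ctr 𝒩.W 𝒩.hW := by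
    rw [dln_mem_ctrW]
    rintro (h | h)
    · exact hf0 h
    · change 0 < 𝒩.oW f at h
      omega
  obtain ⟨n, u, hu, hfu⟩ := dln_quot_dvr_form 𝒩 𝒩.W 𝒩.hW ⟨t, htA⟩ hpir ht h1 ⟨f, hfA⟩ h2
  refine ⟨n, (u : F), (dln_isU_iff_isUnit 𝒩 u).mpr hu, ?_⟩
  rw [dln_mem_ctrW] at hfu
  rcases hfu with h | h
  · left
    have : f - t ^ n * (u : F) = 0 := h
    exact sub_eq_zero.mp this
  · right
    exact h

end Quot

/-! ### the parameters of a node in normal form -/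

namespace DlNode

variable (𝒩 : DlNode L F)

theorem t_ne_zero : 𝒩.t ≠ 0 := by
  intro h
  have := 𝒩.tt'
  rw [h, zero_mul] at this
  exact pow_ne_zero _ (dln_pi_ne_zero 𝒩.toDlLocal) this.symm

theorem t'_ne_zero : 𝒩.t' ≠ 0 := by
  intro h
  have := 𝒩.tt'
  rw [h, mul_zero] at this
  exact pow_ne_zero _ (dln_pi_ne_zero 𝒩.toDlLocal) this.symm

theorem oW_t : 𝒩.oW 𝒩.t = 0 := (dl_valuation_eq_one_iff 𝒩.W 𝒩.t_ne_zero).mp 𝒩.Wt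

theorem oW'_t' : 𝒩.oW' 𝒩.t' = 0 := (dl_valuation_eq_one_iff 𝒩.W' 𝒩.t'_ne_zero).mp 𝒩.W't'

theorem oW_t' : 𝒩.oW 𝒩.t' = 𝒩.w := by
  have h := congrArg 𝒩.oW 𝒩.tt'
  rw [dln_oW_mul 𝒩.toDlLocal 𝒩.t_ne_zero 𝒩.t'_ne_zero, dln_oW_pow, 𝒩.oW_t] at h
  have := dln_oW_pi 𝒩.toDlLocal
  simp only [DlLocal.pi] at this
  rw [this] at h
  linarith

theorem oW'_t : 𝒩.oW' 𝒩.t = 𝒩.w := by
  have h := congrArg 𝒩.oW' 𝒩.tt'
  rw [dln_oW'_mul 𝒩.toDlLocal 𝒩.t_ne_zero 𝒩.t'_ne_zero, dln_oW'_pow, 𝒩.oW'_t'] at h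
  have := dln_oW'_pi 𝒩.toDlLocal
  simp only [DlLocal.pi] at this
  rw [this] at h
  linarith

theorem oH_t {V : ValuationSubring F} (hV : V ∈ 𝒩.hor) : 𝒩.oH V hV 𝒩.t = 0 := by
  have h := congrArg (𝒩.oH V hV) 𝒩.tt'
  rw [dln_oH_mul 𝒩.toDlLocal hV 𝒩.t_ne_zero 𝒩.t'_ne_zero, dln_oH_pow] at h
  have := dln_oH_pi 𝒩.toDlLocal hV
  simp only [DlLocal.pi] at this
  rw [this] at h
  have h1 := dln_oH_nonneg 𝒩.toDlLocal 𝒩.ht hV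
  have h2 := dln_oH_nonneg 𝒩.toDlLocal 𝒩.ht' hV
  linarith

theorem oH_t' {V : ValuationSubring F} (hV : V ∈ 𝒩.hor) : 𝒩.oH V hV 𝒩.t' = 0 := by
  have h := congrArg (𝒩.oH V hV) 𝒩.tt'
  rw [dln_oH_mul 𝒩.toDlLocal hV 𝒩.t_ne_zero 𝒩.t'_ne_zero, dln_oH_pow] at h
  have := dln_oH_pi 𝒩.toDlLocal hV
  simp only [DlLocal.pi] at this
  rw [this] at h
  have h1 := dln_oH_nonneg 𝒩.toDlLocal 𝒩.ht hV
  have h2 := dln_oH_nonneg 𝒩.toDlLocal 𝒩.ht' hV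
  linarith

theorem w_pos : (0 : ℤ) < 𝒩.w := by exact_mod_cast 𝒩.hw

/-- `𝔪_A = (t, t', ϖ)`, elementary form -/
theorem max' : ∀ f ∈ 𝒩.A, ¬ 𝒩.IsU f → ∃ a b c : F, a ∈ 𝒩.A ∧ b ∈ 𝒩.A ∧ c ∈ 𝒩.A ∧
    f = a * 𝒩.t + b * 𝒩.t' + c * 𝒩.pi := by
  intro f hf hfu
  have h1 : ¬ IsUnit (⟨f, hf⟩ : 𝒩.P.B) := fun h =>
    hfu ((dln_isU_iff_isUnit 𝒩.toDlLocal ⟨f, hf⟩).mpr h)
  obtain ⟨a, b, c, e⟩ := 𝒩.max ⟨f, hf⟩ h1
  exact ⟨a, b, c, a.2, b.2, c.2, e⟩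

theorem dvrW_aux : ∀ f ∈ 𝒩.A, f ≠ 0 → 𝒩.oW f = 0 →
    ∃ (n : ℕ) (u : F), 𝒩.IsU u ∧ 𝒩.CongW f (𝒩.t ^ n * u) := by
  have htu : ¬ IsUnit (⟨𝒩.t, 𝒩.ht⟩ : 𝒩.P.B) := by
    intro h
    have := ((dln_isU_iff_isUnit 𝒩.toDlLocal ⟨𝒩.t, 𝒩.ht⟩).mpr h).oW' 𝒩.toDlLocal
    have h2 := 𝒩.oW'_t
    have h3 := 𝒩.w_pos
    change 𝒩.oW' 𝒩.t = 0 at this
    omega
  have ht0 : (⟨𝒩.t, 𝒩.ht⟩ : 𝒩.P.B) ∉ 𝒩.ctr 𝒩.W 𝒩.hW := by
    rw [dln_mem_ctrW]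
    rintro (h | h)
    · exact 𝒩.t_ne_zero h
    · have := 𝒩.oW_t
      change 0 < 𝒩.oW 𝒩.t at h
      omega
  have hgen : ∀ f : 𝒩.P.B, ¬ IsUnit f → ∃ a : 𝒩.P.B,
      f - a * ⟨𝒩.t, 𝒩.ht⟩ ∈ 𝒩.ctr 𝒩.W 𝒩.hW := by
    intro f hf
    obtain ⟨a, b, c, e⟩ := 𝒩.max f hf
    refine ⟨a, ?_⟩
    rw [dln_mem_ctrW]
    have e' : ((f - a * ⟨𝒩.t, 𝒩.ht⟩ : 𝒩.P.B) : F) = (b : F) * 𝒩.t' + (c : F) * 𝒩.pi := by
      push_cast
      rw [e]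
      simp only [DlLocal.pi]
      ring
    rw [e']
    by_cases h0 : (b : F) * 𝒩.t' + (c : F) * 𝒩.pi = 0
    · exact Or.inl h0
    right
    refine dlOrd_add_ge 𝒩.W h0 (n := 1) ?_ ?_
    · by_cases hb : (b : F) = 0
      · left; rw [hb, zero_mul]
      right
      have := dln_oW_mul 𝒩.toDlLocal hb 𝒩.t'_ne_zero
      change dlOrd 𝒩.W ((b : F) * 𝒩.t') = _ at this
      rw [this, 𝒩.oW_t']
      have h1 := dln_oW_nonneg 𝒩.toDlLocal b.2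
      have h2 := 𝒩.w_pos
      omega
    · by_cases hc : (c : F) = 0
      · left; rw [hc, zero_mul]
      right
      have := dln_oW_mul 𝒩.toDlLocal hc (dln_pi_ne_zero 𝒩.toDlLocal)
      change dlOrd 𝒩.W ((c : F) * 𝒩.pi) = _ at this
      rw [this, dln_oW_pi]
      have h1 := dln_oW_nonneg 𝒩.toDlLocal c.2
      omega
  obtain ⟨hpir, hmax⟩ := dln_quot_dvr_of_gen 𝒩.toDlLocal 𝒩.W 𝒩.hW ⟨𝒩.t, 𝒩.ht⟩ htu ht0 hgen
  exact dln_dvrW_of_quot 𝒩.toDlLocal 𝒩.t 𝒩.ht hpir hmax 𝒩.t_ne_zero 𝒩.oW_t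

/-- the node with the two branches exchanged -/
def swap : DlNode L F where
  toDlLocal := 𝒩.toDlLocal.swap
  t := 𝒩.t'
  t' := 𝒩.t
  ht := 𝒩.ht'
  ht' := 𝒩.ht
  w := 𝒩.w
  hw := 𝒩.hw
  tt' := by rw [mul_comm]; exact 𝒩.tt'
  Wt := 𝒩.W't'
  W't' := 𝒩.Wt
  max := by
    intro f hf
    obtain ⟨a, b, c, e⟩ := 𝒩.max f hf
    refine ⟨b, a, c, ?_⟩
    show (f : F) = (b : F) * 𝒩.t' + (a : F) * 𝒩.t + (c : F) * algebraMap L F 𝒩.ϖ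
    rw [e]; ring

/-- **the parameters of a node in normal form** -/
noncomputable def par : DlnPar 𝒩.toDlLocal where
  t := 𝒩.t
  t' := 𝒩.t'
  ht := 𝒩.ht
  ht' := 𝒩.ht'
  oW_t := 𝒩.oW_t
  oW'_t := by rw [𝒩.oW'_t]; exact 𝒩.w_pos
  oW'_t' := 𝒩.oW'_t'
  oW_t' := by rw [𝒩.oW_t']; exact 𝒩.w_pos
  max := 𝒩.max'
  dvrW := 𝒩.dvrW_aux
  dvrW' := 𝒩.swap.dvrW_aux

@[simp] theorem par_t : 𝒩.par.t = 𝒩.t := rfl

@[simp] theorem par_t' : 𝒩.par.t' = 𝒩.t' := rfl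

end DlNode

end Fermat.Agent.Delta
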