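/-
DELTA / NODE-ABS (helper8), part 5: **the slope at a node in normal form** and **the slope law**.

`𝒩 : DlNode L F` (`t · t' = ϖ ^ w`).  For `z ≠ 0` put `n = ord_W z`; then
`z / ϖ ^ n ≡ t ^ μ · u` modulo `𝔪_W` for a unique `μ : ℤ` (`u` a unit of `A`):
`𝒩.slope z := μ`.

* `DlNode.slope_spec`, `DlNode.slope_eq`, `DlNode.slope_spec_val` (helper2's literal form);
* `DlNode.slope_mul`, `slope_inv`, `slope_div`, `slope_zpow`, `slope_pow`, `slope_t`, `slope_t'`,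
  `slope_pi`, `slope_isU`, `slope_const`;
* `dln_unit_slope`    : no horizontal part, `ord_W z = 0`, `slope z = 0` ⇒ `z ∈ A^×`;
* `dln_slope_form`    : no horizontal part ⇒ `z = ϖ ^ n · t ^ μ · unit`;
* `dln_slope_law`     : no horizontal part ⇒ `ord_W' z − ord_W z = slope z · w` (EXACT).
-/
import Fermat.Agent.Lib.Delta.Node.ParNode

set_option autoImplicit false
set_option linter.style.haveILetI false
set_option linter.unusedSectionVars false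
set_option linter.unusedVariables false

namespace Fermat.Agent.Delta

open Fermat.Agent.T4

variable {L F : Type*} [Field L] [Field F] [Algebra L F]

section Cong

variable (𝒩 : DlLocal L F)

/-- inversion of congruences between units of `W` -/
theorem DlLocal.CongW.inv {f g : F} (h : 𝒩.CongW f g) (hg0 : g ≠ 0) (hg : 𝒩.oW g = 0) :
    𝒩.CongW f⁻¹ g⁻¹ := by
  obtain ⟨hf0, hf⟩ := h.oW_eq_zero 𝒩 hg0 hg
  rcases h with h | h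
  · exact Or.inl (by rw [h])
  right
  have hfg : f - g ≠ 0 := dln_ne_zero_of_ord_ne 𝒩.W (by
    have : 0 < dlOrd 𝒩.W (f - g) := h
    omega)
  have e : f⁻¹ - g⁻¹ = -(f - g) / (f * g) := by
    field_simp
    ring
  rw [e, dln_oW_div 𝒩 (neg_ne_zero.mpr hfg) (mul_ne_zero hf0 hg0), dln_oW_mul 𝒩 hf0 hg0, hf, hg]
  show 0 < dlOrd 𝒩.W (-(f - g)) - (0 + 0)
  rw [dlOrd_neg]
  have : 0 < dlOrd 𝒩.W (f - g) := h
  omega

/-- congruence in terms of the valuation -/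
theorem dln_congW_iff_val {f g : F} : 𝒩.CongW f g ↔ 𝒩.W.valuation (f - g) < 1 := by
  constructor
  · rintro (h | h)
    · rw [h, sub_self, map_zero]; exact zero_lt_one
    · have h0 : f - g ≠ 0 := dln_ne_zero_of_ord_ne 𝒩.W (by
        have : 0 < dlOrd 𝒩.W (f - g) := h
        omega)
      exact (dl_valuation_lt_one_iff 𝒩.W h0).mpr h
  · intro h
    by_cases h0 : f - g = 0
    · exact Or.inl (sub_eq_zero.mp h0)
    · exact Or.inr ((dl_valuation_lt_one_iff 𝒩.W h0).mp h)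

end Cong

namespace DlNode

variable (𝒩 : DlNode L F)

/-- the normalised function `z / ϖ ^ (ord_W z)` -/
noncomputable def nrm (z : F) : F := z / 𝒩.pi ^ (𝒩.oW z)

theorem nrm_ne_zero {z : F} (hz : z ≠ 0) : 𝒩.nrm z ≠ 0 :=
  div_ne_zero hz (zpow_ne_zero _ (dln_pi_ne_zero 𝒩.toDlLocal))

theorem oW_nrm {z : F} (hz : z ≠ 0) : 𝒩.oW (𝒩.nrm z) = 0 := by
  unfold nrm
  rw [dln_oW_div 𝒩.toDlLocal hz (zpow_ne_zero _ (dln_pi_ne_zero 𝒩.toDlLocal)), dln_oW_zpow,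
    dln_oW_pi]
  ring

theorem nrm_mul {z z' : F} (hz : z ≠ 0) (hz' : z' ≠ 0) :
    𝒩.nrm (z * z') = 𝒩.nrm z * 𝒩.nrm z' := by
  unfold nrm
  rw [dln_oW_mul 𝒩.toDlLocal hz hz', zpow_add₀ (dln_pi_ne_zero 𝒩.toDlLocal)]
  have := zpow_ne_zero (𝒩.oW z) (dln_pi_ne_zero 𝒩.toDlLocal)
  have := zpow_ne_zero (𝒩.oW z') (dln_pi_ne_zero 𝒩.toDlLocal)
  field_simp

theorem nrm_of_oW_zero {z : F} (hz : 𝒩.oW z = 0) : 𝒩.nrm z = z := by
  unfold nrm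
  rw [hz, zpow_zero, div_one]

theorem exists_slope {z : F} (hz : z ≠ 0) :
    ∃ (m : ℤ) (u : F), 𝒩.IsU u ∧ 𝒩.CongW (𝒩.nrm z) (𝒩.t ^ m * u) :=
  𝒩.par.exists_slopeW (𝒩.nrm_ne_zero hz) (𝒩.oW_nrm hz)

open Classical in
/-- **the slope** of a function at the node (with respect to the branch `W`) -/
noncomputable def slope (z : F) : ℤ :=
  if hz : z ≠ 0 then Classical.choose (𝒩.exists_slope hz) else 0

theorem slope_zero : 𝒩.slope 0 = 0 := by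
  unfold slope
  rw [dif_neg (by simp)]

theorem slope_spec {z : F} (hz : z ≠ 0) :
    ∃ u : F, 𝒩.IsU u ∧ 𝒩.CongW (𝒩.nrm z) (𝒩.t ^ (𝒩.slope z) * u) := by
  unfold slope
  rw [dif_pos hz]
  exact Classical.choose_spec (𝒩.exists_slope hz)

/-- uniqueness of the slope -/
theorem slope_eq {z : F} (hz : z ≠ 0) {m : ℤ} {u : F} (hu : 𝒩.IsU u)
    (h : 𝒩.CongW (𝒩.nrm z) (𝒩.t ^ m * u)) : 𝒩.slope z = m := by
  obtain ⟨u', hu', h'⟩ := 𝒩.slope_spec hz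
  exact 𝒩.par.slopeW_unique hu' hu h' h

theorem oW_t_zpow_mul {m : ℤ} {u : F} (hu : 𝒩.IsU u) : 𝒩.oW (𝒩.t ^ m * u) = 0 := by
  rw [dln_oW_mul 𝒩.toDlLocal (zpow_ne_zero _ 𝒩.t_ne_zero) hu.2.2, dln_oW_zpow, 𝒩.oW_t, hu.oW]
  ring

theorem slope_mul {z z' : F} (hz : z ≠ 0) (hz' : z' ≠ 0) :
    𝒩.slope (z * z') = 𝒩.slope z + 𝒩.slope z' := by
  obtain ⟨u, hu, h⟩ := 𝒩.slope_spec hz
  obtain ⟨u', hu', h'⟩ := 𝒩.slope_spec hz'
  refine 𝒩.slope_eq (mul_ne_zero hz hz') (hu.mul 𝒩.toDlLocal hu') ?_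
  rw [𝒩.nrm_mul hz hz']
  have e : 𝒩.t ^ (𝒩.slope z + 𝒩.slope z') * (u * u') =
      (𝒩.t ^ (𝒩.slope z) * u) * (𝒩.t ^ (𝒩.slope z') * u') := by
    rw [zpow_add₀ 𝒩.t_ne_zero]; ring
  rw [e]
  refine h.mul 𝒩.toDlLocal h' (Or.inr ?_) (Or.inr ?_)
  · rw [𝒩.oW_nrm hz']
  · rw [𝒩.oW_t_zpow_mul hu]

theorem slope_isU {u : F} (hu : 𝒩.IsU u) : 𝒩.slope u = 0 := by
  refine 𝒩.slope_eq hu.2.2 hu ?_
  rw [𝒩.nrm_of_oW_zero (hu.oW 𝒩.toDlLocal), zpow_zero, one_mul]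
  exact DlLocal.CongW.refl _ _

theorem slope_one : 𝒩.slope 1 = 0 := 𝒩.slope_isU (dln_isU_one 𝒩.toDlLocal)

theorem slope_inv (z : F) : 𝒩.slope z⁻¹ = -𝒩.slope z := by
  rcases eq_or_ne z 0 with rfl | hz
  · rw [inv_zero, slope_zero]; ring
  have h := 𝒩.slope_mul hz (inv_ne_zero hz)
  rw [mul_inv_cancel₀ hz, slope_one] at h
  omega

theorem slope_div {z z' : F} (hz : z ≠ 0) (hz' : z' ≠ 0) :
    𝒩.slope (z / z') = 𝒩.slope z - 𝒩.slope z' := by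
  rw [div_eq_mul_inv, 𝒩.slope_mul hz (inv_ne_zero hz'), slope_inv]; ring

theorem slope_pow (z : F) (n : ℕ) : 𝒩.slope (z ^ n) = n * 𝒩.slope z := by
  rcases eq_or_ne z 0 with rfl | hz
  · rcases n with _ | n
    · simp [slope_one]
    · rw [zero_pow (by omega), slope_zero]; ring
  induction n with
  | zero => simp [slope_one]
  | succ n ih =>
    rw [pow_succ, 𝒩.slope_mul (pow_ne_zero _ hz) hz, ih]
    push_cast; ring

theorem slope_zpow (z : F) (n : ℤ) : 𝒩.slope (z ^ n) = n * 𝒩.slope z := by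
  rcases n with n | n
  · rw [Int.ofNat_eq_natCast, zpow_natCast, slope_pow]
  · rw [zpow_negSucc, slope_inv, slope_pow, Int.negSucc_eq]
    push_cast; ring

theorem slope_t : 𝒩.slope 𝒩.t = 1 := by
  refine 𝒩.slope_eq 𝒩.t_ne_zero (dln_isU_one 𝒩.toDlLocal) ?_
  rw [𝒩.nrm_of_oW_zero 𝒩.oW_t, zpow_one, mul_one]
  exact DlLocal.CongW.refl _ _

theorem slope_pi : 𝒩.slope 𝒩.pi = 0 := by
  refine 𝒩.slope_eq (dln_pi_ne_zero 𝒩.toDlLocal) (dln_isU_one 𝒩.toDlLocal) ?_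
  unfold nrm
  rw [dln_oW_pi, zpow_one, div_self (dln_pi_ne_zero 𝒩.toDlLocal), zpow_zero, one_mul]
  exact DlLocal.CongW.refl _ _

theorem slope_t' : 𝒩.slope 𝒩.t' = -1 := by
  have h : 𝒩.t' = 𝒩.pi ^ 𝒩.w / 𝒩.t := by
    rw [eq_div_iff 𝒩.t_ne_zero, mul_comm]
    exact 𝒩.tt'
  rw [h, 𝒩.slope_div (pow_ne_zero _ (dln_pi_ne_zero 𝒩.toDlLocal)) 𝒩.t_ne_zero, slope_pow,
    slope_pi, slope_t]
  ring

/-- constants have slope `0` -/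
theorem slope_const {c : L} (hc : c ≠ 0) : 𝒩.slope (algebraMap L F c) = 0 := by
  have hπ : dlOrd 𝒩.O 𝒩.ϖ = 1 := dln_ord_of_unif 𝒩.O 𝒩.hϖ
  obtain ⟨u, hu, hcu⟩ := dl_exists_unit_mul_zpow 𝒩.O hπ hc
  have hU := dln_isU_of_unit_O 𝒩.toDlLocal hu
  have e : algebraMap L F c = algebraMap L F u * 𝒩.pi ^ dlOrd 𝒩.O c := by
    conv_lhs => rw [hcu]
    rw [map_mul, map_zpow₀]
  rw [e, 𝒩.slope_mul hU.2.2 (zpow_ne_zero _ (dln_pi_ne_zero 𝒩.toDlLocal)), 𝒩.slope_isU hU,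
    slope_zpow, slope_pi]
  ring

/-- the defining property of the slope, multiplicative form -/
theorem slope_spec' {z : F} (hz : z ≠ 0) :
    ∃ u : F, 𝒩.IsU u ∧ 𝒩.CongW (z / (𝒩.pi ^ (𝒩.oW z) * 𝒩.t ^ (𝒩.slope z))) u := by
  obtain ⟨u, hu, h⟩ := 𝒩.slope_spec hz
  refine ⟨u, hu, ?_⟩
  have h1 := h.mul_left 𝒩.toDlLocal (a := 𝒩.t ^ (-𝒩.slope z))
    (Or.inr (by rw [dln_oW_zpow, 𝒩.oW_t]; simp))
  have e1 : 𝒩.t ^ (-𝒩.slope z) * 𝒩.nrm z =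
      z / (𝒩.pi ^ (𝒩.oW z) * 𝒩.t ^ (𝒩.slope z)) := by
    unfold nrm
    rw [zpow_neg]
    have := zpow_ne_zero (𝒩.slope z) 𝒩.t_ne_zero
    have := zpow_ne_zero (𝒩.oW z) (dln_pi_ne_zero 𝒩.toDlLocal)
    field_simp
  have e2 : 𝒩.t ^ (-𝒩.slope z) * (𝒩.t ^ (𝒩.slope z) * u) = u := by
    rw [← mul_assoc, ← zpow_add₀ 𝒩.t_ne_zero]; simp
  rw [e1, e2] at h1
  exact h1

/-- helper2's literal form of the defining property of the slope -/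
theorem slope_spec_val {z : F} (hz : z ≠ 0) :
    ∃ u : F, u ∈ 𝒩.A ∧ u⁻¹ ∈ 𝒩.A ∧
      𝒩.W.valuation (z / (𝒩.pi ^ (dlOrd 𝒩.W z) * 𝒩.t ^ (𝒩.slope z)) - u) < 1 := by
  obtain ⟨u, hu, h⟩ := 𝒩.slope_spec' hz
  exact ⟨u, hu.1, hu.2.1, (dln_congW_iff_val 𝒩.toDlLocal).mp h⟩

/-- uniqueness of `(ord_W z, slope z)` in helper2's form (with `u` a unit of `A`) -/
theorem slope_eq_of_val {z : F} (hz : z ≠ 0) {n m : ℤ} {u : F} (hu : 𝒩.IsU u)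
    (h : 𝒩.W.valuation (z / (𝒩.pi ^ n * 𝒩.t ^ m) - u) < 1) :
    n = dlOrd 𝒩.W z ∧ m = 𝒩.slope z := by
  rw [← dln_congW_iff_val] at h
  have hp := dln_pi_ne_zero 𝒩.toDlLocal
  have h1 : 𝒩.pi ^ n * 𝒩.t ^ m ≠ 0 :=
    mul_ne_zero (zpow_ne_zero _ hp) (zpow_ne_zero _ 𝒩.t_ne_zero)
  obtain ⟨-, h2⟩ := h.oW_eq_zero 𝒩.toDlLocal hu.2.2 (hu.oW 𝒩.toDlLocal)
  rw [dln_oW_div 𝒩.toDlLocal hz h1,
    dln_oW_mul 𝒩.toDlLocal (zpow_ne_zero _ hp) (zpow_ne_zero _ 𝒩.t_ne_zero), dln_oW_zpow,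
    dln_oW_zpow, dln_oW_pi, 𝒩.oW_t] at h2
  have hn : n = 𝒩.oW z := by linarith
  refine ⟨hn, ?_⟩
  symm
  refine 𝒩.slope_eq hz hu ?_
  have h3 := h.mul_left 𝒩.toDlLocal (a := 𝒩.t ^ m)
    (Or.inr (by rw [dln_oW_zpow, 𝒩.oW_t]; simp))
  have e1 : 𝒩.t ^ m * (z / (𝒩.pi ^ n * 𝒩.t ^ m)) = 𝒩.nrm z := by
    unfold nrm
    rw [← hn]
    have := zpow_ne_zero m 𝒩.t_ne_zero
    have := zpow_ne_zero n hp
    field_simp
  rw [e1] at h3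
  exact h3

end DlNode

/-! ### functions without horizontal part through the node -/

section Law

variable (𝒩 : DlNode L F)

/-- **the slope form**: a function without horizontal part through the node is
`ϖ ^ n · t ^ μ · unit` -/
theorem dln_slope_form {z : F} (hz : z ≠ 0)
    (hH : ∀ (V : ValuationSubring F) (hV : V ∈ 𝒩.hor), 𝒩.oH V hV z = 0) :
    𝒩.IsU (z / (𝒩.pi ^ (𝒩.oW z) * 𝒩.t ^ (𝒩.slope z))) := by
  obtain ⟨u, hu, h⟩ := 𝒩.slope_spec' hz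
  have hp := dln_pi_ne_zero 𝒩.toDlLocal
  have h1 : 𝒩.pi ^ (𝒩.oW z) * 𝒩.t ^ (𝒩.slope z) ≠ 0 :=
    mul_ne_zero (zpow_ne_zero _ hp) (zpow_ne_zero _ 𝒩.t_ne_zero)
  refine dln_unit 𝒩.toDlLocal (div_ne_zero hz h1) ?_ ?_ hu h
  · intro V hV
    rw [dln_oH_div 𝒩.toDlLocal hV hz h1,
      dln_oH_mul 𝒩.toDlLocal hV (zpow_ne_zero _ hp) (zpow_ne_zero _ 𝒩.t_ne_zero),
      dln_oH_zpow, dln_oH_zpow, dln_oH_pi, 𝒩.oH_t hV, hH V hV]
    ring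
  · rw [dln_oW_div 𝒩.toDlLocal hz h1,
      dln_oW_mul 𝒩.toDlLocal (zpow_ne_zero _ hp) (zpow_ne_zero _ 𝒩.t_ne_zero),
      dln_oW_zpow, dln_oW_zpow, dln_oW_pi, 𝒩.oW_t]
    ring

/-- **the slope law** (EXACT): for a function without horizontal part through the node,
`ord_W' z − ord_W z = slope z · w` -/
theorem dln_slope_law {z : F} (hz : z ≠ 0)
    (hH : ∀ (V : ValuationSubring F) (hV : V ∈ 𝒩.hor), 𝒩.oH V hV z = 0) :
    𝒩.oW' z - 𝒩.oW z = 𝒩.slope z * 𝒩.w := by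
  have hU := dln_slope_form 𝒩 hz hH
  have hp := dln_pi_ne_zero 𝒩.toDlLocal
  have h1 : 𝒩.pi ^ (𝒩.oW z) * 𝒩.t ^ (𝒩.slope z) ≠ 0 :=
    mul_ne_zero (zpow_ne_zero _ hp) (zpow_ne_zero _ 𝒩.t_ne_zero)
  have h2 := hU.oW' 𝒩.toDlLocal
  rw [dln_oW'_div 𝒩.toDlLocal hz h1,
    dln_oW'_mul 𝒩.toDlLocal (zpow_ne_zero _ hp) (zpow_ne_zero _ 𝒩.t_ne_zero),
    dln_oW'_zpow, dln_oW'_zpow, dln_oW'_pi, 𝒩.oW'_t] at h2
  linarith

/-- **the unit lemma, slope form**: no horizontal part, order `0` at `W`, slope `0` ⇒ unit -/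
theorem dln_unit_slope {z : F} (hz : z ≠ 0)
    (hH : ∀ (V : ValuationSubring F) (hV : V ∈ 𝒩.hor), 𝒩.oH V hV z = 0)
    (hW : 𝒩.oW z = 0) (hs : 𝒩.slope z = 0) : 𝒩.IsU z := by
  have hU := dln_slope_form 𝒩 hz hH
  rw [hW, hs, zpow_zero, zpow_zero, mul_one, div_one] at hU
  exact hU

end Law

end Fermat.Agent.Delta
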