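/-
DELTA / NODE-ABS (helper8), part 6: **the coordinate lemma** (N6).

`𝒩 : DlNode L F` (`t · t' = ϖ ^ w`, `𝔪_A = (t, t', ϖ)`, residue field `k`, (FIN)).  For every
horizontal valuation ring `V` through the node there is a monic `N ∈ O[X]` (the minimal polynomial
over `O` of `t mod 𝔭_V`) such that `g_V := N(t)` is a uniformiser of `V` and a unit of every other
horizontal valuation ring through the node.  No completions, no henselian property: everything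
is NAKAYAMA over the subring `O[t, t'] ⊆ A` inside quotients of `A` which are finite over `O`:

* `DlNode.nak`           : `A ⧸ I` finite over `O[t, t']` ⇒ `A = O[t, t'] + I`;
* `DlNode.R0_poly`       : `t ^ m · r ∈ O[t]` for `r ∈ O[t, t']` (`t t' = ϖ ^ w`);
* `DlNode.finite_quot_ctr` (FIN), `finite_quot_inf` (`A ⧸ 𝔭_V ∩ 𝔭_V'`), `finite_quot_sq`
  (`A ⧸ 𝔭_V²`, `A` noetherian);
* `dln_eq_of_le`, `dln_exists_mem_ctr_not_mem` : distinct valuation rings of the presentation have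
  incomparable centres;
* `DlNode.cN`, `cN_dvd`, `cN_not_mem` (no other zero), `cN_simple` (simple zero);
* `DlNode.gV` with `oH_gV_self`, `oH_gV_other`;  `dln_coord` : helper2's literal form.
-/
import Fermat.Agent.Lib.Delta.Node.Slope

set_option autoImplicit false
set_option linter.style.haveILetI false
set_option linter.unusedSectionVars false
set_option linter.unusedVariables false

namespace Fermat.Agent.Delta

open Fermat.Agent.T4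

variable {L F : Type*} [Field L] [Field F] [Algebra L F]

/-- the structure map `O → A` -/
def DlLocal.ofO (𝒩 : DlLocal L F) : 𝒩.O →+* 𝒩.P.B :=
  ((algebraMap L F).comp 𝒩.O.subtype).codRestrict 𝒩.P.B (fun c => 𝒩.O_le c c.2)

/-- `A` as an `O`-algebra -/
@[reducible] def DlLocal.algOA (𝒩 : DlLocal L F) : Algebra 𝒩.O 𝒩.P.B := 𝒩.ofO.toAlgebra

attribute [local instance] DlLocal.algOA

theorem DlLocal.algebraMap_OA_coe (𝒩 : DlLocal L F) (c : 𝒩.O) :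
    ((algebraMap 𝒩.O 𝒩.P.B c : 𝒩.P.B) : F) = algebraMap L F (c : L) := rfl

theorem DlLocal.varpi_mem (𝒩 : DlLocal L F) : 𝒩.ϖ ∈ 𝒩.O :=
  (𝒩.O.valuation_le_one_iff _).mp 𝒩.hϖ.1.le

/-- `ϖ` as an element of `O` -/
def DlLocal.piO (𝒩 : DlLocal L F) : 𝒩.O := ⟨𝒩.ϖ, 𝒩.varpi_mem⟩

theorem DlLocal.algebraMap_piO (𝒩 : DlLocal L F) : algebraMap 𝒩.O 𝒩.P.B 𝒩.piO = 𝒩.piA := rfl

theorem DlLocal.piA_not_isUnit (𝒩 : DlLocal L F) : ¬ IsUnit 𝒩.piA := by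
  intro h
  have h1 : 𝒩.IsU 𝒩.pi := (dln_isU_iff_isUnit 𝒩 𝒩.piA).mpr h
  have h2 := h1.oW 𝒩
  rw [dln_oW_pi] at h2
  norm_num at h2

namespace DlNode

variable (𝒩 : DlNode L F)

/-- `t` as an element of `A` -/
def tA : 𝒩.P.B := ⟨𝒩.t, 𝒩.ht⟩

/-- `t'` as an element of `A` -/
def tA' : 𝒩.P.B := ⟨𝒩.t', 𝒩.ht'⟩

theorem tA_not_isUnit : ¬ IsUnit 𝒩.tA := fun h =>
  𝒩.par.t_not_isU ((dln_isU_iff_isUnit 𝒩.toDlLocal 𝒩.tA).mpr h)

theorem tA'_not_isUnit : ¬ IsUnit 𝒩.tA' := fun h =>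
  𝒩.par.t'_not_isU ((dln_isU_iff_isUnit 𝒩.toDlLocal 𝒩.tA').mpr h)

/-- the subring `O[t, t'] ⊆ A` -/
def R0 : Subalgebra 𝒩.O 𝒩.P.B := Algebra.adjoin 𝒩.O {𝒩.tA, 𝒩.tA'}

theorem tA_mem_R0 : 𝒩.tA ∈ 𝒩.R0 := Algebra.subset_adjoin (by simp)

theorem tA'_mem_R0 : 𝒩.tA' ∈ 𝒩.R0 := Algebra.subset_adjoin (by simp)

/-- **Nakayama**: if `A ⧸ I` is a finite `O[t, t']`-module, then `A = O[t, t'] + I` -/
theorem nak (I : Ideal 𝒩.P.B) [Module.Finite 𝒩.R0 (𝒩.P.B ⧸ I)] (f : 𝒩.P.B) :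
    ∃ r : 𝒩.R0, f - r ∈ I := by
  classical
  let 𝔞 : Ideal 𝒩.R0 := Ideal.span {algebraMap 𝒩.O 𝒩.R0 𝒩.piO, ⟨𝒩.tA, 𝒩.tA_mem_R0⟩,
    ⟨𝒩.tA', 𝒩.tA'_mem_R0⟩}
  let N : Submodule 𝒩.R0 (𝒩.P.B ⧸ I) := Submodule.span 𝒩.R0 {Ideal.Quotient.mk I 1}
  have h1 : (⊤ : Submodule 𝒩.R0 (𝒩.P.B ⧸ I)) ≤ N ⊔ 𝔞 • ⊤ := by
    intro x _
    obtain ⟨g, rfl⟩ := Ideal.Quotient.mk_surjective x
    obtain ⟨a, ha, hnu⟩ := 𝒩.resk g
    obtain ⟨a₁, b₁, c₁, e⟩ := 𝒩.max _ hnu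
    have e' : g = algebraMap 𝒩.O 𝒩.P.B ⟨a, ha⟩ + (𝒩.tA * a₁ + 𝒩.tA' * b₁ + 𝒩.piA * c₁) := by
      apply Subtype.ext
      have e2 : (g : F) - algebraMap L F a =
          (a₁ : F) * 𝒩.t + (b₁ : F) * 𝒩.t' + (c₁ : F) * algebraMap L F 𝒩.ϖ := e
      show (g : F) = algebraMap L F a + (𝒩.t * (a₁ : F) + 𝒩.t' * (b₁ : F) +
        algebraMap L F 𝒩.ϖ * (c₁ : F))
      linear_combination e2
    rw [e']
    rw [map_add]
    refine Submodule.add_mem_sup ?_ ?_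
    · have : Ideal.Quotient.mk I (algebraMap 𝒩.O 𝒩.P.B ⟨a, ha⟩) =
          (algebraMap 𝒩.O 𝒩.R0 ⟨a, ha⟩) • Ideal.Quotient.mk I 1 := by
        show _ = Ideal.Quotient.mk I (((algebraMap 𝒩.O 𝒩.R0 ⟨a, ha⟩ : 𝒩.R0) : 𝒩.P.B) * 1)
        rw [mul_one]; rfl
      rw [this]
      exact Submodule.smul_mem _ _ (Submodule.subset_span rfl)
    · rw [map_add, map_add]
      refine Submodule.add_mem _ (Submodule.add_mem _ ?_ ?_) ?_
      · have : Ideal.Quotient.mk I (𝒩.tA * a₁) =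
            (⟨𝒩.tA, 𝒩.tA_mem_R0⟩ : 𝒩.R0) • Ideal.Quotient.mk I a₁ := rfl
        rw [this]
        exact Submodule.smul_mem_smul (Ideal.subset_span (by simp)) Submodule.mem_top
      · have : Ideal.Quotient.mk I (𝒩.tA' * b₁) =
            (⟨𝒩.tA', 𝒩.tA'_mem_R0⟩ : 𝒩.R0) • Ideal.Quotient.mk I b₁ := rfl
        rw [this]
        exact Submodule.smul_mem_smul (Ideal.subset_span (by simp)) Submodule.mem_top
      · have : Ideal.Quotient.mk I (𝒩.piA * c₁) =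
            (algebraMap 𝒩.O 𝒩.R0 𝒩.piO) • Ideal.Quotient.mk I c₁ := rfl
        rw [this]
        exact Submodule.smul_mem_smul (Ideal.subset_span (by simp)) Submodule.mem_top
  obtain ⟨r, hr1, hr2⟩ := Submodule.exists_sub_one_mem_and_smul_le_of_fg_of_le_sup
    (Module.Finite.fg_top) le_rfl h1
  -- `r` is a unit of `A`
  have h𝔞 : 𝔞 ≤ Ideal.comap (algebraMap 𝒩.R0 𝒩.P.B) (IsLocalRing.maximalIdeal 𝒩.P.B) := by
    rw [Ideal.span_le]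
    intro x hx
    simp only [Set.mem_insert_iff, Set.mem_singleton_iff] at hx
    rcases hx with rfl | rfl | rfl
    · exact 𝒩.piA_not_isUnit
    · exact 𝒩.tA_not_isUnit
    · exact 𝒩.tA'_not_isUnit
  have hr3 : ((r : 𝒩.P.B) - 1) ∈ IsLocalRing.maximalIdeal 𝒩.P.B := h𝔞 hr1
  have hru : IsUnit (r : 𝒩.P.B) := by
    rcases IsLocalRing.isUnit_or_isUnit_one_sub_self (r : 𝒩.P.B) with h | h
    · exact h
    · exfalso
      have : (1 - (r : 𝒩.P.B)) ∈ IsLocalRing.maximalIdeal 𝒩.P.B := by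
        have := (IsLocalRing.maximalIdeal 𝒩.P.B).neg_mem hr3
        rwa [neg_sub] at this
      exact this h
  obtain ⟨ρ, hρ⟩ := hru
  have h2 : r • Ideal.Quotient.mk I ((ρ⁻¹ : (𝒩.P.B)ˣ) * f) ∈ N :=
    hr2 (Submodule.smul_mem_pointwise_smul _ r ⊤ Submodule.mem_top)
  have h3 : r • Ideal.Quotient.mk I ((ρ⁻¹ : (𝒩.P.B)ˣ) * f) = Ideal.Quotient.mk I f := by
    show Ideal.Quotient.mk I ((r : 𝒩.P.B) * (((ρ⁻¹ : (𝒩.P.B)ˣ) : 𝒩.P.B) * f)) = _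
    rw [← hρ, ← mul_assoc, Units.mul_inv, one_mul]
  rw [h3, Submodule.mem_span_singleton] at h2
  obtain ⟨s, hs⟩ := h2
  refine ⟨s, ?_⟩
  have h4 : s • Ideal.Quotient.mk I 1 = Ideal.Quotient.mk I (s : 𝒩.P.B) := by
    show Ideal.Quotient.mk I ((s : 𝒩.P.B) * 1) = _
    rw [mul_one]
  rw [h4] at hs
  rw [← Ideal.Quotient.eq_zero_iff_mem, map_sub, hs, sub_self]

theorem tA_mul_tA' : 𝒩.tA * 𝒩.tA' = algebraMap 𝒩.O 𝒩.P.B (𝒩.piO ^ 𝒩.w) := by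
  apply Subtype.ext
  show 𝒩.t * 𝒩.t' = algebraMap L F ((𝒩.piO ^ 𝒩.w : 𝒩.O) : L)
  rw [𝒩.tt']
  push_cast
  rfl

/-- elements of `O[t, t']` become polynomials in `t` after multiplication by a power of `t` -/
theorem R0_poly {r : 𝒩.P.B} (hr : r ∈ 𝒩.R0) :
    ∃ (m : ℕ) (Q : Polynomial 𝒩.O), 𝒩.tA ^ m * r = Polynomial.aeval 𝒩.tA Q := by
  unfold R0 at hr
  induction hr using Algebra.adjoin_induction with
  | mem x hx =>
    simp only [Set.mem_insert_iff, Set.mem_singleton_iff] at hx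
    rcases hx with rfl | rfl
    · exact ⟨0, Polynomial.X, by simp⟩
    · refine ⟨1, Polynomial.C (𝒩.piO ^ 𝒩.w), ?_⟩
      rw [pow_one, 𝒩.tA_mul_tA', Polynomial.aeval_C]
  | algebraMap c => exact ⟨0, Polynomial.C c, by simp⟩
  | add x y hx hy ihx ihy =>
    obtain ⟨m, Q, h⟩ := ihx
    obtain ⟨m', Q', h'⟩ := ihy
    refine ⟨m + m', Polynomial.X ^ m' * Q + Polynomial.X ^ m * Q', ?_⟩
    rw [map_add, map_mul, map_mul, map_pow, map_pow, Polynomial.aeval_X, ← h, ← h']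
    ring
  | mul x y hx hy ihx ihy =>
    obtain ⟨m, Q, h⟩ := ihx
    obtain ⟨m', Q', h'⟩ := ihy
    refine ⟨m + m', Q * Q', ?_⟩
    rw [map_mul, ← h, ← h']
    ring

/-! ### finiteness -/

/-- (FIN) as a `Module.Finite` statement -/
theorem finite_quot_ctr {V : ValuationSubring F} (hV : V ∈ 𝒩.hor) :
    Module.Finite 𝒩.O (𝒩.P.B ⧸ 𝒩.ctr V hV.1) := by
  classical
  obtain ⟨S, hS, hfin⟩ := 𝒩.fin V hV.1 hV.2.1 hV.2.2
  let v : ↥S → (𝒩.P.B ⧸ 𝒩.ctr V hV.1) := fun s => Ideal.Quotient.mk _ ⟨s.1, hS s.1 s.2⟩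
  refine Module.Finite.of_surjective (Fintype.linearCombination 𝒩.O v) ?_
  intro x
  obtain ⟨f, rfl⟩ := Ideal.Quotient.mk_surjective x
  obtain ⟨c, hc, hval⟩ := hfin f f.2
  refine ⟨fun s => ⟨c s.1, hc s.1⟩, ?_⟩
  rw [Fintype.linearCombination_apply]
  have h1 : ∑ s : ↥S, (⟨c s.1, hc s.1⟩ : 𝒩.O) • v s = Ideal.Quotient.mk (𝒩.ctr V hV.1)
      (∑ s : ↥S, algebraMap 𝒩.O 𝒩.P.B ⟨c s.1, hc s.1⟩ * ⟨s.1, hS s.1 s.2⟩) := by
    rw [map_sum]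
    rfl
  rw [h1, Ideal.Quotient.eq, DlLocal.mem_ctr]
  have h2 : ((∑ s : ↥S, algebraMap 𝒩.O 𝒩.P.B ⟨c s.1, hc s.1⟩ * ⟨s.1, hS s.1 s.2⟩ - f :
      𝒩.P.B) : F) = -((f : F) - ∑ s ∈ S, algebraMap L F (c s) * s) := by
    rw [neg_sub, ← Finset.sum_coe_sort S (fun s => algebraMap L F (c s) * s)]
    push_cast
    rfl
  rw [h2, Valuation.map_neg]
  exact hval

theorem finite_quot_ctr_R0 {V : ValuationSubring F} (hV : V ∈ 𝒩.hor) :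
    Module.Finite 𝒩.R0 (𝒩.P.B ⧸ 𝒩.ctr V hV.1) := by
  haveI := 𝒩.finite_quot_ctr hV
  exact Module.Finite.of_restrictScalars_finite 𝒩.O 𝒩.R0 _

theorem finite_quot_inf {V V' : ValuationSubring F} (hV : V ∈ 𝒩.hor) (hV' : V' ∈ 𝒩.hor) :
    Module.Finite 𝒩.R0 (𝒩.P.B ⧸ (𝒩.ctr V hV.1 ⊓ 𝒩.ctr V' hV'.1)) := by
  haveI := 𝒩.finite_quot_ctr hV
  haveI := 𝒩.finite_quot_ctr hV'
  let φ : (𝒩.P.B ⧸ (𝒩.ctr V hV.1 ⊓ 𝒩.ctr V' hV'.1)) →ₗ[𝒩.O]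
      (𝒩.P.B ⧸ 𝒩.ctr V hV.1) × (𝒩.P.B ⧸ 𝒩.ctr V' hV'.1) :=
    (Ideal.Quotient.factorₐ 𝒩.O inf_le_left).toLinearMap.prod
      (Ideal.Quotient.factorₐ 𝒩.O inf_le_right).toLinearMap
  haveI : Module.Finite 𝒩.O (𝒩.P.B ⧸ (𝒩.ctr V hV.1 ⊓ 𝒩.ctr V' hV'.1)) := by
    refine Module.Finite.of_injective φ ?_
    rw [injective_iff_map_eq_zero]
    intro x hx
    obtain ⟨f, rfl⟩ := Ideal.Quotient.mk_surjective x
    have h1 : Ideal.Quotient.mk (𝒩.ctr V hV.1) f = 0 := congrArg Prod.fst hx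
    have h2 : Ideal.Quotient.mk (𝒩.ctr V' hV'.1) f = 0 := congrArg Prod.snd hx
    rw [Ideal.Quotient.eq_zero_iff_mem] at h1 h2 ⊢
    exact ⟨h1, h2⟩
  exact Module.Finite.of_restrictScalars_finite 𝒩.O 𝒩.R0 _

theorem finite_quot_sq {V : ValuationSubring F} (hV : V ∈ 𝒩.hor) :
    Module.Finite 𝒩.R0 (𝒩.P.B ⧸ (𝒩.ctr V hV.1 * 𝒩.ctr V hV.1)) := by
  classical
  haveI := 𝒩.finite_quot_ctr_R0 hV
  obtain ⟨G, hG⟩ := (IsNoetherian.noetherian (𝒩.ctr V hV.1) : (𝒩.ctr V hV.1).FG)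
  let T : Submodule 𝒩.R0 (𝒩.P.B ⧸ (𝒩.ctr V hV.1 * 𝒩.ctr V hV.1)) :=
    Submodule.span 𝒩.R0 (Ideal.Quotient.mk (𝒩.ctr V hV.1 * 𝒩.ctr V hV.1) '' (insert 1 ↑G))
  have hT1 : ∀ r : 𝒩.R0, Ideal.Quotient.mk (𝒩.ctr V hV.1 * 𝒩.ctr V hV.1) (r : 𝒩.P.B) ∈ T := by
    intro r
    have : Ideal.Quotient.mk (𝒩.ctr V hV.1 * 𝒩.ctr V hV.1) (r : 𝒩.P.B) =
        r • Ideal.Quotient.mk (𝒩.ctr V hV.1 * 𝒩.ctr V hV.1) 1 := by
      show _ = Ideal.Quotient.mk (𝒩.ctr V hV.1 * 𝒩.ctr V hV.1) ((r : 𝒩.P.B) * 1)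
      rw [mul_one]
    rw [this]
    exact Submodule.smul_mem _ _ (Submodule.subset_span ⟨1, Set.mem_insert _ _, rfl⟩)
  have hT2 : ∀ y ∈ 𝒩.ctr V hV.1,
      Ideal.Quotient.mk (𝒩.ctr V hV.1 * 𝒩.ctr V hV.1) y ∈ T := by
    intro y hy
    have hy' : y ∈ Submodule.span 𝒩.P.B (G : Set 𝒩.P.B) := by rw [hG]; exact hy
    induction hy' using Submodule.span_induction with
    | mem g hg => exact Submodule.subset_span ⟨g, Set.mem_insert_of_mem _ hg, rfl⟩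
    | zero => rw [map_zero]; exact T.zero_mem
    | add x z hx hz ihx ihz =>
      rw [map_add]
      have hx' : x ∈ 𝒩.ctr V hV.1 := by rw [← hG]; exact hx
      have hz' : z ∈ 𝒩.ctr V hV.1 := by rw [← hG]; exact hz
      exact T.add_mem (ihx hx') (ihz hz')
    | smul a x hx ih =>
      have hx' : x ∈ 𝒩.ctr V hV.1 := by rw [← hG]; exact hx
      obtain ⟨r, hr⟩ := 𝒩.nak (𝒩.ctr V hV.1) a
      have e : a • x = (r : 𝒩.P.B) * x + (a - r) * x := by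
        rw [smul_eq_mul]; ring
      rw [e, map_add]
      refine T.add_mem ?_ ?_
      · have : Ideal.Quotient.mk (𝒩.ctr V hV.1 * 𝒩.ctr V hV.1) ((r : 𝒩.P.B) * x) =
            r • Ideal.Quotient.mk (𝒩.ctr V hV.1 * 𝒩.ctr V hV.1) x := rfl
        rw [this]
        exact T.smul_mem _ (ih hx')
      · have : Ideal.Quotient.mk (𝒩.ctr V hV.1 * 𝒩.ctr V hV.1) ((a - r) * x) = 0 := by
          rw [Ideal.Quotient.eq_zero_iff_mem]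
          exact Ideal.mul_mem_mul hr hx'
        rw [this]
        exact T.zero_mem
  refine ⟨Submodule.fg_def.mpr ⟨Ideal.Quotient.mk (𝒩.ctr V hV.1 * 𝒩.ctr V hV.1) '' (insert 1 ↑G),
    (Set.Finite.image _ (Set.Finite.insert _ G.finite_toSet)), eq_top_iff.mpr ?_⟩⟩
  intro x _
  show x ∈ T
  obtain ⟨f, rfl⟩ := Ideal.Quotient.mk_surjective x
  obtain ⟨r, hr⟩ := 𝒩.nak (𝒩.ctr V hV.1) f
  have e : f = (r : 𝒩.P.B) + (f - r) := by ring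
  rw [e, map_add]
  exact T.add_mem (hT1 r) (hT2 _ hr)

end DlNode

/-! ### distinct valuation rings of the presentation have incomparable centres -/

section Ctr

variable (𝒩 : DlLocal L F)

theorem dln_le_of_ctr_le {V V' : ValuationSubring F} (hV : V ∈ 𝒩.P.vals) (hV' : V' ∈ 𝒩.P.vals)
    (h : 𝒩.ctr V hV ≤ 𝒩.ctr V' hV') : V' ≤ V := by
  intro x hx
  obtain ⟨c, hcB, hc1, hcx⟩ := 𝒩.P.essential V' hV' x hx
  have h1 : (⟨c, hcB⟩ : 𝒩.P.B) ∉ 𝒩.ctr V hV := by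
    intro hc
    have := h hc
    rw [DlLocal.mem_ctr] at this
    rw [hc1] at this
    exact lt_irrefl _ this
  have h2 : V.valuation c = 1 := by
    have hle : V.valuation c ≤ 1 := (V.valuation_le_one_iff _).mpr (𝒩.P.B_le hV hcB)
    exact le_antisymm hle (not_lt.mp (fun hlt => h1 hlt))
  have h3 : V.valuation (c * x) ≤ 1 := (V.valuation_le_one_iff _).mpr (𝒩.P.B_le hV hcx)
  rw [map_mul, h2, one_mul] at h3
  exact (V.valuation_le_one_iff _).mp h3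

/-- a discrete valuation ring is a maximal proper subring of its fraction field -/
theorem dln_eq_of_le {V V' : ValuationSubring F} [IsDiscreteValuationRing V]
    [IsDiscreteValuationRing V'] (h : V' ≤ V) : V = V' := by
  have key : ∀ u : F, u ≠ 0 → dlOrd V' u = 0 → dlOrd V u = 0 := by
    intro u hu0 hu
    have h1 : u ∈ V' := dl_mem_of_ord_nonneg V' (by omega)
    have h2 : u⁻¹ ∈ V' := dl_mem_of_ord_nonneg V' (by rw [dlOrd_inv]; omega)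
    have h3 := dlOrd_nonneg_of_mem V (h h1)
    have h4 := dlOrd_nonneg_of_mem V (h h2)
    rw [dlOrd_inv] at h4
    omega
  obtain ⟨π', hπ'V, hπ'⟩ := dl_exists_ord_eq_one V'
  have hπ'0 : π' ≠ 0 := dln_ne_zero_of_ord_ne V' (by omega)
  -- every `x ≠ 0` has `ord_V x = ord_V' x · ord_V π'`
  have key2 : ∀ x : F, x ≠ 0 → dlOrd V x = dlOrd V' x * dlOrd V π' := by
    intro x hx0
    have hu0 : x * π' ^ (-dlOrd V' x) ≠ 0 := mul_ne_zero hx0 (zpow_ne_zero _ hπ'0)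
    have hu : dlOrd V' (x * π' ^ (-dlOrd V' x)) = 0 := by
      rw [dlOrd_mul V' hx0 (zpow_ne_zero _ hπ'0), dlOrd_zpow, hπ']; ring
    have := key _ hu0 hu
    rw [dlOrd_mul V hx0 (zpow_ne_zero _ hπ'0), dlOrd_zpow] at this
    linarith
  apply le_antisymm _ h
  intro x hx
  by_cases hx0 : x = 0
  · rw [hx0]; exact V'.zero_mem
  by_contra hxV'
  have h1 : dlOrd V' x < 0 := by
    by_contra hcon
    push Not at hcon
    exact hxV' (dl_mem_of_ord_nonneg V' hcon)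
  have h2 := dlOrd_nonneg_of_mem V hx
  have h3 := key2 x hx0
  have h4 := dlOrd_nonneg_of_mem V (h hπ'V)
  have h5 : dlOrd V π' = 0 := by nlinarith
  obtain ⟨π, hπV, hπ⟩ := dl_exists_ord_eq_one V
  have hπ0 : π ≠ 0 := dln_ne_zero_of_ord_ne V (by omega)
  have h6 := key2 π hπ0
  rw [h5, hπ] at h6
  simp at h6

theorem dln_exists_mem_ctr_not_mem {V V' : ValuationSubring F} (hV : V ∈ 𝒩.P.vals)
    (hV' : V' ∈ 𝒩.P.vals) (hne : V ≠ V') : ∃ f : 𝒩.P.B, f ∈ 𝒩.ctr V hV ∧ f ∉ 𝒩.ctr V' hV' := by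
  by_contra hcon
  push Not at hcon
  haveI := 𝒩.P.dvr V hV
  haveI := 𝒩.P.dvr V' hV'
  exact hne (dln_eq_of_le (dln_le_of_ctr_le 𝒩 hV hV' hcon))

end Ctr

/-! ### the minimal polynomial of `t` modulo `𝔭_V` -/

namespace DlNode

variable (𝒩 : DlNode L F) {V : ValuationSubring F} (hV : V ∈ 𝒩.hor)

/-- the image of `t` in `A ⧸ 𝔭_V` -/
def alpha : 𝒩.P.B ⧸ 𝒩.ctr V hV.1 := Ideal.Quotient.mk _ 𝒩.tA

theorem aeval_alpha (Q : Polynomial 𝒩.O) :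
    Polynomial.aeval (𝒩.alpha hV) Q =
      Ideal.Quotient.mk (𝒩.ctr V hV.1) (Polynomial.aeval 𝒩.tA Q) :=
  Polynomial.aeval_algHom_apply (Ideal.Quotient.mkₐ 𝒩.O (𝒩.ctr V hV.1)) 𝒩.tA Q

theorem algebraMap_quot_injective :
    Function.Injective (algebraMap 𝒩.O (𝒩.P.B ⧸ 𝒩.ctr V hV.1)) := by
  rw [injective_iff_map_eq_zero]
  intro c hc
  by_contra hc0
  have h1 : algebraMap 𝒩.O 𝒩.P.B c ∈ 𝒩.ctr V hV.1 := by
    rw [← Ideal.Quotient.eq_zero_iff_mem]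
    exact hc
  rw [DlLocal.mem_ctr, DlLocal.algebraMap_OA_coe] at h1
  have hcL : (c : L) ≠ 0 := fun h => hc0 (Subtype.ext h)
  have h2 := (dln_const 𝒩.toDlLocal hcL).2.2 V hV
  haveI := 𝒩.P.dvr V hV.1
  have h3 : V.valuation (algebraMap L F (c : L)) = 1 :=
    (dl_valuation_eq_one_iff V ((map_ne_zero _).mpr hcL)).mpr h2
  rw [h3] at h1
  exact lt_irrefl _ h1

theorem isIntegral_alpha : IsIntegral 𝒩.O (𝒩.alpha hV) := by
  haveI := 𝒩.finite_quot_ctr hV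
  exact IsIntegral.of_finite 𝒩.O _

/-- the minimal polynomial of `t` modulo `𝔭_V` -/
noncomputable def cN : Polynomial 𝒩.O := minpoly 𝒩.O (𝒩.alpha hV)

theorem cN_monic : (𝒩.cN hV).Monic := minpoly.monic (𝒩.isIntegral_alpha hV)

theorem cN_aeval_mem : Polynomial.aeval 𝒩.tA (𝒩.cN hV) ∈ 𝒩.ctr V hV.1 := by
  rw [← Ideal.Quotient.eq_zero_iff_mem, ← 𝒩.aeval_alpha hV]
  exact minpoly.aeval _ _

theorem cN_dvd {Q : Polynomial 𝒩.O} (hQ : Polynomial.aeval 𝒩.tA Q ∈ 𝒩.ctr V hV.1) :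
    𝒩.cN hV ∣ Q := by
  haveI : Module.IsTorsionFree 𝒩.O (𝒩.P.B ⧸ 𝒩.ctr V hV.1) :=
    Module.isTorsionFree_iff_algebraMap_injective.mpr (𝒩.algebraMap_quot_injective hV)
  refine minpoly.isIntegrallyClosed_dvd (𝒩.isIntegral_alpha hV) ?_
  rw [𝒩.aeval_alpha hV, Ideal.Quotient.eq_zero_iff_mem]
  exact hQ

theorem mem_ctr_hor_iff {V' : ValuationSubring F} (hV' : V' ∈ 𝒩.hor) {f : 𝒩.P.B} :
    f ∈ 𝒩.ctr V' hV'.1 ↔ (f : F) = 0 ∨ 0 < 𝒩.oH V' hV' f := by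
  haveI := 𝒩.P.dvr V' hV'.1
  rw [DlLocal.mem_ctr]
  constructor
  · intro h
    by_cases h0 : (f : F) = 0
    · exact Or.inl h0
    · exact Or.inr ((dl_valuation_lt_one_iff V' h0).mp h)
  · rintro (h | h)
    · rw [h, map_zero]; exact zero_lt_one
    · have h0 : (f : F) ≠ 0 := dln_ne_zero_of_ord_ne V' (by
        have : 0 < dlOrd V' (f : F) := h
        omega)
      exact (dl_valuation_lt_one_iff V' h0).mpr h

theorem tA_not_mem_ctr {V' : ValuationSubring F} (hV' : V' ∈ 𝒩.hor) :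
    𝒩.tA ∉ 𝒩.ctr V' hV'.1 := by
  rw [𝒩.mem_ctr_hor_iff hV']
  rintro (h | h)
  · exact 𝒩.t_ne_zero h
  · have := 𝒩.oH_t hV'
    change 0 < 𝒩.oH V' hV' 𝒩.t at h
    omega

/-- **no other zero**: `N(t)` is a unit at the other horizontal valuation rings -/
theorem cN_not_mem {V' : ValuationSubring F} (hV' : V' ∈ 𝒩.hor) (hne : V' ≠ V) :
    Polynomial.aeval 𝒩.tA (𝒩.cN hV) ∉ 𝒩.ctr V' hV'.1 := by
  intro hmem
  obtain ⟨f, hf, hf'⟩ := dln_exists_mem_ctr_not_mem 𝒩.toDlLocal hV.1 hV'.1 (Ne.symm hne)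
  haveI := 𝒩.finite_quot_inf hV hV'
  obtain ⟨r, hr⟩ := 𝒩.nak (𝒩.ctr V hV.1 ⊓ 𝒩.ctr V' hV'.1) f
  obtain ⟨m, Q, hQ⟩ := 𝒩.R0_poly r.2
  have h1 : 𝒩.tA ^ m * f - Polynomial.aeval 𝒩.tA Q ∈ 𝒩.ctr V hV.1 ⊓ 𝒩.ctr V' hV'.1 := by
    rw [← hQ, ← mul_sub]
    exact Ideal.mul_mem_left _ _ hr
  have h2 : Polynomial.aeval 𝒩.tA Q ∈ 𝒩.ctr V hV.1 := by
    have := (𝒩.ctr V hV.1).sub_mem (Ideal.mul_mem_left _ (𝒩.tA ^ m) hf) h1.1
    rwa [sub_sub_cancel] at this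
  obtain ⟨Q₂, rfl⟩ := 𝒩.cN_dvd hV h2
  have h3 : Polynomial.aeval 𝒩.tA (𝒩.cN hV * Q₂) ∈ 𝒩.ctr V' hV'.1 := by
    rw [map_mul]; exact Ideal.mul_mem_right _ _ hmem
  have h4 : 𝒩.tA ^ m * f ∈ 𝒩.ctr V' hV'.1 := by
    have := (𝒩.ctr V' hV'.1).add_mem h1.2 h3
    rwa [sub_add_cancel] at this
  rcases (dln_ctr_isPrime 𝒩.toDlLocal V' hV'.1).mem_or_mem h4 with h5 | h5
  · exact 𝒩.tA_not_mem_ctr hV' ((dln_ctr_isPrime 𝒩.toDlLocal V' hV'.1).mem_of_pow_mem _ h5)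
  · exact hf' h5

/-- **simple zero**: `N(t)` is a uniformiser of `V` -/
theorem cN_simple : ((Polynomial.aeval 𝒩.tA (𝒩.cN hV) : 𝒩.P.B) : F) ≠ 0 ∧
    𝒩.oH V hV ((Polynomial.aeval 𝒩.tA (𝒩.cN hV) : 𝒩.P.B) : F) = 1 := by
  haveI := 𝒩.P.dvr V hV.1
  by_contra hcon
  have hg2 : ((Polynomial.aeval 𝒩.tA (𝒩.cN hV) : 𝒩.P.B) : F) = 0 ∨
      2 ≤ 𝒩.oH V hV ((Polynomial.aeval 𝒩.tA (𝒩.cN hV) : 𝒩.P.B) : F) := by
    rcases (𝒩.mem_ctr_hor_iff hV).mp (𝒩.cN_aeval_mem hV) with h1 | h1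
    · exact Or.inl h1
    · right
      by_contra h2
      push Not at h2
      apply hcon
      refine ⟨?_, by omega⟩
      intro h0
      rw [h0] at h1
      have : 𝒩.oH V hV (0 : F) = 0 := dlOrd_zero V
      omega
  obtain ⟨h, hhA, hh⟩ := dln_exists_unif 𝒩.toDlLocal V hV.1
  have hh0 : h ≠ 0 := dln_ne_zero_of_ord_ne V (by omega)
  haveI := 𝒩.finite_quot_sq hV
  obtain ⟨r, hr⟩ := 𝒩.nak (𝒩.ctr V hV.1 * 𝒩.ctr V hV.1) ⟨h, hhA⟩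
  obtain ⟨m, Q, hQ⟩ := 𝒩.R0_poly r.2
  have h1 : 𝒩.tA ^ m * ⟨h, hhA⟩ - Polynomial.aeval 𝒩.tA Q ∈
      𝒩.ctr V hV.1 * 𝒩.ctr V hV.1 := by
    rw [← hQ, ← mul_sub]
    exact Ideal.mul_mem_left _ _ hr
  -- elements of `𝔭 * 𝔭` vanish to order `≥ 2`
  have hP2 : ∀ y ∈ 𝒩.ctr V hV.1 * 𝒩.ctr V hV.1, (y : F) = 0 ∨ 2 ≤ 𝒩.oH V hV (y : F) := by
    intro y hy
    refine Submodule.mul_induction_on hy ?_ ?_
    · intro a ha b hb
      rcases (𝒩.mem_ctr_hor_iff hV).mp ha with ha | ha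
      · left; rw [Subring.coe_mul, ha, zero_mul]
      rcases (𝒩.mem_ctr_hor_iff hV).mp hb with hb | hb
      · left; rw [Subring.coe_mul, hb, mul_zero]
      right
      have ha0 : (a : F) ≠ 0 := dln_ne_zero_of_ord_ne V (by
        have : 0 < dlOrd V (a : F) := ha
        omega)
      have hb0 : (b : F) ≠ 0 := dln_ne_zero_of_ord_ne V (by
        have : 0 < dlOrd V (b : F) := hb
        omega)
      rw [Subring.coe_mul, dln_oH_mul 𝒩.toDlLocal hV ha0 hb0]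
      omega
    · intro a b iha ihb
      by_cases h0 : ((a + b : 𝒩.P.B) : F) = 0
      · exact Or.inl h0
      right
      rw [Subring.coe_add] at h0 ⊢
      exact dlOrd_add_ge V h0 (n := 2) iha ihb
  have hhp : (⟨h, hhA⟩ : 𝒩.P.B) ∈ 𝒩.ctr V hV.1 := by
    rw [𝒩.mem_ctr_hor_iff hV]
    right
    show 0 < dlOrd V h
    omega
  have h2 : Polynomial.aeval 𝒩.tA Q ∈ 𝒩.ctr V hV.1 := by
    have := (𝒩.ctr V hV.1).sub_mem (Ideal.mul_mem_left _ (𝒩.tA ^ m) hhp)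
      (Ideal.mul_le_left h1)
    rwa [sub_sub_cancel] at this
  obtain ⟨Q₂, rfl⟩ := 𝒩.cN_dvd hV h2
  -- `t ^ m * h` vanishes to order `≥ 2`: contradiction
  have h3 : ((Polynomial.aeval 𝒩.tA (𝒩.cN hV * Q₂) : 𝒩.P.B) : F) = 0 ∨
      2 ≤ 𝒩.oH V hV ((Polynomial.aeval 𝒩.tA (𝒩.cN hV * Q₂) : 𝒩.P.B) : F) := by
    rw [map_mul, Subring.coe_mul]
    rcases hg2 with hg2 | hg2
    · left; rw [hg2, zero_mul]
    by_cases hq : ((Polynomial.aeval 𝒩.tA Q₂ : 𝒩.P.B) : F) = 0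
    · left; rw [hq, mul_zero]
    right
    have hg0 : ((Polynomial.aeval 𝒩.tA (𝒩.cN hV) : 𝒩.P.B) : F) ≠ 0 :=
      dln_ne_zero_of_ord_ne V (by
        have : 2 ≤ dlOrd V ((Polynomial.aeval 𝒩.tA (𝒩.cN hV) : 𝒩.P.B) : F) := hg2
        omega)
    rw [dln_oH_mul 𝒩.toDlLocal hV hg0 hq]
    have := dln_oH_nonneg 𝒩.toDlLocal (Polynomial.aeval 𝒩.tA Q₂ : 𝒩.P.B).2 hV
    omega
  have h4 : 𝒩.t ^ m * h ≠ 0 := mul_ne_zero (pow_ne_zero _ 𝒩.t_ne_zero) hh0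
  have h5 : 𝒩.oH V hV (𝒩.t ^ m * h) = 1 := by
    rw [dln_oH_mul 𝒩.toDlLocal hV (pow_ne_zero _ 𝒩.t_ne_zero) hh0, dln_oH_pow, 𝒩.oH_t hV]
    show (m : ℤ) * 0 + dlOrd V h = 1
    omega
  have h6 : 𝒩.t ^ m * h = ((𝒩.tA ^ m * ⟨h, hhA⟩ - Polynomial.aeval 𝒩.tA (𝒩.cN hV * Q₂) :
      𝒩.P.B) : F) + ((Polynomial.aeval 𝒩.tA (𝒩.cN hV * Q₂) : 𝒩.P.B) : F) := by
    push_cast
    show 𝒩.t ^ m * h = 𝒩.t ^ m * h - _ + _
    ring
  have h7 := dlOrd_add_ge V (by rw [← h6]; exact h4) (n := 2) (hP2 _ h1) h3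
  rw [← h6] at h7
  have : dlOrd V (𝒩.t ^ m * h) = 1 := h5
  omega

/-- **the coordinate function** `g_V = N_V(t)` of a horizontal valuation ring -/
noncomputable def gV : F := ((Polynomial.aeval 𝒩.tA (𝒩.cN hV) : 𝒩.P.B) : F)

theorem gV_mem : 𝒩.gV hV ∈ 𝒩.A := (Polynomial.aeval 𝒩.tA (𝒩.cN hV) : 𝒩.P.B).2

theorem gV_ne_zero : 𝒩.gV hV ≠ 0 := (𝒩.cN_simple hV).1

theorem oH_gV_self : 𝒩.oH V hV (𝒩.gV hV) = 1 := (𝒩.cN_simple hV).2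

theorem oH_gV_other {V' : ValuationSubring F} (hV' : V' ∈ 𝒩.hor) (hne : V' ≠ V) :
    𝒩.oH V' hV' (𝒩.gV hV) = 0 := by
  have h1 := 𝒩.cN_not_mem hV hV' hne
  rw [𝒩.mem_ctr_hor_iff hV'] at h1
  push Not at h1
  have h2 := dln_oH_nonneg 𝒩.toDlLocal (𝒩.gV_mem hV) hV'
  have h3 : 𝒩.oH V' hV' (𝒩.gV hV) ≤ 0 := h1.2
  omega

/-- `g_V` as the value at `t` of a polynomial with coefficients in `L` -/
theorem gV_eq_aeval :
    𝒩.gV hV = Polynomial.aeval 𝒩.t ((𝒩.cN hV).map 𝒩.O.subtype) := by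
  unfold gV
  rw [Polynomial.aeval_def, Polynomial.aeval_def, Polynomial.eval₂_map]
  have := Polynomial.hom_eval₂ (𝒩.cN hV) (algebraMap 𝒩.O 𝒩.P.B) 𝒩.P.B.subtype 𝒩.tA
  exact this

end DlNode

/-- **the coordinate lemma** (N6), helper2's literal form (without the Eisenstein clause) -/
theorem dln_coord (𝒩 : DlNode L F) (V : ValuationSubring F) (hV : V ∈ 𝒩.hor) :
    ∃ N : Polynomial L, N.Monic ∧ (∀ i, N.coeff i ∈ 𝒩.O) ∧
      (haveI := 𝒩.P.dvr V hV.1; dlOrd V (Polynomial.aeval 𝒩.t N) = 1) ∧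
      ∀ V' ∈ 𝒩.hor, V' ≠ V → V'.valuation (Polynomial.aeval 𝒩.t N) = 1 := by
  refine ⟨(𝒩.cN hV).map 𝒩.O.subtype, (𝒩.cN_monic hV).map _, ?_, ?_, ?_⟩
  · intro i
    rw [Polynomial.coeff_map]
    exact ((𝒩.cN hV).coeff i).2
  · rw [← 𝒩.gV_eq_aeval hV]
    exact 𝒩.oH_gV_self hV
  · intro V' hV' hne
    rw [← 𝒩.gV_eq_aeval hV]
    haveI := 𝒩.P.dvr V' hV'.1
    exact (dl_valuation_eq_one_iff V' (𝒩.gV_ne_zero hV)).mpr (𝒩.oH_gV_other hV hV' hne)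

end Fermat.Agent.Delta
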