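/-
DELTA / NODE-ABS (helper8), part 7: **the conservation law modulo `p` at a node** (CLL) and
**the local `p`-th power representation** (`dln_unit_rep'`).

`𝒩 : DlNode L F`.  With the coordinate functions `g_V` of `Node/Coord.lean` the horizontal part of
a function whose horizontal orders are all divisible by `p` can be stripped off by a `p`-th power:

* `DlNode.gV'`, `DlNode.supp`, `DlNode.hprod` : bookkeeping for finite products of the `g_V`;
* `dln_strip`       : `p ∣ ord_V z` for all horizontal `V` ⇒ `z = H ^ p · z₁`, `z₁` without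
  horizontal part;
* `dln_cll'`        : then `p ∣ ord_W' z − ord_W z − slope z · w`;
* `dln_cll_free`    : the thickness-free form, with a function `D` without horizontal part;
* `dln_unit_rep'`   : if moreover `p ∣ ord_W z` and `p ∣ slope z` then `z = h ^ p · u`, `u ∈ A^×`.
-/
import Fermat.Agent.Lib.Delta.Node.Coord

set_option autoImplicit false
set_option linter.style.haveILetI false
set_option linter.unusedSectionVars false
set_option linter.unusedVariables false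

namespace Fermat.Agent.Delta

open Fermat.Agent.T4

variable {L F : Type*} [Field L] [Field F] [Algebra L F]

namespace DlNode

variable (𝒩 : DlNode L F)

open Classical in
/-- the coordinate function of `V`, total version (`1` if `V` is not horizontal) -/
noncomputable def gV' (V : ValuationSubring F) : F :=
  if hV : V ∈ 𝒩.hor then 𝒩.gV hV else 1

theorem gV'_ne_zero (V : ValuationSubring F) : 𝒩.gV' V ≠ 0 := by
  unfold gV'
  split_ifs with hV
  · exact 𝒩.gV_ne_zero hV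
  · exact one_ne_zero

open Classical in
theorem oH_gV' (V : ValuationSubring F) {V' : ValuationSubring F} (hV' : V' ∈ 𝒩.hor) :
    𝒩.oH V' hV' (𝒩.gV' V) = if V = V' then 1 else 0 := by
  haveI := 𝒩.P.dvr V' hV'.1
  unfold gV'
  by_cases hV : V ∈ 𝒩.hor
  · rw [dif_pos hV]
    by_cases h : V = V'
    · subst h
      rw [if_pos rfl]
      exact 𝒩.oH_gV_self hV
    · rw [if_neg h]
      exact 𝒩.oH_gV_other hV hV' (Ne.symm h)
  · rw [dif_neg hV]
    have h : V ≠ V' := by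
      rintro rfl
      exact hV hV'
    rw [if_neg h]
    exact dlOrd_one V'

/-- the horizontal order, total version -/
noncomputable def oHt (V : ValuationSubring F) (z : F) : ℤ := by
  classical exact if hV : V ∈ 𝒩.hor then 𝒩.oH V hV z else 0

theorem oHt_eq {V : ValuationSubring F} (hV : V ∈ 𝒩.hor) (z : F) : 𝒩.oHt V z = 𝒩.oH V hV z := by
  unfold oHt
  rw [dif_pos hV]

theorem finite_supp {z : F} (hz : z ≠ 0) : {V ∈ 𝒩.P.vals | z ∉ V ∨ z⁻¹ ∉ V}.Finite := by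
  have h1 := 𝒩.P.finite_char z hz
  have h2 := 𝒩.P.finite_char z⁻¹ (inv_ne_zero hz)
  refine (h1.union h2).subset ?_
  rintro V ⟨hV, h | h⟩
  · exact Or.inl ⟨hV, h⟩
  · exact Or.inr ⟨hV, h⟩

open Classical in
/-- the (finite) support of a function among the valuation rings of the presentation -/
noncomputable def supp (z : F) : Finset (ValuationSubring F) :=
  if hz : z ≠ 0 then (𝒩.finite_supp hz).toFinset else ∅

theorem oH_eq_zero_of_not_mem_supp {z : F} (hz : z ≠ 0) {V : ValuationSubring F}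
    (hV : V ∈ 𝒩.hor) (h : V ∉ 𝒩.supp z) : 𝒩.oH V hV z = 0 := by
  haveI := 𝒩.P.dvr V hV.1
  unfold supp at h
  rw [dif_pos hz, Set.Finite.mem_toFinset] at h
  have h1 : z ∈ V := by
    by_contra hc
    exact h ⟨hV.1, Or.inl hc⟩
  have h2 : z⁻¹ ∈ V := by
    by_contra hc
    exact h ⟨hV.1, Or.inr hc⟩
  have h3 := dlOrd_nonneg_of_mem V h1
  have h4 := dlOrd_nonneg_of_mem V h2
  rw [dlOrd_inv] at h4
  show dlOrd V z = 0
  omega

/-- the product of the `g_V ^ e V` over the support of `z` -/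
noncomputable def hprod (z : F) (e : ValuationSubring F → ℤ) : F :=
  ∏ V ∈ 𝒩.supp z, 𝒩.gV' V ^ e V

theorem hprod_ne_zero (z : F) (e : ValuationSubring F → ℤ) : 𝒩.hprod z e ≠ 0 :=
  Finset.prod_ne_zero_iff.mpr fun V _ => zpow_ne_zero _ (𝒩.gV'_ne_zero V)

open Classical in
theorem oH_hprod (z : F) (e : ValuationSubring F → ℤ) {V' : ValuationSubring F}
    (hV' : V' ∈ 𝒩.hor) :
    𝒩.oH V' hV' (𝒩.hprod z e) = if V' ∈ 𝒩.supp z then e V' else 0 := by
  haveI := 𝒩.P.dvr V' hV'.1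
  unfold hprod
  show dlOrd V' _ = _
  rw [dlOrd_prod V' _ _ (fun V _ => zpow_ne_zero _ (𝒩.gV'_ne_zero V))]
  have h1 : ∀ V ∈ 𝒩.supp z, dlOrd V' (𝒩.gV' V ^ e V) = if V = V' then e V' else 0 := by
    intro V _
    rw [dlOrd_zpow]
    have := 𝒩.oH_gV' V hV'
    change dlOrd V' (𝒩.gV' V) = _ at this
    rw [this]
    by_cases h : V = V'
    · subst h; simp
    · simp [h]
  rw [Finset.sum_congr rfl h1, Finset.sum_ite_eq' (𝒩.supp z) V' (fun _ => e V')]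

end DlNode

section Cll

variable (𝒩 : DlNode L F)

/-- **stripping the horizontal part**: if all horizontal orders of `z` are divisible by `p`, then
`z / H ^ p` has no horizontal part through the node, for a suitable `H` -/
theorem dln_strip (p : ℤ) {z : F} (hz : z ≠ 0)
    (hp : ∀ (V : ValuationSubring F) (hV : V ∈ 𝒩.hor), p ∣ 𝒩.oH V hV z) :
    ∃ H : F, H ≠ 0 ∧ ∀ (V : ValuationSubring F) (hV : V ∈ 𝒩.hor),
      𝒩.oH V hV z = p * 𝒩.oH V hV H := by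
  classical
  by_cases hp0 : p = 0
  · subst hp0
    refine ⟨1, one_ne_zero, fun V hV => ?_⟩
    have := hp V hV
    rw [zero_dvd_iff] at this
    rw [this]; ring
  refine ⟨𝒩.hprod z (fun V => 𝒩.oHt V z / p), 𝒩.hprod_ne_zero _ _, fun V hV => ?_⟩
  rw [𝒩.oH_hprod z _ hV]
  by_cases h : V ∈ 𝒩.supp z
  · rw [if_pos h, 𝒩.oHt_eq hV]
    exact (Int.mul_ediv_cancel' (hp V hV)).symm
  · rw [if_neg h, 𝒩.oH_eq_zero_of_not_mem_supp hz hV h]; ring

/-- **the conservation law modulo `p` at a node** -/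
theorem dln_cll' (p : ℤ) {z : F} (hz : z ≠ 0)
    (hp : ∀ (V : ValuationSubring F) (hV : V ∈ 𝒩.hor), p ∣ 𝒩.oH V hV z) :
    p ∣ 𝒩.oW' z - 𝒩.oW z - 𝒩.slope z * 𝒩.w := by
  obtain ⟨H, hH0, hH⟩ := dln_strip 𝒩 p hz hp
  have hHp : H ^ p ≠ 0 := zpow_ne_zero _ hH0
  have h1 : ∀ (V : ValuationSubring F) (hV : V ∈ 𝒩.hor), 𝒩.oH V hV (z / H ^ p) = 0 := by
    intro V hV
    rw [dln_oH_div 𝒩.toDlLocal hV hz hHp, dln_oH_zpow, hH V hV]; ring
  have h2 := dln_slope_law 𝒩 (div_ne_zero hz hHp) h1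
  rw [dln_oW'_div 𝒩.toDlLocal hz hHp, dln_oW_div 𝒩.toDlLocal hz hHp, 𝒩.slope_div hz hHp,
    dln_oW'_zpow, dln_oW_zpow, 𝒩.slope_zpow] at h2
  refine ⟨𝒩.oW' H - 𝒩.oW H - 𝒩.slope H * 𝒩.w, ?_⟩
  linear_combination h2

/-- **the thickness-free conservation law**: with a function `D` without horizontal part -/
theorem dln_cll_free (p : ℤ) {z D : F} (hz : z ≠ 0)
    (hp : ∀ (V : ValuationSubring F) (hV : V ∈ 𝒩.hor), p ∣ 𝒩.oH V hV z) (hD : D ≠ 0)
    (hDH : ∀ (V : ValuationSubring F) (hV : V ∈ 𝒩.hor), 𝒩.oH V hV D = 0) :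
    p ∣ 𝒩.slope z * (𝒩.oW' D - 𝒩.oW D) - 𝒩.slope D * (𝒩.oW' z - 𝒩.oW z) := by
  obtain ⟨k, hk⟩ := dln_cll' 𝒩 p hz hp
  have h := dln_slope_law 𝒩 hD hDH
  refine ⟨-(𝒩.slope D * k), ?_⟩
  rw [h]
  linear_combination (-𝒩.slope D) * hk

/-- **the local `p`-th power representation** -/
theorem dln_unit_rep' (p : ℕ) {z : F} (hz : z ≠ 0)
    (hp : ∀ (V : ValuationSubring F) (hV : V ∈ 𝒩.hor), (p : ℤ) ∣ 𝒩.oH V hV z)
    (hW : (p : ℤ) ∣ 𝒩.oW z) (hs : (p : ℤ) ∣ 𝒩.slope z) :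
    ∃ h u : F, h ≠ 0 ∧ 𝒩.IsU u ∧ z = h ^ p * u := by
  obtain ⟨H, hH0, hH⟩ := dln_strip 𝒩 p hz hp
  have hHp : H ^ p ≠ 0 := pow_ne_zero _ hH0
  have hπ := dln_pi_ne_zero 𝒩.toDlLocal
  have ht := 𝒩.t_ne_zero
  -- `z₁ = z / H ^ p`
  obtain ⟨a, ha⟩ : (p : ℤ) ∣ 𝒩.oW (z / H ^ p) := by
    rw [dln_oW_div 𝒩.toDlLocal hz hHp, dln_oW_pow]
    exact dvd_sub hW (dvd_mul_right _ _)
  obtain ⟨m, hm⟩ : (p : ℤ) ∣ 𝒩.slope (z / H ^ p) := by
    rw [𝒩.slope_div hz hHp, 𝒩.slope_pow]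
    exact dvd_sub hs (dvd_mul_right _ _)
  have hK0 : 𝒩.pi ^ a * 𝒩.t ^ m ≠ 0 := mul_ne_zero (zpow_ne_zero _ hπ) (zpow_ne_zero _ ht)
  have hKp : (𝒩.pi ^ a * 𝒩.t ^ m) ^ p ≠ 0 := pow_ne_zero _ hK0
  have hz1 : z / H ^ p ≠ 0 := div_ne_zero hz hHp
  refine ⟨H * (𝒩.pi ^ a * 𝒩.t ^ m), z / H ^ p / (𝒩.pi ^ a * 𝒩.t ^ m) ^ p,
    mul_ne_zero hH0 hK0, ?_, ?_⟩
  · refine dln_unit_slope 𝒩 (div_ne_zero hz1 hKp) ?_ ?_ ?_
    · intro V hV
      rw [dln_oH_div 𝒩.toDlLocal hV hz1 hKp, dln_oH_div 𝒩.toDlLocal hV hz hHp, dln_oH_pow,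
        dln_oH_pow, dln_oH_mul 𝒩.toDlLocal hV (zpow_ne_zero _ hπ) (zpow_ne_zero _ ht),
        dln_oH_zpow, dln_oH_zpow, dln_oH_pi, 𝒩.oH_t hV, hH V hV]
      ring
    · rw [dln_oW_div 𝒩.toDlLocal hz1 hKp, ha, dln_oW_pow,
        dln_oW_mul 𝒩.toDlLocal (zpow_ne_zero _ hπ) (zpow_ne_zero _ ht), dln_oW_zpow,
        dln_oW_zpow, dln_oW_pi, 𝒩.oW_t]
      ring
    · rw [𝒩.slope_div hz1 hKp, hm, 𝒩.slope_pow,
        𝒩.slope_mul (zpow_ne_zero _ hπ) (zpow_ne_zero _ ht), 𝒩.slope_zpow, 𝒩.slope_zpow,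
        𝒩.slope_pi, 𝒩.slope_t]
      ring
  · rw [mul_pow]
    field_simp

end Cll

end Fermat.Agent.Delta
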