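/-
DELTA / NODE-ABS (helper8), part 8: **the exports in helper2's literal shapes** (finding #126 (B)),
for a node in normal form `𝒩 : DlNode L F`.  Everything is stated with `dlOrd`, `V.valuation` and
`𝒩.slope` only.

* `dln_slope_exists`     : the defining property of `𝒩.slope`;
* `dln_slope_unique`     : uniqueness of `(ord_W z, slope z)`;
* `dln_unit_lit`         : no horizontal part, `ord_W z = 0`, `slope z = 0` ⇒ `z ∈ A^×`;
* `dln_slope_law_lit`    : no horizontal part ⇒ `ord_W' z − ord_W z = slope z · w` (EXACT);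
* `dln_cll`              : the conservation law modulo `p`;
* `dln_cll_free_lit`     : its thickness-free form;
* `dln_unit_rep`         : the local `p`-th power representation (= C-SHAPE at one node).
(`dln_coord` is in `Node/Coord.lean`; the slope calculus `DlNode.slope_mul`, `slope_inv`,
`slope_zpow`, `slope_t`, `slope_t'`, `slope_pi`, `slope_isU`, `slope_const` in `Node/Slope.lean`.)
-/
import Fermat.Agent.Lib.Delta.Node.Cll

set_option autoImplicit false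
set_option linter.style.haveILetI false
set_option linter.unusedSectionVars false
set_option linter.unusedVariables false

namespace Fermat.Agent.Delta

open Fermat.Agent.T4

variable {L F : Type*} [Field L] [Field F] [Algebra L F] (𝒩 : DlNode L F)

/-- "no horizontal part" in terms of valuations -/
theorem dln_noHor_iff {z : F} (hz : z ≠ 0) :
    (∀ V ∈ 𝒩.hor, V.valuation z = 1) ↔
      ∀ (V : ValuationSubring F) (hV : V ∈ 𝒩.hor), 𝒩.oH V hV z = 0 := by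
  constructor
  · intro h V hV
    haveI := 𝒩.P.dvr V hV.1
    exact (dl_valuation_eq_one_iff V hz).mp (h V hV)
  · intro h V hV
    haveI := 𝒩.P.dvr V hV.1
    exact (dl_valuation_eq_one_iff V hz).mpr (h V hV)

/-- the defining property of the slope -/
theorem dln_slope_exists {z : F} (hz : z ≠ 0) :
    ∃ u : F, u ∈ 𝒩.A ∧ u⁻¹ ∈ 𝒩.A ∧ u ≠ 0 ∧
      𝒩.W.valuation (z / (algebraMap L F 𝒩.ϖ ^ (dlOrd 𝒩.W z) * 𝒩.t ^ (𝒩.slope z)) - u) < 1 := by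
  obtain ⟨u, hu, h⟩ := 𝒩.slope_spec' hz
  exact ⟨u, hu.1, hu.2.1, hu.2.2, (dln_congW_iff_val 𝒩.toDlLocal).mp h⟩

/-- uniqueness of `(ord_W z, slope z)` -/
theorem dln_slope_unique {z : F} (hz : z ≠ 0) {n m : ℤ} {u : F} (hu : u ∈ 𝒩.A)
    (hu' : u⁻¹ ∈ 𝒩.A) (hu0 : u ≠ 0)
    (h : 𝒩.W.valuation (z / (algebraMap L F 𝒩.ϖ ^ n * 𝒩.t ^ m) - u) < 1) :
    n = dlOrd 𝒩.W z ∧ m = 𝒩.slope z :=
  𝒩.slope_eq_of_val hz ⟨hu, hu', hu0⟩ h

/-- **the unit lemma** -/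
theorem dln_unit_lit {z : F} (hz : z ≠ 0) (hH : ∀ V ∈ 𝒩.hor, V.valuation z = 1)
    (hW : dlOrd 𝒩.W z = 0) (hs : 𝒩.slope z = 0) : z ∈ 𝒩.A ∧ z⁻¹ ∈ 𝒩.A := by
  have h := dln_unit_slope 𝒩 hz ((dln_noHor_iff 𝒩 hz).mp hH) hW hs
  exact ⟨h.1, h.2.1⟩

/-- **the slope law** (exact) -/
theorem dln_slope_law_lit {z : F} (hz : z ≠ 0) (hH : ∀ V ∈ 𝒩.hor, V.valuation z = 1) :
    dlOrd 𝒩.W' z - dlOrd 𝒩.W z = 𝒩.slope z * 𝒩.w :=
  dln_slope_law 𝒩 hz ((dln_noHor_iff 𝒩 hz).mp hH)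

/-- **the conservation law modulo `p`** -/
theorem dln_cll (p : ℕ) {z : F} (hz : z ≠ 0)
    (hp : ∀ (V : ValuationSubring F) (hV : V ∈ 𝒩.hor),
      (p : ℤ) ∣ (haveI := 𝒩.P.dvr V hV.1; dlOrd V z)) :
    (p : ℤ) ∣ dlOrd 𝒩.W' z - dlOrd 𝒩.W z - 𝒩.slope z * 𝒩.w :=
  dln_cll' 𝒩 p hz hp

/-- **the thickness-free conservation law** -/
theorem dln_cll_free_lit (p : ℕ) {z D : F} (hz : z ≠ 0)
    (hp : ∀ (V : ValuationSubring F) (hV : V ∈ 𝒩.hor),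
      (p : ℤ) ∣ (haveI := 𝒩.P.dvr V hV.1; dlOrd V z))
    (hD : D ≠ 0) (hDH : ∀ V ∈ 𝒩.hor, V.valuation D = 1) :
    (p : ℤ) ∣ 𝒩.slope z * (dlOrd 𝒩.W' D - dlOrd 𝒩.W D) -
      𝒩.slope D * (dlOrd 𝒩.W' z - dlOrd 𝒩.W z) :=
  dln_cll_free 𝒩 p hz hp hD ((dln_noHor_iff 𝒩 hD).mp hDH)

/-- **the local `p`-th power representation** -/
theorem dln_unit_rep (p : ℕ) {z : F} (hz : z ≠ 0)
    (hp : ∀ (V : ValuationSubring F) (hV : V ∈ 𝒩.hor),
      (p : ℤ) ∣ (haveI := 𝒩.P.dvr V hV.1; dlOrd V z))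
    (hW : (p : ℤ) ∣ dlOrd 𝒩.W z) (hs : (p : ℤ) ∣ 𝒩.slope z) :
    ∃ h z₀ : F, h ≠ 0 ∧ z₀ ∈ 𝒩.A ∧ z₀⁻¹ ∈ 𝒩.A ∧ z = h ^ p * z₀ := by
  obtain ⟨h, u, hh, hu, e⟩ := dln_unit_rep' 𝒩 p hz hp hW hs
  exact ⟨h, u, hh, hu.1, hu.2.1, e⟩

end Fermat.Agent.Delta
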