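/-
DELTA / NODE-ABS (helper8), part 10: **the exports for a crossing** `𝒞 : DlCross L F`
(instance-facing): everything is expressed with the data of `𝒞` and the slope
`𝒞.toNode.slope` of its normal form (`Node/Normal.lean`).

* `DlNode.quot_dvr`        : `A ⧸ 𝔭_W` is a principal ideal ring whose maximal ideal is generated by
  the image of `t` (this characterises the slope intrinsically: `slope z` is the order of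
  `res_W (z / ϖ ^ ord_W z)` at the point of the branch `W`);
* `DlNode.slope_eq_of_unif`, `dlc_slope_eq` : the slope may be computed with ANY uniformiser of the
  branch;
* `DlCross.slope`, `DlCross.thick`;
* `dlc_unit`, `dlc_slope_law`, `dlc_thick` (`ord_W' D = slope D · w`), `dlc_cll`, `dlc_cll_free`,
  `dlc_unit_rep`, `dlc_coord`.
-/
import Fermat.Agent.Lib.Delta.Node.Export
import Fermat.Agent.Lib.Delta.Node.Normal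

set_option autoImplicit false
set_option linter.style.haveILetI false
set_option linter.unusedSectionVars false
set_option linter.unusedVariables false

namespace Fermat.Agent.Delta

open Fermat.Agent.T4

variable {L F : Type*} [Field L] [Field F] [Algebra L F]

/-- `A ⧸ 𝔭_W` is a discrete valuation ring with uniformiser the image of `t` -/
theorem DlNode.quot_dvr (𝒩 : DlNode L F) :
    IsPrincipalIdealRing (𝒩.P.B ⧸ 𝒩.ctr 𝒩.W 𝒩.hW) ∧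
      IsLocalRing.maximalIdeal (𝒩.P.B ⧸ 𝒩.ctr 𝒩.W 𝒩.hW) =
        Ideal.span {Ideal.Quotient.mk (𝒩.ctr 𝒩.W 𝒩.hW) ⟨𝒩.t, 𝒩.ht⟩} := by
  have htu : ¬ IsUnit (⟨𝒩.t, 𝒩.ht⟩ : 𝒩.P.B) := fun h =>
    𝒩.par.t_not_isU ((dln_isU_iff_isUnit 𝒩.toDlLocal ⟨𝒩.t, 𝒩.ht⟩).mpr h)
  have ht0 : (⟨𝒩.t, 𝒩.ht⟩ : 𝒩.P.B) ∉ 𝒩.ctr 𝒩.W 𝒩.hW := by
    rw [dln_mem_ctrW]
    rintro (h | h)
    · exact 𝒩.t_ne_zero h
    · have := 𝒩.oW_t
      change 0 < 𝒩.oW 𝒩.t at h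
      omega
  refine dln_quot_dvr_of_gen 𝒩.toDlLocal 𝒩.W 𝒩.hW ⟨𝒩.t, 𝒩.ht⟩ htu ht0 ?_
  intro f hf
  have hfu : ¬ 𝒩.IsU (f : F) := fun hu => hf ((dln_isU_iff_isUnit 𝒩.toDlLocal f).mp hu)
  obtain ⟨a, b, c, ha, hb, hc, e⟩ := 𝒩.max' (f : F) f.2 hfu
  refine ⟨⟨a, ha⟩, ?_⟩
  rw [dln_mem_ctrW]
  have e' : ((f - ⟨a, ha⟩ * ⟨𝒩.t, 𝒩.ht⟩ : 𝒩.P.B) : F) = b * 𝒩.t' + c * 𝒩.pi := by
    show (f : F) - a * 𝒩.t = _
    rw [e]; ring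
  rw [e']
  by_cases h0 : b * 𝒩.t' + c * 𝒩.pi = 0
  · exact Or.inl h0
  right
  refine dlOrd_add_ge 𝒩.W h0 (n := 1) ?_ ?_
  · by_cases hb0 : b = 0
    · left; rw [hb0, zero_mul]
    right
    have := dln_oW_mul 𝒩.toDlLocal hb0 𝒩.t'_ne_zero
    change dlOrd 𝒩.W (b * 𝒩.t') = _ at this
    rw [this, 𝒩.oW_t']
    have h1 := dln_oW_nonneg 𝒩.toDlLocal hb
    have h2 := 𝒩.w_pos
    omega
  · by_cases hc0 : c = 0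
    · left; rw [hc0, zero_mul]
    right
    have := dln_oW_mul 𝒩.toDlLocal hc0 (dln_pi_ne_zero 𝒩.toDlLocal)
    change dlOrd 𝒩.W (c * 𝒩.pi) = _ at this
    rw [this, dln_oW_pi]
    have h1 := dln_oW_nonneg 𝒩.toDlLocal hc
    omega

/-- integer powers of congruences between units of `W` -/
theorem DlLocal.CongW.zpow (𝒩 : DlLocal L F) {f g : F} (h : 𝒩.CongW f g) (hg0 : g ≠ 0)
    (hg : 𝒩.oW g = 0) (n : ℤ) : 𝒩.CongW (f ^ n) (g ^ n) := by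
  obtain ⟨hf0, hf⟩ := h.oW_eq_zero 𝒩 hg0 hg
  rcases n with n | n
  · simp only [Int.ofNat_eq_natCast, zpow_natCast]
    exact h.pow 𝒩 (Or.inr (by rw [hf])) (Or.inr (by rw [hg])) n
  · rw [zpow_negSucc, zpow_negSucc]
    refine DlLocal.CongW.inv 𝒩 (h.pow 𝒩 (Or.inr (by rw [hf])) (Or.inr (by rw [hg])) (n + 1))
      (pow_ne_zero _ hg0) ?_
    rw [dln_oW_pow, hg]; ring

/-- **the slope does not depend on the choice of the uniformiser of the branch**: if the image of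
`τ ∈ A` generates the maximal ideal of `A ⧸ 𝔭_W` and `z / ϖ ^ n ≡ τ ^ m · u` modulo `𝔪_W` with `u` a
unit of `A`, then `slope z = m` -/
theorem DlNode.slope_eq_of_unif (𝒩 : DlNode L F) (τ : F) (hτA : τ ∈ 𝒩.A)
    (hτ : IsLocalRing.maximalIdeal (𝒩.P.B ⧸ 𝒩.ctr 𝒩.W 𝒩.hW) =
      Ideal.span {Ideal.Quotient.mk (𝒩.ctr 𝒩.W 𝒩.hW) ⟨τ, hτA⟩})
    {z : F} (hz : z ≠ 0) {m : ℤ} {u : F} (hu : 𝒩.IsU u)
    (h : 𝒩.CongW (z / 𝒩.pi ^ (𝒩.oW z)) (τ ^ m * u)) : 𝒩.slope z = m := by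
  obtain ⟨-, hmax⟩ := 𝒩.quot_dvr
  have hass : Associated (Ideal.Quotient.mk (𝒩.ctr 𝒩.W 𝒩.hW) ⟨τ, hτA⟩)
      (Ideal.Quotient.mk (𝒩.ctr 𝒩.W 𝒩.hW) ⟨𝒩.t, 𝒩.ht⟩) := by
    rw [← Ideal.span_singleton_eq_span_singleton, ← hτ, ← hmax]
  obtain ⟨vb, hvb⟩ := hass
  obtain ⟨v, hv⟩ := Ideal.Quotient.mk_surjective (vb : 𝒩.P.B ⧸ 𝒩.ctr 𝒩.W 𝒩.hW)
  have hvu : IsUnit v := by
    apply isUnit_of_map_unit (Ideal.Quotient.mk (𝒩.ctr 𝒩.W 𝒩.hW))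
    rw [hv]
    exact vb.isUnit
  have hvU : 𝒩.IsU (v : F) := (dln_isU_iff_isUnit 𝒩.toDlLocal v).mpr hvu
  have hmem : (⟨τ, hτA⟩ * v - ⟨𝒩.t, 𝒩.ht⟩ : 𝒩.P.B) ∈ 𝒩.ctr 𝒩.W 𝒩.hW := by
    rw [← Ideal.Quotient.eq_zero_iff_mem, map_sub, map_mul, hv, hvb, sub_self]
  rw [dln_mem_ctrW] at hmem
  have hc : 𝒩.CongW (τ * (v : F)) 𝒩.t := by
    rcases hmem with h0 | h0
    · left
      have : τ * (v : F) - 𝒩.t = 0 := h0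
      exact sub_eq_zero.mp this
    · right
      exact h0
  -- `τ ≡ t · v⁻¹`
  have hc2 := hc.mul_left 𝒩.toDlLocal (a := (v : F)⁻¹)
    (Or.inr (by rw [(hvU.inv 𝒩.toDlLocal).oW]))
  have e1 : (v : F)⁻¹ * (τ * (v : F)) = τ := by
    have := hvU.2.2
    field_simp
  rw [e1] at hc2
  have ht0 : (v : F)⁻¹ * 𝒩.t ≠ 0 := mul_ne_zero (inv_ne_zero hvU.2.2) 𝒩.t_ne_zero
  have htW : 𝒩.oW ((v : F)⁻¹ * 𝒩.t) = 0 := by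
    rw [dln_oW_mul 𝒩.toDlLocal (inv_ne_zero hvU.2.2) 𝒩.t_ne_zero,
      (hvU.inv 𝒩.toDlLocal).oW, 𝒩.oW_t]
    ring
  have hc3 := hc2.zpow 𝒩.toDlLocal ht0 htW m
  have hc4 := hc3.mul_left 𝒩.toDlLocal (a := u) (Or.inr (by rw [hu.oW]))
  rw [mul_comm u, mul_comm u] at hc4
  have e2 : ((v : F)⁻¹ * 𝒩.t) ^ m * u = 𝒩.t ^ m * ((v : F)⁻¹ ^ m * u) := by
    rw [mul_zpow]; ring
  rw [e2] at hc4
  exact 𝒩.slope_eq hz (((hvU.inv 𝒩.toDlLocal).zpow 𝒩.toDlLocal m).mul 𝒩.toDlLocal hu)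
    (h.trans 𝒩.toDlLocal hc4)

/-! ### transport along `𝒩.toDlLocal = 𝒩'` -/

section Transport

variable (𝒩 : DlNode L F) (𝒩' : DlLocal L F) (h : 𝒩.toDlLocal = 𝒩')

include h

theorem dlc_aux_unit {z : F} (hz : z ≠ 0)
    (hH : ∀ (V : ValuationSubring F) (hV : V ∈ 𝒩'.hor), 𝒩'.oH V hV z = 0)
    (hW : 𝒩'.oW z = 0) (hs : 𝒩.slope z = 0) : 𝒩'.IsU z := by
  subst h; exact dln_unit_slope 𝒩 hz hH hW hs

theorem dlc_aux_slope_law {z : F} (hz : z ≠ 0)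
    (hH : ∀ (V : ValuationSubring F) (hV : V ∈ 𝒩'.hor), 𝒩'.oH V hV z = 0) :
    𝒩'.oW' z - 𝒩'.oW z = 𝒩.slope z * 𝒩.w := by
  subst h; exact dln_slope_law 𝒩 hz hH

theorem dlc_aux_cll (p : ℤ) {z : F} (hz : z ≠ 0)
    (hp : ∀ (V : ValuationSubring F) (hV : V ∈ 𝒩'.hor), p ∣ 𝒩'.oH V hV z) :
    p ∣ 𝒩'.oW' z - 𝒩'.oW z - 𝒩.slope z * 𝒩.w := by
  subst h; exact dln_cll' 𝒩 p hz hp

theorem dlc_aux_cll_free (p : ℤ) {z D : F} (hz : z ≠ 0)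
    (hp : ∀ (V : ValuationSubring F) (hV : V ∈ 𝒩'.hor), p ∣ 𝒩'.oH V hV z) (hD : D ≠ 0)
    (hDH : ∀ (V : ValuationSubring F) (hV : V ∈ 𝒩'.hor), 𝒩'.oH V hV D = 0) :
    p ∣ 𝒩.slope z * (𝒩'.oW' D - 𝒩'.oW D) - 𝒩.slope D * (𝒩'.oW' z - 𝒩'.oW z) := by
  subst h; exact dln_cll_free 𝒩 p hz hp hD hDH

theorem dlc_aux_unit_rep (p : ℕ) {z : F} (hz : z ≠ 0)
    (hp : ∀ (V : ValuationSubring F) (hV : V ∈ 𝒩'.hor), (p : ℤ) ∣ 𝒩'.oH V hV z)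
    (hW : (p : ℤ) ∣ 𝒩'.oW z) (hs : (p : ℤ) ∣ 𝒩.slope z) :
    ∃ g u : F, g ≠ 0 ∧ 𝒩'.IsU u ∧ z = g ^ p * u := by
  subst h; exact dln_unit_rep' 𝒩 p hz hp hW hs

theorem dlc_aux_isU {u : F} (hu : 𝒩'.IsU u) : 𝒩.slope u = 0 := by
  subst h; exact 𝒩.slope_isU hu

theorem dlc_aux_pi : 𝒩.slope 𝒩'.pi = 0 := by
  subst h; exact 𝒩.slope_pi

theorem dlc_aux_slope_eq (τ : F) (hτA : τ ∈ 𝒩'.A)
    (hτ : IsLocalRing.maximalIdeal (𝒩'.P.B ⧸ 𝒩'.ctr 𝒩'.W 𝒩'.hW) =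
      Ideal.span {Ideal.Quotient.mk (𝒩'.ctr 𝒩'.W 𝒩'.hW) ⟨τ, hτA⟩})
    {z : F} (hz : z ≠ 0) {m : ℤ} {u : F} (hu : 𝒩'.IsU u)
    (hc : 𝒩'.CongW (z / 𝒩'.pi ^ (𝒩'.oW z)) (τ ^ m * u)) : 𝒩.slope z = m := by
  subst h; exact 𝒩.slope_eq_of_unif τ hτA hτ hz hu hc

theorem dlc_aux_coord (V : ValuationSubring F) (hV : V ∈ 𝒩'.hor) :
    ∃ g : F, g ∈ 𝒩'.A ∧ g ≠ 0 ∧ 𝒩'.oH V hV g = 1 ∧
      ∀ (V' : ValuationSubring F) (hV' : V' ∈ 𝒩'.hor), V' ≠ V → 𝒩'.oH V' hV' g = 0 := by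
  subst h
  exact ⟨𝒩.gV hV, 𝒩.gV_mem hV, 𝒩.gV_ne_zero hV, 𝒩.oH_gV_self hV,
    fun V' hV' hne => 𝒩.oH_gV_other hV hV' hne⟩

end Transport

/-! ### the exports for a crossing -/

namespace DlCross

variable (𝒞 : DlCross L F)

/-- the slope at a crossing (with respect to the branch `W`) -/
noncomputable def slope (z : F) : ℤ := 𝒞.toNode.slope z

/-- the thickness of a crossing -/
noncomputable def thick : ℕ := 𝒞.toNode.w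

theorem thick_pos : 0 < 𝒞.thick := 𝒞.toNode.hw

theorem slope_mul {z z' : F} (hz : z ≠ 0) (hz' : z' ≠ 0) :
    𝒞.slope (z * z') = 𝒞.slope z + 𝒞.slope z' := 𝒞.toNode.slope_mul hz hz'

theorem slope_inv (z : F) : 𝒞.slope z⁻¹ = -𝒞.slope z := 𝒞.toNode.slope_inv z

theorem slope_div {z z' : F} (hz : z ≠ 0) (hz' : z' ≠ 0) :
    𝒞.slope (z / z') = 𝒞.slope z - 𝒞.slope z' := 𝒞.toNode.slope_div hz hz'

theorem slope_pow (z : F) (n : ℕ) : 𝒞.slope (z ^ n) = n * 𝒞.slope z := 𝒞.toNode.slope_pow z n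

theorem slope_zpow (z : F) (n : ℤ) : 𝒞.slope (z ^ n) = n * 𝒞.slope z := 𝒞.toNode.slope_zpow z n

theorem slope_one : 𝒞.slope 1 = 0 := 𝒞.toNode.slope_one

theorem slope_isU {u : F} (hu : 𝒞.IsU u) : 𝒞.slope u = 0 :=
  dlc_aux_isU 𝒞.toNode 𝒞.toDlLocal 𝒞.toNode_toDlLocal hu

theorem slope_pi : 𝒞.slope 𝒞.pi = 0 := dlc_aux_pi 𝒞.toNode 𝒞.toDlLocal 𝒞.toNode_toDlLocal

theorem slope_const {c : L} (hc : c ≠ 0) : 𝒞.slope (algebraMap L F c) = 0 :=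
  𝒞.toNode.slope_const hc

end DlCross

section CrossExports

variable (𝒞 : DlCross L F)

/-- **the intrinsic characterisation of the slope at a crossing**: for ANY `τ ∈ A` whose image
generates the maximal ideal of the branch `A ⧸ 𝔭_W`: if `z / ϖ ^ (ord_W z) ≡ τ ^ m · u` modulo `𝔪_W`
with `u` a unit of `A`, then `slope z = m` -/
theorem dlc_slope_eq (τ : F) (hτA : τ ∈ 𝒞.A)
    (hτ : IsLocalRing.maximalIdeal (𝒞.P.B ⧸ 𝒞.ctr 𝒞.W 𝒞.hW) =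
      Ideal.span {Ideal.Quotient.mk (𝒞.ctr 𝒞.W 𝒞.hW) ⟨τ, hτA⟩})
    {z : F} (hz : z ≠ 0) {m : ℤ} {u : F} (hu : 𝒞.IsU u)
    (hc : 𝒞.CongW (z / 𝒞.pi ^ (𝒞.oW z)) (τ ^ m * u)) : 𝒞.slope z = m :=
  dlc_aux_slope_eq 𝒞.toNode 𝒞.toDlLocal 𝒞.toNode_toDlLocal τ hτA hτ hz hu hc

/-- **the unit lemma at a crossing** -/
theorem dlc_unit {z : F} (hz : z ≠ 0)
    (hH : ∀ (V : ValuationSubring F) (hV : V ∈ 𝒞.hor), 𝒞.oH V hV z = 0)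
    (hW : 𝒞.oW z = 0) (hs : 𝒞.slope z = 0) : 𝒞.IsU z :=
  dlc_aux_unit 𝒞.toNode 𝒞.toDlLocal 𝒞.toNode_toDlLocal hz hH hW hs

/-- **the slope law at a crossing** (exact) -/
theorem dlc_slope_law {z : F} (hz : z ≠ 0)
    (hH : ∀ (V : ValuationSubring F) (hV : V ∈ 𝒞.hor), 𝒞.oH V hV z = 0) :
    𝒞.oW' z - 𝒞.oW z = 𝒞.slope z * 𝒞.thick :=
  dlc_aux_slope_law 𝒞.toNode 𝒞.toDlLocal 𝒞.toNode_toDlLocal hz hH

/-- the vertical unit computes the thickness: `ord_W' D = slope D · w` -/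
theorem dlc_thick : 𝒞.oW' 𝒞.D = 𝒞.slope 𝒞.D * 𝒞.thick := by
  have := dlc_slope_law 𝒞 𝒞.D_ne (fun V hV => 𝒞.oH_D hV)
  rw [𝒞.oW_D] at this
  linarith

/-- **the conservation law modulo `p` at a crossing** -/
theorem dlc_cll (p : ℤ) {z : F} (hz : z ≠ 0)
    (hp : ∀ (V : ValuationSubring F) (hV : V ∈ 𝒞.hor), p ∣ 𝒞.oH V hV z) :
    p ∣ 𝒞.oW' z - 𝒞.oW z - 𝒞.slope z * 𝒞.thick :=
  dlc_aux_cll 𝒞.toNode 𝒞.toDlLocal 𝒞.toNode_toDlLocal p hz hp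

/-- **the thickness-free conservation law at a crossing** -/
theorem dlc_cll_free (p : ℤ) {z : F} (hz : z ≠ 0)
    (hp : ∀ (V : ValuationSubring F) (hV : V ∈ 𝒞.hor), p ∣ 𝒞.oH V hV z) :
    p ∣ 𝒞.slope z * 𝒞.oW' 𝒞.D - 𝒞.slope 𝒞.D * (𝒞.oW' z - 𝒞.oW z) := by
  have := dlc_aux_cll_free 𝒞.toNode 𝒞.toDlLocal 𝒞.toNode_toDlLocal p hz hp 𝒞.D_ne
    (fun V hV => 𝒞.oH_D hV)
  rw [𝒞.oW_D, sub_zero] at this
  exact this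

/-- **the local `p`-th power representation at a crossing** -/
theorem dlc_unit_rep (p : ℕ) {z : F} (hz : z ≠ 0)
    (hp : ∀ (V : ValuationSubring F) (hV : V ∈ 𝒞.hor), (p : ℤ) ∣ 𝒞.oH V hV z)
    (hW : (p : ℤ) ∣ 𝒞.oW z) (hs : (p : ℤ) ∣ 𝒞.slope z) :
    ∃ g z₀ : F, g ≠ 0 ∧ z₀ ∈ 𝒞.A ∧ z₀⁻¹ ∈ 𝒞.A ∧ z = g ^ p * z₀ := by
  obtain ⟨g, u, hg, hu, e⟩ :=
    dlc_aux_unit_rep 𝒞.toNode 𝒞.toDlLocal 𝒞.toNode_toDlLocal p hz hp hW hs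
  exact ⟨g, u, hg, hu.1, hu.2.1, e⟩

/-- **the coordinate lemma at a crossing**: every horizontal valuation ring through the crossing
is cut out by one function -/
theorem dlc_coord (V : ValuationSubring F) (hV : V ∈ 𝒞.hor) :
    ∃ g : F, g ∈ 𝒞.A ∧ g ≠ 0 ∧ 𝒞.oH V hV g = 1 ∧
      ∀ (V' : ValuationSubring F) (hV' : V' ∈ 𝒞.hor), V' ≠ V → 𝒞.oH V' hV' g = 0 :=
  dlc_aux_coord 𝒞.toNode 𝒞.toDlLocal 𝒞.toNode_toDlLocal V hV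

end CrossExports

end Fermat.Agent.Delta
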