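/-
DELTA / NODE-ABS (helper8), part 9: **the normal form of a crossing** (N1), (N3), (N4):
`dln_normal : DlCross → DlNode`.

`𝒞 : DlCross L F` (two smooth branches `A ⧸ 𝔭_W`, `A ⧸ 𝔭_W'` crossing transversally, a vertical
unit `D`).
* `DlCross.D'`, `DlCross.swap`      : the vertical unit `ϖ ^ δ / D` of the other branch;
* `DlCross.exists_par_side`, `DlCross.par₀` : parameters `t₀ ∈ 𝔭_W'`, `t₀' ∈ 𝔭_W` lifting uniformisers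
  of the two branches, `𝔪_A = (t₀, t₀', ϖ)` (`𝔭_W ∩ 𝔭_W' = ϖ A`);
* `DlnPar.changeL`                  : changing `t` modulo `ϖ A`;
* `DlnPar.oW'_le_of_cong`           : `ord_W' t ≤ ord_W' D` for every lift `t` of `t₀ mod 𝔭_W`
  (`y = t ^ n u / D ≡ 1` modulo `𝔭_W` is a unit);
* `DlnPar.exists_max_lift`, `DlnPar.isU_psi` : for maximal lifts, `t t' / ϖ ^ m` is a unit;
* `DlCross.exists_node`, `DlCross.toNode`, `dln_normal`.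
-/
import Fermat.Agent.Lib.Delta.Node.ParNode

set_option autoImplicit false
set_option linter.style.haveILetI false
set_option linter.unusedSectionVars false
set_option linter.unusedVariables false

namespace Fermat.Agent.Delta

open Fermat.Agent.T4

variable {L F : Type*} [Field L] [Field F] [Algebra L F]

namespace DlCross

variable (𝒞 : DlCross L F)

theorem oW_D : 𝒞.oW 𝒞.D = 0 := (dl_valuation_eq_one_iff 𝒞.W 𝒞.D_ne).mp 𝒞.D_W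

theorem oW'_D : 0 < 𝒞.oW' 𝒞.D := (dl_valuation_lt_one_iff 𝒞.W' 𝒞.D_ne).mp 𝒞.D_W'

theorem oH_D {V : ValuationSubring F} (hV : V ∈ 𝒞.hor) : 𝒞.oH V hV 𝒞.D = 0 := by
  haveI := 𝒞.P.dvr V hV.1
  exact (dl_valuation_eq_one_iff V 𝒞.D_ne).mp (𝒞.D_hor V hV.1 hV.2.1 hV.2.2)

theorem D_mem : 𝒞.D ∈ 𝒞.A :=
  dln_mem_A_of 𝒞.toDlLocal (by rw [𝒞.oW_D]) 𝒞.oW'_D.le (fun V hV => by rw [𝒞.oH_D hV])

theorem D_not_isU : ¬ 𝒞.IsU 𝒞.D := dln_not_isU_of_oW'_pos 𝒞.toDlLocal (Or.inr 𝒞.oW'_D)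

/-- the vertical unit of the other branch: `D' = ϖ ^ δ / D` -/
noncomputable def D' : F := 𝒞.pi ^ (𝒞.oW' 𝒞.D) / 𝒞.D

theorem D'_ne : 𝒞.D' ≠ 0 :=
  div_ne_zero (zpow_ne_zero _ (dln_pi_ne_zero 𝒞.toDlLocal)) 𝒞.D_ne

theorem oW_D' : 𝒞.oW 𝒞.D' = 𝒞.oW' 𝒞.D := by
  unfold D'
  rw [dln_oW_div 𝒞.toDlLocal (zpow_ne_zero _ (dln_pi_ne_zero 𝒞.toDlLocal)) 𝒞.D_ne,
    dln_oW_zpow, dln_oW_pi, 𝒞.oW_D]
  ring

theorem oW'_D' : 𝒞.oW' 𝒞.D' = 0 := by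
  unfold D'
  rw [dln_oW'_div 𝒞.toDlLocal (zpow_ne_zero _ (dln_pi_ne_zero 𝒞.toDlLocal)) 𝒞.D_ne,
    dln_oW'_zpow, dln_oW'_pi]
  ring

theorem oH_D' {V : ValuationSubring F} (hV : V ∈ 𝒞.hor) : 𝒞.oH V hV 𝒞.D' = 0 := by
  unfold D'
  rw [dln_oH_div 𝒞.toDlLocal hV (zpow_ne_zero _ (dln_pi_ne_zero 𝒞.toDlLocal)) 𝒞.D_ne,
    dln_oH_zpow, dln_oH_pi, 𝒞.oH_D hV]
  ring

/-- the crossing with the two branches exchanged -/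
noncomputable def swap : DlCross L F where
  toDlLocal := 𝒞.toDlLocal.swap
  smoothW := 𝒞.smoothW'
  smoothW' := 𝒞.smoothW
  trans := by
    intro f hf
    obtain ⟨g, h, hg, hh, e⟩ := 𝒞.trans f hf
    exact ⟨h, g, hh, hg, by rw [e]; exact add_comm g h⟩
  D := 𝒞.D'
  D_ne := 𝒞.D'_ne
  D_hor := by
    intro V hV h1 h2
    haveI := 𝒞.P.dvr V hV
    exact (dl_valuation_eq_one_iff V 𝒞.D'_ne).mpr (𝒞.oH_D' ⟨hV, h2, h1⟩)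
  D_W := (dl_valuation_eq_one_iff 𝒞.W' 𝒞.D'_ne).mpr 𝒞.oW'_D'
  D_W' := (dl_valuation_lt_one_iff 𝒞.W 𝒞.D'_ne).mpr (by
    have := 𝒞.oW_D'
    have h2 := 𝒞.oW'_D
    change 0 < 𝒞.oW 𝒞.D'
    omega)

/-- the `W`-side parameter of a crossing -/
theorem exists_par_side : ∃ (t : F) (htA : t ∈ 𝒞.A), t ≠ 0 ∧ 𝒞.oW t = 0 ∧ 0 < 𝒞.oW' t ∧
    IsLocalRing.maximalIdeal (𝒞.P.B ⧸ 𝒞.ctr 𝒞.W 𝒞.hW) =
      Ideal.span {Ideal.Quotient.mk (𝒞.ctr 𝒞.W 𝒞.hW) ⟨t, htA⟩} := by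
  haveI := 𝒞.smoothW
  obtain ⟨a, ha⟩ := (IsPrincipalIdealRing.principal
    (IsLocalRing.maximalIdeal (𝒞.P.B ⧸ 𝒞.ctr 𝒞.W 𝒞.hW))).principal
  obtain ⟨t₁, rfl⟩ := Ideal.Quotient.mk_surjective a
  have ha' : IsLocalRing.maximalIdeal (𝒞.P.B ⧸ 𝒞.ctr 𝒞.W 𝒞.hW) =
      Ideal.span {Ideal.Quotient.mk (𝒞.ctr 𝒞.W 𝒞.hW) t₁} := ha
  have ht₁u : ¬ IsUnit t₁ := by
    intro h
    have h1 : Ideal.Quotient.mk (𝒞.ctr 𝒞.W 𝒞.hW) t₁ ∈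
        IsLocalRing.maximalIdeal (𝒞.P.B ⧸ 𝒞.ctr 𝒞.W 𝒞.hW) := by
      rw [ha']; exact Ideal.subset_span rfl
    exact (IsLocalRing.mem_maximalIdeal _).mp h1 (h.map _)
  obtain ⟨g, h, hg, hh, e⟩ := 𝒞.trans t₁ ht₁u
  have hmk : Ideal.Quotient.mk (𝒞.ctr 𝒞.W 𝒞.hW) h = Ideal.Quotient.mk (𝒞.ctr 𝒞.W 𝒞.hW) t₁ := by
    rw [Ideal.Quotient.eq, e]
    have : h - (g + h) = -g := by ring
    rw [this]
    exact (𝒞.ctr 𝒞.W 𝒞.hW).neg_mem hg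
  have hmax : IsLocalRing.maximalIdeal (𝒞.P.B ⧸ 𝒞.ctr 𝒞.W 𝒞.hW) =
      Ideal.span {Ideal.Quotient.mk (𝒞.ctr 𝒞.W 𝒞.hW) h} := by rw [hmk]; exact ha'
  -- `h ∉ 𝔭_W` since `A ⧸ 𝔭_W` is not a field (`D`)
  have hDmem : (⟨𝒞.D, 𝒞.D_mem⟩ : 𝒞.P.B) ∉ 𝒞.ctr 𝒞.W 𝒞.hW := by
    rw [dln_mem_ctrW]
    rintro (h0 | h0)
    · exact 𝒞.D_ne h0
    · have := 𝒞.oW_D
      change 0 < 𝒞.oW 𝒞.D at h0
      omega
  have hDnu : ¬ IsUnit (⟨𝒞.D, 𝒞.D_mem⟩ : 𝒞.P.B) := fun hu =>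
    𝒞.D_not_isU ((dln_isU_iff_isUnit 𝒞.toDlLocal ⟨𝒞.D, 𝒞.D_mem⟩).mpr hu)
  have hh0 : h ∉ 𝒞.ctr 𝒞.W 𝒞.hW := by
    intro hmem
    have h1 : IsLocalRing.maximalIdeal (𝒞.P.B ⧸ 𝒞.ctr 𝒞.W 𝒞.hW) = ⊥ := by
      rw [hmax, Ideal.span_singleton_eq_bot, Ideal.Quotient.eq_zero_iff_mem]
      exact hmem
    have h2 : Ideal.Quotient.mk (𝒞.ctr 𝒞.W 𝒞.hW) ⟨𝒞.D, 𝒞.D_mem⟩ ∈
        IsLocalRing.maximalIdeal (𝒞.P.B ⧸ 𝒞.ctr 𝒞.W 𝒞.hW) := by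
      rw [IsLocalRing.mem_maximalIdeal, mem_nonunits_iff]
      intro hu
      exact hDnu (isUnit_of_map_unit (Ideal.Quotient.mk (𝒞.ctr 𝒞.W 𝒞.hW)) _ hu)
    rw [h1, Ideal.mem_bot, Ideal.Quotient.eq_zero_iff_mem] at h2
    exact hDmem h2
  rw [dln_mem_ctrW] at hh0
  push Not at hh0
  have hh' : (h : F) = 0 ∨ 0 < 𝒞.oW' (h : F) := (dln_mem_ctrW' 𝒞.toDlLocal).mp hh
  refine ⟨(h : F), h.2, hh0.1, ?_, ?_, hmax⟩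
  · have := dln_oW_nonneg 𝒞.toDlLocal h.2
    have h2 := hh0.2
    omega
  · rcases hh' with h0 | h0
    · exact absurd h0 hh0.1
    · exact h0

end DlCross

section Gen

variable (𝒩 : DlLocal L F)

theorem dln_gen_of_max (t : 𝒩.P.B)
    (hmax : IsLocalRing.maximalIdeal (𝒩.P.B ⧸ 𝒩.ctr 𝒩.W 𝒩.hW) =
      Ideal.span {Ideal.Quotient.mk (𝒩.ctr 𝒩.W 𝒩.hW) t})
    (h : 𝒩.P.B) (hh : ¬ IsUnit h) : ∃ a : 𝒩.P.B, h - a * t ∈ 𝒩.ctr 𝒩.W 𝒩.hW := by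
  have h1 : Ideal.Quotient.mk (𝒩.ctr 𝒩.W 𝒩.hW) h ∈
      IsLocalRing.maximalIdeal (𝒩.P.B ⧸ 𝒩.ctr 𝒩.W 𝒩.hW) := by
    rw [IsLocalRing.mem_maximalIdeal, mem_nonunits_iff]
    intro hu
    exact hh (isUnit_of_map_unit (Ideal.Quotient.mk (𝒩.ctr 𝒩.W 𝒩.hW)) _ hu)
  rw [hmax, Ideal.mem_span_singleton'] at h1
  obtain ⟨a', ha'⟩ := h1
  obtain ⟨a, rfl⟩ := Ideal.Quotient.mk_surjective a'
  refine ⟨a, ?_⟩
  rw [← Ideal.Quotient.eq_zero_iff_mem, map_sub, map_mul, ha', sub_self]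

/-- non-units of `A` which lie in `𝔭_W'` are `a · t + ϖ · c` when `t ∈ 𝔭_W'` generates the maximal
ideal of `A ⧸ 𝔭_W` -/
theorem dln_max_side (t : F) (htA : t ∈ 𝒩.A) (ht' : t = 0 ∨ 0 < 𝒩.oW' t)
    (hmax : IsLocalRing.maximalIdeal (𝒩.P.B ⧸ 𝒩.ctr 𝒩.W 𝒩.hW) =
      Ideal.span {Ideal.Quotient.mk (𝒩.ctr 𝒩.W 𝒩.hW) ⟨t, htA⟩})
    (h : F) (hhA : h ∈ 𝒩.A) (hh : h = 0 ∨ 0 < 𝒩.oW' h) :
    ∃ a c : F, a ∈ 𝒩.A ∧ c ∈ 𝒩.A ∧ h = a * t + c * 𝒩.pi := by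
  have hnu : ¬ IsUnit (⟨h, hhA⟩ : 𝒩.P.B) := fun hu =>
    dln_not_isU_of_oW'_pos 𝒩 hh ((dln_isU_iff_isUnit 𝒩 ⟨h, hhA⟩).mpr hu)
  obtain ⟨a, ha⟩ := dln_gen_of_max 𝒩 ⟨t, htA⟩ hmax ⟨h, hhA⟩ hnu
  rw [dln_mem_ctrW] at ha
  have e : ((⟨h, hhA⟩ - a * ⟨t, htA⟩ : 𝒩.P.B) : F) = h - (a : F) * t := rfl
  rw [e] at ha
  have hrA : h - (a : F) * t ∈ 𝒩.A := 𝒩.A.sub_mem hhA (𝒩.A.mul_mem a.2 htA)
  -- `r = h - a t ∈ 𝔭_W ∩ 𝔭_W'`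
  have hr : h - (a : F) * t = 0 ∨ (1 ≤ 𝒩.oW (h - (a : F) * t) ∧ 1 ≤ 𝒩.oW' (h - (a : F) * t)) := by
    by_cases h0 : h - (a : F) * t = 0
    · exact Or.inl h0
    right
    rcases ha with ha | ha
    · exact absurd ha h0
    refine ⟨by omega, ?_⟩
    have hat : (a : F) * t = 0 ∨ 1 ≤ 𝒩.oW' ((a : F) * t) := by
      rcases ht' with rfl | ht'
      · left; rw [mul_zero]
      by_cases ha0 : (a : F) = 0
      · left; rw [ha0, zero_mul]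
      right
      have ht0 : t ≠ 0 := dln_ne_zero_of_ord_ne 𝒩.W' (by
        have : 0 < dlOrd 𝒩.W' t := ht'
        omega)
      rw [dln_oW'_mul 𝒩 ha0 ht0]
      have := dln_oW'_nonneg 𝒩 a.2
      omega
    have hh1 : h = 0 ∨ 1 ≤ 𝒩.oW' h := by
      rcases hh with hh | hh
      · exact Or.inl hh
      · right; omega
    exact dln_ord_sub_ge 𝒩.W' h0 hh1 hat
  have hc := dln_div_pi 𝒩 hrA hr
  refine ⟨a, (h - (a : F) * t) / 𝒩.pi, a.2, hc, ?_⟩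
  have := dln_pi_ne_zero 𝒩
  field_simp
  ring

end Gen

namespace DlCross

variable (𝒞 : DlCross L F)

/-- **the parameters of a crossing** -/
noncomputable def par₀ : DlnPar 𝒞.toDlLocal :=
  let h := 𝒞.exists_par_side
  let h' := 𝒞.swap.exists_par_side
  { t := h.choose
    t' := h'.choose
    ht := h.choose_spec.choose
    ht' := h'.choose_spec.choose
    oW_t := h.choose_spec.choose_spec.2.1
    oW'_t := h.choose_spec.choose_spec.2.2.1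
    oW'_t' := h'.choose_spec.choose_spec.2.1
    oW_t' := h'.choose_spec.choose_spec.2.2.1
    max := by
      intro f hf hfu
      have hfu' : ¬ IsUnit (⟨f, hf⟩ : 𝒞.P.B) := fun hu =>
        hfu ((dln_isU_iff_isUnit 𝒞.toDlLocal ⟨f, hf⟩).mpr hu)
      obtain ⟨g, k, hg, hk, e⟩ := 𝒞.trans ⟨f, hf⟩ hfu'
      have hk' : (k : F) = 0 ∨ 0 < 𝒞.oW' (k : F) := (dln_mem_ctrW' 𝒞.toDlLocal).mp hk
      have hg' : (g : F) = 0 ∨ 0 < 𝒞.oW (g : F) := (dln_mem_ctrW 𝒞.toDlLocal).mp hg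
      obtain ⟨a, c, ha, hc, e1⟩ := dln_max_side 𝒞.toDlLocal h.choose h.choose_spec.choose
        (Or.inr h.choose_spec.choose_spec.2.2.1) h.choose_spec.choose_spec.2.2.2 (k : F) k.2 hk'
      obtain ⟨b, c', hb, hc', e2⟩ := dln_max_side 𝒞.toDlLocal.swap h'.choose
        h'.choose_spec.choose (Or.inr h'.choose_spec.choose_spec.2.2.1)
        h'.choose_spec.choose_spec.2.2.2 (g : F) g.2 hg'
      refine ⟨a, b, c + c', ha, hb, 𝒞.A.add_mem hc hc', ?_⟩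
      have e3 : f = (g : F) + (k : F) := congrArg Subtype.val e
      rw [e3, e1, e2]
      simp only [DlLocal.swap_pi]
      ring
    dvrW := dln_dvrW_of_quot 𝒞.toDlLocal h.choose h.choose_spec.choose 𝒞.smoothW
      h.choose_spec.choose_spec.2.2.2 h.choose_spec.choose_spec.1 h.choose_spec.choose_spec.2.1
    dvrW' := dln_dvrW_of_quot 𝒞.toDlLocal.swap h'.choose h'.choose_spec.choose 𝒞.smoothW'
      h'.choose_spec.choose_spec.2.2.2 h'.choose_spec.choose_spec.1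
      h'.choose_spec.choose_spec.2.1 }

end DlCross

namespace DlnPar

variable {𝒩 : DlLocal L F} (P : DlnPar 𝒩)

/-- changing the parameter `t` modulo `ϖ A` -/
def changeL (t : F) (ht : t ∈ 𝒩.A) (h : 𝒩.CongW t P.t) (hW' : 0 < 𝒩.oW' t) : DlnPar 𝒩 where
  t := t
  t' := P.t'
  ht := ht
  ht' := P.ht'
  oW_t := (h.oW_eq_zero 𝒩 P.t_ne_zero P.oW_t).2
  oW'_t := hW'
  oW'_t' := P.oW'_t'
  oW_t' := P.oW_t'
  max := by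
    intro f hf hfu
    obtain ⟨a, b, c, ha, hb, hc, e⟩ := P.max f hf hfu
    have ht0 : t ≠ 0 := (h.oW_eq_zero 𝒩 P.t_ne_zero P.oW_t).1
    -- `t - P.t ∈ ϖ A`
    have hd : (t - P.t) / 𝒩.pi ∈ 𝒩.A := by
      refine dln_div_pi 𝒩 (𝒩.A.sub_mem ht P.ht) ?_
      by_cases h0 : t - P.t = 0
      · exact Or.inl h0
      right
      constructor
      · rcases h with h | h
        · exact absurd (sub_eq_zero.mpr h) h0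
        · omega
      · have h1 : (1 : ℤ) ≤ dlOrd 𝒩.W' t := hW'
        have h2 : (1 : ℤ) ≤ dlOrd 𝒩.W' P.t := P.oW'_t
        exact dln_ord_sub_ge 𝒩.W' h0 (Or.inr h1) (Or.inr h2)
    refine ⟨a, b, c - a * ((t - P.t) / 𝒩.pi), ha, hb,
      𝒩.A.sub_mem hc (𝒩.A.mul_mem ha hd), ?_⟩
    rw [e]
    have := dln_pi_ne_zero 𝒩
    field_simp
    ring
  dvrW := by
    intro f hf hf0 hfW
    obtain ⟨n, u, hu, hfu⟩ := P.dvrW f hf hf0 hfW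
    refine ⟨n, u, hu, hfu.trans 𝒩 ?_⟩
    have h1 : 𝒩.CongW (P.t ^ n) (t ^ n) :=
      (h.symm 𝒩).pow 𝒩 (Or.inr (by rw [P.oW_t])) (Or.inr (by
        rw [(h.oW_eq_zero 𝒩 P.t_ne_zero P.oW_t).2])) n
    have h2 := h1.mul_left 𝒩 (a := u) (Or.inr (by rw [hu.oW]))
    rwa [mul_comm u, mul_comm u] at h2
  dvrW' := P.dvrW'

/-- **the bound** for the order at `W'` of the lifts of `t` -/
theorem oW'_le_of_cong {D : F} (hD : D ∈ 𝒩.A) (hD0 : D ≠ 0) (hDW : 𝒩.oW D = 0)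
    (hDW' : 0 < 𝒩.oW' D)
    (hDH : ∀ (V : ValuationSubring F) (hV : V ∈ 𝒩.hor), 𝒩.oH V hV D = 0) {t : F}
    (ht : t ∈ 𝒩.A) (h : 𝒩.CongW t P.t) : 𝒩.oW' t ≤ 𝒩.oW' D := by
  by_contra hcon
  push Not at hcon
  obtain ⟨ht0, htW⟩ := h.oW_eq_zero 𝒩 P.t_ne_zero P.oW_t
  obtain ⟨n, u, hu, hDu⟩ := P.dvrW D hD hD0 hDW
  have hn : 1 ≤ n := by
    by_contra hn
    have hn0 : n = 0 := by omega
    subst hn0
    rw [pow_zero, one_mul] at hDu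
    have h1 : ¬ 𝒩.IsU (D - u) := by
      apply dln_not_isU_of_oW_pos
      rcases hDu with h | h
      · left; rw [h, sub_self]
      · exact Or.inr h
    have h2 := dln_isU_add_nonunit 𝒩 hu (𝒩.A.sub_mem hD hu.1) h1
    rw [add_sub_cancel] at h2
    have := h2.oW' 𝒩
    omega
  -- `t ^ n u ≡ D`
  have h1 : 𝒩.CongW (t ^ n) (P.t ^ n) :=
    h.pow 𝒩 (Or.inr (by rw [htW])) (Or.inr (by rw [P.oW_t])) n
  have h2 := h1.mul_left 𝒩 (a := u) (Or.inr (by rw [hu.oW]))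
  rw [mul_comm u, mul_comm u] at h2
  have h3 : 𝒩.CongW (t ^ n * u) D := h2.trans 𝒩 (hDu.symm 𝒩)
  have h4 := h3.mul_left 𝒩 (a := D⁻¹) (Or.inr (by rw [dln_oW_inv, hDW]; norm_num))
  rw [inv_mul_cancel₀ hD0] at h4
  have hy0 : D⁻¹ * (t ^ n * u) ≠ 0 :=
    mul_ne_zero (inv_ne_zero hD0) (mul_ne_zero (pow_ne_zero _ ht0) hu.2.2)
  have hyW' : 0 < 𝒩.oW' (D⁻¹ * (t ^ n * u)) := by
    rw [dln_oW'_mul 𝒩 (inv_ne_zero hD0) (mul_ne_zero (pow_ne_zero _ ht0) hu.2.2), dln_oW'_inv,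
      dln_oW'_mul 𝒩 (pow_ne_zero _ ht0) hu.2.2, dln_oW'_pow, hu.oW']
    have : (1 : ℤ) ≤ n := by exact_mod_cast hn
    nlinarith
  have hyA : D⁻¹ * (t ^ n * u) ∈ 𝒩.A := by
    refine dln_mem_A_of 𝒩 ?_ hyW'.le ?_
    · rw [dln_oW_mul 𝒩 (inv_ne_zero hD0) (mul_ne_zero (pow_ne_zero _ ht0) hu.2.2), dln_oW_inv,
        dln_oW_mul 𝒩 (pow_ne_zero _ ht0) hu.2.2, dln_oW_pow, hu.oW, htW, hDW]
      norm_num
    · intro V hV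
      rw [dln_oH_mul 𝒩 hV (inv_ne_zero hD0) (mul_ne_zero (pow_ne_zero _ ht0) hu.2.2),
        dln_oH_inv, dln_oH_mul 𝒩 hV (pow_ne_zero _ ht0) hu.2.2, dln_oH_pow, hu.oH 𝒩 hV,
        hDH V hV]
      have := dln_oH_nonneg 𝒩 ht hV
      nlinarith
  have h5 : ¬ 𝒩.IsU (D⁻¹ * (t ^ n * u) - 1) := by
    apply dln_not_isU_of_oW_pos
    rcases h4 with h | h
    · left; rw [h, sub_self]
    · exact Or.inr h
  have h6 := dln_isU_add_nonunit 𝒩 (dln_isU_one 𝒩) (𝒩.A.sub_mem hyA 𝒩.A.one_mem) h5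
  rw [add_sub_cancel] at h6
  have := h6.oW' 𝒩
  omega

/-- **maximal lifts** of the parameter `t` -/
theorem exists_max_lift {D : F} (hD : D ∈ 𝒩.A) (hD0 : D ≠ 0) (hDW : 𝒩.oW D = 0)
    (hDW' : 0 < 𝒩.oW' D)
    (hDH : ∀ (V : ValuationSubring F) (hV : V ∈ 𝒩.hor), 𝒩.oH V hV D = 0) :
    ∃ t : F, t ∈ 𝒩.A ∧ 𝒩.CongW t P.t ∧ 0 < 𝒩.oW' t ∧
      ∀ s : F, s ∈ 𝒩.A → 𝒩.CongW s P.t → 0 < 𝒩.oW' s → 𝒩.oW' s ≤ 𝒩.oW' t := by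
  have hb : ∃ b : ℤ, ∀ c : ℤ, (∃ s : F, s ∈ 𝒩.A ∧ 𝒩.CongW s P.t ∧ 0 < 𝒩.oW' s ∧
      𝒩.oW' s = c) → c ≤ b := by
    refine ⟨𝒩.oW' D, ?_⟩
    rintro c ⟨s, hs, hsc, -, rfl⟩
    exact P.oW'_le_of_cong hD hD0 hDW hDW' hDH hs hsc
  have hi : ∃ c : ℤ, ∃ s : F, s ∈ 𝒩.A ∧ 𝒩.CongW s P.t ∧ 0 < 𝒩.oW' s ∧ 𝒩.oW' s = c :=
    ⟨_, P.t, P.ht, DlLocal.CongW.refl 𝒩 _, P.oW'_t, rfl⟩
  obtain ⟨c, ⟨t, ht, htc, htW', rfl⟩, hmax⟩ := Int.exists_greatest_of_bdd hb hi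
  exact ⟨t, ht, htc, htW', fun s hs hsc hsW' => hmax _ ⟨s, hs, hsc, hsW', rfl⟩⟩

/-- for maximal lifts `t`, `t'` the function `t · t' / ϖ ^ m`, `m = min (ord_W' t, ord_W t')`, is a
unit of `A` -/
theorem isU_psi
    (hmaxW : ∀ s : F, s ∈ 𝒩.A → 𝒩.CongW s P.t → 0 < 𝒩.oW' s → 𝒩.oW' s ≤ 𝒩.oW' P.t)
    (hmaxW' : ∀ s : F, s ∈ 𝒩.A → 𝒩.CongW' s P.t' → 0 < 𝒩.oW s → 𝒩.oW s ≤ 𝒩.oW P.t')
    (k : ℕ) (hk : (k : ℤ) = min (𝒩.oW' P.t) (𝒩.oW P.t')) :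
    𝒩.IsU (P.t * P.t' / 𝒩.pi ^ k) := by
  have hπ := dln_pi_ne_zero 𝒩
  have ht0 := P.t_ne_zero
  have ht'0 := P.t'_ne_zero
  have hk1 : 1 ≤ k := by
    have h1 := P.oW'_t
    have h2 := P.oW_t'
    have : (1 : ℤ) ≤ k := by rw [hk]; exact le_min (by omega) (by omega)
    exact_mod_cast this
  have hkc : (k : ℤ) ≤ 𝒩.oW' P.t := by rw [hk]; exact min_le_left _ _
  have hkc' : (k : ℤ) ≤ 𝒩.oW P.t' := by rw [hk]; exact min_le_right _ _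
  have hψ0 : P.t * P.t' / 𝒩.pi ^ k ≠ 0 :=
    div_ne_zero (mul_ne_zero ht0 ht'0) (pow_ne_zero _ hπ)
  have hψA : P.t * P.t' / 𝒩.pi ^ k ∈ 𝒩.A := by
    refine dln_mem_A_of 𝒩 ?_ ?_ ?_
    · rw [dln_oW_div 𝒩 (mul_ne_zero ht0 ht'0) (pow_ne_zero _ hπ), dln_oW_mul 𝒩 ht0 ht'0,
        dln_oW_pow, dln_oW_pi, P.oW_t]
      omega
    · rw [dln_oW'_div 𝒩 (mul_ne_zero ht0 ht'0) (pow_ne_zero _ hπ), dln_oW'_mul 𝒩 ht0 ht'0,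
        dln_oW'_pow, dln_oW'_pi, P.oW'_t']
      omega
    · intro V hV
      rw [dln_oH_div 𝒩 hV (mul_ne_zero ht0 ht'0) (pow_ne_zero _ hπ),
        dln_oH_mul 𝒩 hV ht0 ht'0, dln_oH_pow, dln_oH_pi]
      have h1 := dln_oH_nonneg 𝒩 P.ht hV
      have h2 := dln_oH_nonneg 𝒩 P.ht' hV
      omega
  by_contra hnu
  obtain ⟨a, b, c, ha, hb, hc, e⟩ := P.max _ hψA hnu
  have hπkA : 𝒩.pi ^ k ∈ 𝒩.A := 𝒩.A.pow_mem 𝒩.pi_mem k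
  have hprod : P.t * P.t' = 𝒩.pi ^ k * (a * P.t + b * P.t' + c * 𝒩.pi) := by
    rw [← e]
    have := pow_ne_zero k hπ
    field_simp
  -- the new lifts
  have ht₁A : P.t - 𝒩.pi ^ k * b ∈ 𝒩.A := 𝒩.A.sub_mem P.ht (𝒩.A.mul_mem hπkA hb)
  have ht₁'A : P.t' - 𝒩.pi ^ k * a ∈ 𝒩.A := 𝒩.A.sub_mem P.ht' (𝒩.A.mul_mem hπkA ha)
  have hcong : 𝒩.CongW (P.t - 𝒩.pi ^ k * b) P.t := by
    by_cases hb0 : b = 0
    · left; rw [hb0, mul_zero, sub_zero]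
    right
    have : P.t - 𝒩.pi ^ k * b - P.t = -(𝒩.pi ^ k * b) := by ring
    rw [this]
    show 0 < dlOrd 𝒩.W (-(𝒩.pi ^ k * b))
    rw [dlOrd_neg]
    have h1 := dln_oW_mul 𝒩 (pow_ne_zero k hπ) hb0
    change dlOrd 𝒩.W (𝒩.pi ^ k * b) = _ at h1
    rw [h1, dln_oW_pow, dln_oW_pi]
    have := dln_oW_nonneg 𝒩 hb
    have : (1 : ℤ) ≤ k := by exact_mod_cast hk1
    omega
  have hcong' : 𝒩.CongW' (P.t' - 𝒩.pi ^ k * a) P.t' := by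
    by_cases ha0 : a = 0
    · left; rw [ha0, mul_zero, sub_zero]
    right
    have : P.t' - 𝒩.pi ^ k * a - P.t' = -(𝒩.pi ^ k * a) := by ring
    rw [this]
    show 0 < dlOrd 𝒩.W' (-(𝒩.pi ^ k * a))
    rw [dlOrd_neg]
    have h1 := dln_oW'_mul 𝒩 (pow_ne_zero k hπ) ha0
    change dlOrd 𝒩.W' (𝒩.pi ^ k * a) = _ at h1
    rw [h1, dln_oW'_pow, dln_oW'_pi]
    have := dln_oW'_nonneg 𝒩 ha
    have : (1 : ℤ) ≤ k := by exact_mod_cast hk1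
    omega
  obtain ⟨ht₁0, ht₁W⟩ := hcong.oW_eq_zero 𝒩 ht0 P.oW_t
  obtain ⟨ht₁'0, ht₁'W'⟩ : P.t' - 𝒩.pi ^ k * a ≠ 0 ∧ 𝒩.oW' (P.t' - 𝒩.pi ^ k * a) = 0 :=
    dln_ord_eq_zero_of_sub 𝒩.W' ht'0 P.oW'_t' hcong'
  -- the product of the new lifts
  have hE : (P.t - 𝒩.pi ^ k * b) * (P.t' - 𝒩.pi ^ k * a) =
      𝒩.pi ^ (k + 1) * (c + 𝒩.pi ^ (k - 1) * (a * b)) := by
    have h2 : 𝒩.pi ^ (k + 1) * 𝒩.pi ^ (k - 1) = 𝒩.pi ^ k * 𝒩.pi ^ k := by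
      rw [← pow_add, ← pow_add]
      congr 1
      omega
    have : (P.t - 𝒩.pi ^ k * b) * (P.t' - 𝒩.pi ^ k * a) =
        P.t * P.t' - 𝒩.pi ^ k * (a * P.t + b * P.t') + 𝒩.pi ^ k * 𝒩.pi ^ k * (a * b) := by ring
    rw [this, hprod, ← h2]
    ring
  have hEA : c + 𝒩.pi ^ (k - 1) * (a * b) ∈ 𝒩.A :=
    𝒩.A.add_mem hc (𝒩.A.mul_mem (𝒩.A.pow_mem 𝒩.pi_mem _) (𝒩.A.mul_mem ha hb))
  have hE0 : c + 𝒩.pi ^ (k - 1) * (a * b) ≠ 0 := by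
    intro h0
    rw [h0, mul_zero] at hE
    exact mul_ne_zero ht₁0 ht₁'0 hE
  -- orders of the product
  have h3 : 𝒩.oW' (P.t - 𝒩.pi ^ k * b) = (k + 1 : ℕ) + 𝒩.oW' (c + 𝒩.pi ^ (k - 1) * (a * b)) := by
    have := congrArg 𝒩.oW' hE
    rw [dln_oW'_mul 𝒩 ht₁0 ht₁'0, ht₁'W', dln_oW'_mul 𝒩 (pow_ne_zero _ hπ) hE0, dln_oW'_pow,
      dln_oW'_pi] at this
    linarith
  have h4 : 𝒩.oW (P.t' - 𝒩.pi ^ k * a) = (k + 1 : ℕ) + 𝒩.oW (c + 𝒩.pi ^ (k - 1) * (a * b)) := by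
    have := congrArg 𝒩.oW hE
    rw [dln_oW_mul 𝒩 ht₁0 ht₁'0, ht₁W, dln_oW_mul 𝒩 (pow_ne_zero _ hπ) hE0, dln_oW_pow,
      dln_oW_pi] at this
    linarith
  have h5 := dln_oW'_nonneg 𝒩 hEA
  have h6 := dln_oW_nonneg 𝒩 hEA
  have h7 := hmaxW _ ht₁A hcong (by rw [h3]; push_cast; omega)
  have h8 := hmaxW' _ ht₁'A hcong' (by rw [h4]; push_cast; omega)
  rw [h3] at h7
  rw [h4] at h8
  push_cast at h7 h8
  have : (k : ℤ) + 1 ≤ min (𝒩.oW' P.t) (𝒩.oW P.t') := le_min (by omega) (by omega)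
  omega

end DlnPar

namespace DlCross

variable (𝒞 : DlCross L F)

theorem D'_mem : 𝒞.D' ∈ 𝒞.A := 𝒞.swap.D_mem

/-- **the normal form of a crossing** (N3), (N4): maximal lifts `t`, `t'` of the parameters of the
two branches satisfy `t · t' = ϖ ^ w · unit` -/
theorem exists_node : ∃ 𝒩 : DlNode L F, 𝒩.toDlLocal = 𝒞.toDlLocal := by
  obtain ⟨t, ht, htc, htW', hmaxW⟩ := 𝒞.par₀.exists_max_lift 𝒞.D_mem 𝒞.D_ne 𝒞.oW_D 𝒞.oW'_D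
    (fun V hV => 𝒞.oH_D hV)
  obtain ⟨t', ht', ht'c, ht'W, hmaxW'⟩ := 𝒞.par₀.swap.exists_max_lift 𝒞.swap.D_mem 𝒞.swap.D_ne
    𝒞.swap.oW_D 𝒞.swap.oW'_D (fun V hV => 𝒞.swap.oH_D hV)
  let P₁ : DlnPar 𝒞.toDlLocal := 𝒞.par₀.changeL t ht htc htW'
  let P₂ : DlnPar 𝒞.toDlLocal := (P₁.swap.changeL t' ht' ht'c ht'W).swap
  have hP₂t : P₂.t = t := rfl
  have hP₂t' : P₂.t' = t' := rfl
  have hk0 : 0 ≤ min (𝒞.oW' t) (𝒞.oW t') := le_min htW'.le (le_of_lt ht'W)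
  obtain ⟨k, hk⟩ : ∃ k : ℕ, (k : ℤ) = min (𝒞.oW' t) (𝒞.oW t') :=
    ⟨(min (𝒞.oW' t) (𝒞.oW t')).toNat, Int.toNat_of_nonneg hk0⟩
  have hk1 : 1 ≤ k := by
    have h1 : (1 : ℤ) ≤ 𝒞.oW' t := htW'
    have h2 : (1 : ℤ) ≤ 𝒞.oW t' := ht'W
    have : (1 : ℤ) ≤ k := by rw [hk]; exact le_min h1 h2
    exact_mod_cast this
  have hψ : 𝒞.IsU (t * t' / 𝒞.pi ^ k) := by
    have := P₂.isU_psi (fun s hs hsc hsW' => hmaxW s hs (hsc.trans 𝒞.toDlLocal htc) hsW')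
      (fun s hs hsc hsW => hmaxW' s hs (DlLocal.CongW.trans 𝒞.toDlLocal.swap hsc ht'c) hsW)
      k hk
    exact this
  have hπ := dln_pi_ne_zero 𝒞.toDlLocal
  obtain ⟨ht0, htW⟩ := htc.oW_eq_zero 𝒞.toDlLocal 𝒞.par₀.t_ne_zero 𝒞.par₀.oW_t
  obtain ⟨ht'0, ht'W'⟩ : t' ≠ 0 ∧ 𝒞.oW' t' = 0 :=
    dln_ord_eq_zero_of_sub 𝒞.W' 𝒞.par₀.t'_ne_zero 𝒞.par₀.oW'_t' ht'c
  -- `ord_W' t = k`
  have hc : 𝒞.oW' t = k := by
    have := hψ.oW' 𝒞.toDlLocal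
    rw [dln_oW'_div 𝒞.toDlLocal (mul_ne_zero ht0 ht'0) (pow_ne_zero _ hπ),
      dln_oW'_mul 𝒞.toDlLocal ht0 ht'0, dln_oW'_pow, dln_oW'_pi, ht'W'] at this
    linarith
  -- `t'' = ϖ ^ k / t = t' · ψ⁻¹`
  have ht'' : 𝒞.pi ^ k / t = t' * (t * t' / 𝒞.pi ^ k)⁻¹ := by
    have := pow_ne_zero k hπ
    field_simp
  have ht''A : 𝒞.pi ^ k / t ∈ 𝒞.A := by
    rw [ht'']
    exact 𝒞.A.mul_mem ht' (hψ.inv 𝒞.toDlLocal).1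
  have ht''0 : 𝒞.pi ^ k / t ≠ 0 := div_ne_zero (pow_ne_zero _ hπ) ht0
  refine ⟨{ toDlLocal := 𝒞.toDlLocal
            t := t
            t' := 𝒞.pi ^ k / t
            ht := ht
            ht' := ht''A
            w := k
            hw := hk1
            tt' := by
              show t * (𝒞.pi ^ k / t) = 𝒞.pi ^ k
              field_simp
            Wt := (dl_valuation_eq_one_iff 𝒞.W ht0).mpr htW
            W't' := by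
              refine (dl_valuation_eq_one_iff 𝒞.W' ht''0).mpr ?_
              have := dln_oW'_div 𝒞.toDlLocal (pow_ne_zero k hπ) ht0
              change dlOrd 𝒞.W' (𝒞.pi ^ k / t) = _ at this
              rw [this, dln_oW'_pow, dln_oW'_pi, hc]
              ring
            max := ?_ }, rfl⟩
  intro f hf
  have hfu : ¬ 𝒞.IsU (f : F) := fun hu => hf ((dln_isU_iff_isUnit 𝒞.toDlLocal f).mp hu)
  obtain ⟨a, b, c, ha, hb, hc', e⟩ := P₂.max (f : F) f.2 hfu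
  refine ⟨⟨a, ha⟩, ⟨b * (t * t' / 𝒞.pi ^ k), 𝒞.A.mul_mem hb hψ.1⟩, ⟨c, hc'⟩, ?_⟩
  show (f : F) = a * t + b * (t * t' / 𝒞.pi ^ k) * (𝒞.pi ^ k / t) + c * 𝒞.pi
  rw [e, hP₂t, hP₂t']
  have := pow_ne_zero k hπ
  field_simp

/-- **`dln_normal`**: the normal form of a crossing -/
noncomputable def toNode : DlNode L F := 𝒞.exists_node.choose

@[simp] theorem toNode_toDlLocal : 𝒞.toNode.toDlLocal = 𝒞.toDlLocal := 𝒞.exists_node.choose_spec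

end DlCross

/-- **`dln_normal`**, helper2's literal form -/
theorem dln_normal (𝒞 : DlCross L F) : ∃ 𝒩 : DlNode L F, 𝒩.toDlLocal = 𝒞.toDlLocal :=
  𝒞.exists_node

end Fermat.Agent.Delta
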